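import Fermat.Agent.S28.Interface
import Fermat.Agent.S24.JBridge
import Fermat.Prelude.Thm_ModularFormClass_qCoeff_heckeT
import Fermat.Prelude.Thm_ModularForm_heckeT_slash_eq_self_of_mem_Gamma0
import Fermat.Prelude.Thm_ModularForm_mdifferentiable_heckeT
import Fermat.Prelude.Thm_ModularFormClass_isBoundedAt_heckeT

set_option autoImplicit false

noncomputable section

namespace Fermat.Agent.S28

open ModularCurve Polynomial UpperHalfPlane ModularForm EisensteinSeries
open scoped MatrixGroups Manifold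

/-- The coefficient embedding `ℤ⟦X⟧ → ℂ⟦X⟧`. -/
abbrev iZC : PowerSeries ℤ →+* PowerSeries ℂ := PowerSeries.map (Int.castRingHom ℂ)

lemma iZC_injective : Function.Injective iZC :=
  PowerSeries.map_injective _ (RingHom.injective_int _)

/-- `Δ` as a modular form. -/
def DeltaMF : ModularForm 𝒮ℒ 12 := ModularFormClass.modularForm CuspForm.discriminant

lemma qExpansion_DeltaMF : qExpansion 1 DeltaMF = iZC Dl :=
  Fermat.Agent.S24.qExpansion_discriminant

lemma qExpansion_E4 : qExpansion 1 E₄ = iZC eisenstein4 := Fermat.Agent.S24.qExpansion_E₄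

/-- The form `E₄^{3 n} Δ^m` of weight `12 (n + m)`. -/
def monoForm (n m : ℕ) : ModularForm 𝒮ℒ (12 * ((n + m : ℕ) : ℤ)) :=
  ModularForm.mcast (by push_cast; ring) ((E₄.pow (3 * n)).mul (DeltaMF.pow m))

lemma qExpansion_monoForm (n m : ℕ) : qExpansion 1 (monoForm n m) = iZC (E3 ^ n * Dl ^ m) := by
  rw [monoForm, ModularForm.qExpansion_mcast,
    ModularForm.qExpansion_mul one_pos one_mem_strictPeriods_SL,
    ModularForm.qExpansion_pow one_pos one_mem_strictPeriods_SL,
    ModularForm.qExpansion_pow one_pos one_mem_strictPeriods_SL, qExpansion_DeltaMF, qExpansion_E4,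
    map_mul, map_pow, map_pow, E3, map_pow, ← pow_mul]

lemma constantCoeff_E3 : PowerSeries.constantCoeff E3 = 1 := by
  rw [E3, map_pow, constantCoeff_eisenstein4, one_pow]

lemma Dl_ne_zero : Dl ≠ 0 := by
  intro h
  have h1 := congrArg (PowerSeries.coeff 1) h
  rw [Dl, PowerSeries.coeff_succ_X_mul, PowerSeries.coeff_zero_eq_constantCoeff,
    constantCoeff_dedekindEtaUnit] at h1
  simp at h1

/-- Every level one form of weight `12 w` with integral `q`-expansion is an integral combination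
of the `E₄^{3 i} Δ^{w - i}`. -/
theorem exists_int_combination (w : ℕ) :
    ∀ (G : ModularForm 𝒮ℒ (12 * (w : ℤ))) (P : PowerSeries ℤ), qExpansion 1 G = iZC P →
      ∃ c : ℕ → ℤ, P = ∑ i ∈ Finset.range (w + 1), PowerSeries.C (c i) * (E3 ^ i * Dl ^ (w - i)) := by
  induction w with
  | zero =>
    intro G P hP
    obtain ⟨c, hc⟩ := ModularFormClass.levelOne_weight_zero_const
      (ModularForm.mcast (by simp : 12 * ((0 : ℕ) : ℤ) = 0) G)
    have h1 : (⇑G : ℍ → ℂ) = c • ⇑(1 : ModularForm 𝒮ℒ 0) := by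
      rw [ModularForm.coe_mcast] at hc
      rw [hc]
      ext z
      simp
    have h2 : qExpansion 1 G = PowerSeries.C c := by
      rw [h1, ModularForm.qExpansion_smul one_pos one_mem_strictPeriods_SL,
        ModularForm.qExpansion_one, PowerSeries.smul_eq_C_mul, mul_one]
    refine ⟨fun _ => PowerSeries.coeff 0 P, ?_⟩
    simp only [zero_add, Finset.range_one, Finset.sum_singleton, pow_zero, mul_one, Nat.sub_self]
    ext n
    rw [PowerSeries.coeff_C]
    split_ifs with hn
    · rw [hn]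
    · have h3 := congrArg (PowerSeries.coeff n) (hP.symm.trans h2)
      rw [PowerSeries.coeff_map, PowerSeries.coeff_C, if_neg hn] at h3
      simpa using h3
  | succ w ih =>
    intro G P hP
    set a0 : ℤ := PowerSeries.coeff 0 P with ha0
    set E : ModularForm 𝒮ℒ (12 * ((w + 1 : ℕ) : ℤ)) := monoForm (w + 1) 0 with hE
    set G' : ModularForm 𝒮ℒ (12 * ((w + 1 : ℕ) : ℤ)) := G - (a0 : ℂ) • E with hG'
    set P' : PowerSeries ℤ := P - PowerSeries.C a0 * E3 ^ (w + 1) with hP'
    have hqG' : qExpansion 1 G' = iZC P' := by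
      rw [hG', FunLike.coe_sub, ModularForm.qExpansion_sub one_pos one_mem_strictPeriods_SL,
        FunLike.coe_smul, ModularForm.qExpansion_smul one_pos one_mem_strictPeriods_SL, hP, hE,
        qExpansion_monoForm, hP', pow_zero, mul_one, map_sub, map_mul, PowerSeries.smul_eq_C_mul]
      congr 2
      ext n
      simp
    have hP'0 : PowerSeries.constantCoeff P' = 0 := by
      rw [hP', map_sub, map_mul, map_pow, constantCoeff_E3, one_pow, mul_one,
        PowerSeries.constantCoeff_C, ha0, PowerSeries.coeff_zero_eq_constantCoeff, sub_self]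
    have hcusp : (qExpansion 1 G').coeff 0 = 0 := by
      rw [hqG', PowerSeries.coeff_map, PowerSeries.coeff_zero_eq_constantCoeff, hP'0, map_zero]
    obtain ⟨P'', hP''⟩ := PowerSeries.X_dvd_iff.mpr hP'0
    set Q : PowerSeries ℤ := P'' * dedekindEtaUnitInv with hQ
    have hDQ : Dl * Q = P' := by
      rw [hP'', hQ, Dl]
      calc PowerSeries.X * dedekindEtaUnit * (P'' * dedekindEtaUnitInv)
          = PowerSeries.X * P'' * (dedekindEtaUnit * dedekindEtaUnitInv) := by ring
        _ = PowerSeries.X * P'' := by rw [dedekindEtaUnit_mul_inv, mul_one]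
    have hg := qExpansion_eq_qExpansion_discriminant_mul G' hcusp
    set g : ModularForm 𝒮ℒ (12 * (w : ℤ)) := ModularForm.mcast (by push_cast; ring)
      (CuspForm.discriminantEquiv (toCuspForm G' hcusp)) with hgdef
    have hqg : qExpansion 1 g = iZC Q := by
      have h1 : iZC Dl * qExpansion 1 g = iZC Dl * iZC Q := by
        rw [← map_mul, hDQ, ← hqG', hg, hgdef, ModularForm.qExpansion_mcast]
        congr 1
        exact qExpansion_DeltaMF.symm
      exact mul_left_cancel₀ (by
        rw [Ne, map_eq_zero_iff _ iZC_injective]; exact Dl_ne_zero) h1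
    obtain ⟨c, hc⟩ := ih g Q hqg
    refine ⟨fun i => if i = w + 1 then a0 else c i, ?_⟩
    rw [Finset.sum_range_succ]
    simp only [if_true, Nat.sub_self, pow_zero, mul_one]
    have h2 : P = Dl * Q + PowerSeries.C a0 * E3 ^ (w + 1) := by rw [hDQ, hP']; ring
    rw [h2, hc, Finset.mul_sum]
    congr 1
    refine Finset.sum_congr rfl fun i hi => ?_
    have hi' : i < w + 1 := Finset.mem_range.mp hi
    rw [if_neg (by omega), show w + 1 - i = (w - i) + 1 by omega, pow_succ]
    ring

lemma mem_Gamma0_one {γ : GL (Fin 2) ℝ} (hγ : γ ∈ 𝒮ℒ) :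
    γ ∈ (CongruenceSubgroup.Gamma0 1 : Subgroup (GL (Fin 2) ℝ)) := by
  obtain ⟨δ, rfl⟩ := hγ
  exact Subgroup.mem_map_of_mem _ (CongruenceSubgroup.Gamma0_mem.mpr (Subsingleton.elim _ _))

lemma mem_SL_of_mem_Gamma0_one {γ : GL (Fin 2) ℝ}
    (hγ : γ ∈ (CongruenceSubgroup.Gamma0 1 : Subgroup (GL (Fin 2) ℝ))) : γ ∈ 𝒮ℒ := by
  obtain ⟨δ, -, rfl⟩ := Subgroup.mem_map.mp hγ
  exact ⟨δ, rfl⟩

/-- `T_p` on level one forms. -/
def heckeLevelOne (k : ℤ) {p : ℕ} (hp : p.Prime) (f : ModularForm 𝒮ℒ k) : ModularForm 𝒮ℒ k where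
  toFun := heckeT k p ⇑f
  slash_action_eq' γ hγ :=
    heckeT_slash_eq_self_of_mem_Gamma0 (N := 1) k hp (by rw [Nat.dvd_one]; exact hp.ne_one)
      (fun γ hγ => f.slash_action_eq' γ (mem_SL_of_mem_Gamma0_one hγ)) γ (mem_Gamma0_one hγ)
  holo' := mdifferentiable_heckeT f.holo' k p
  bdd_at_cusps' hc := ModularFormClass.isBoundedAt_heckeT f p hc

theorem statementA : StatementA := by
  intro p hp n m hnm
  set F := monoForm n m with hF
  set T := heckeLevelOne (12 * ((n + m : ℕ) : ℤ)) hp F with hT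
  refine exists_int_combination (n + m) T _ ?_
  ext j
  have h1 := ModularFormClass.qCoeff_heckeT F one_mem_strictPeriods_SL hp.ne_zero j
  simp only [ModularFormClass.qCoeff] at h1
  have h2 : (⇑T : ℍ → ℂ) = heckeT (12 * ((n + m : ℕ) : ℤ)) p ⇑F := rfl
  have h3 : (12 * ((n + m : ℕ) : ℤ) - 1) = ((12 * (n + m) - 1 : ℕ) : ℤ) := by omega
  rw [h2, h1, coeffHeckeT_apply, hF]
  simp only [ModularFormClass.qCoeff]
  rw [qExpansion_monoForm, h3, zpow_natCast]
  simp only [PowerSeries.coeff_map, heckeZ, PowerSeries.coeff_mk, eq_intCast]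
  split_ifs <;> push_cast <;> ring

end Fermat.Agent.S28
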