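import Fermat.Agent.S28.BDefs

/-! # S28, block B: polynomials in `j` are determined by their polar part; descent `ℚ → ℤ` -/

set_option autoImplicit false

noncomputable section

namespace Fermat.Agent.S28

open ModularCurve Polynomial

variable (L : Type*) [Field L] [CharZero L]

theorem bd_algebraMap_rat (r : ℚ) :
    algebraMap ℚ (LaurentSeries L) r = HahnSeries.C (algebraMap ℚ L r) :=
  DFunLike.congr_fun (Subsingleton.elim (algebraMap ℚ (LaurentSeries L))
    ((HahnSeries.C : L →+* LaurentSeries L).comp (algebraMap ℚ L))) r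

theorem bd_coeff_aeval (x : LaurentSeries L) (g : ℚ[X]) (n : ℤ) :
    (aeval x g).coeff n =
      ∑ i ∈ Finset.range (g.natDegree + 1), algebraMap ℚ L (g.coeff i) * (x ^ i).coeff n := by
  rw [aeval_eq_sum_range, HahnSeries.coeff_sum]
  refine Finset.sum_congr rfl fun i _ => ?_
  rw [Algebra.smul_def, bd_algebraMap_rat, HahnSeries.C_mul_eq_smul, HahnSeries.coeff_smul,
    smul_eq_mul]

theorem coeff_aeval_jqModC_natDegree (g : ℚ[X]) :
    (aeval (jqModC L) g).coeff (-(g.natDegree : ℤ)) = algebraMap ℚ L g.leadingCoeff := by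
  rw [bd_coeff_aeval, Finset.sum_range_succ, coeff_jqModC_pow_self, mul_one,
    Finset.sum_eq_zero, zero_add]
  · rfl
  · intro i hi
    rw [coeff_jqModC_pow_of_lt, mul_zero]
    have := Finset.mem_range.mp hi
    omega

omit [CharZero L] in
theorem bd_coeff_jqModC_pow (d : ℕ) (n : ℤ) :
    (jqModC L ^ d).coeff n = (((jqModC ℤ ^ d).coeff n : ℤ) : L) := by
  rw [← coeffMap_jqModC (Int.castRingHom L), ← map_pow, coeffMap_coeff]
  rfl

theorem descent_j (g : ℚ[X]) (h : ∀ n, IsIntegral ℤ ((aeval (jqModC L) g).coeff n)) :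
    ∃ g' : ℤ[X], g'.map (Int.castRingHom ℚ) = g := by
  induction hk : g.support.card using Nat.strong_induction_on generalizing g with
  | _ k ih =>
    by_cases hg : g = 0
    · exact ⟨0, by simp [hg]⟩
    · have h1 := h (-(g.natDegree : ℤ))
      rw [coeff_aeval_jqModC_natDegree] at h1
      rw [isIntegral_algebraMap_iff (algebraMap ℚ L).injective,
        IsIntegrallyClosed.isIntegral_iff] at h1
      obtain ⟨m, hm⟩ := h1
      have hsplit : g = g.eraseLead + monomial g.natDegree g.leadingCoeff :=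
        (eraseLead_add_monomial_natDegree_leadingCoeff g).symm
      have hint : ∀ n, IsIntegral ℤ ((aeval (jqModC L) g.eraseLead).coeff n) := by
        intro n
        have e1 : aeval (jqModC L) g.eraseLead =
            aeval (jqModC L) g - aeval (jqModC L) (monomial g.natDegree g.leadingCoeff) := by
          rw [eq_sub_iff_add_eq, ← map_add, eraseLead_add_monomial_natDegree_leadingCoeff]
        rw [e1, HahnSeries.coeff_sub]
        refine (h n).sub ?_
        rw [aeval_monomial, bd_algebraMap_rat, HahnSeries.C_mul_eq_smul, HahnSeries.coeff_smul,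
          smul_eq_mul, bd_coeff_jqModC_pow, ← hm]
        have : (algebraMap ℚ L) ((algebraMap ℤ ℚ) m) * (((jqModC ℤ ^ g.natDegree).coeff n : ℤ) : L)
            = algebraMap ℤ L (m * (jqModC ℤ ^ g.natDegree).coeff n) := by
          simp
        rw [this]
        exact isIntegral_algebraMap
      obtain ⟨g₁, hg₁⟩ := ih _ (hk ▸ eraseLead_support_card_lt hg) g.eraseLead hint rfl
      refine ⟨g₁ + monomial g.natDegree m, ?_⟩
      rw [Polynomial.map_add, hg₁, map_monomial]
      conv_rhs => rw [hsplit]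
      rw [← hm]
      rfl

theorem const_of_no_pole (g : ℚ[X]) (h : ∀ n < 0, (aeval (jqModC L) g).coeff n = 0) :
    g = C (g.coeff 0) := by
  apply eq_C_of_natDegree_eq_zero
  by_contra hd
  have hpos : 0 < g.natDegree := Nat.pos_of_ne_zero hd
  have h1 := h (-(g.natDegree : ℤ)) (by omega)
  rw [coeff_aeval_jqModC_natDegree, map_eq_zero, leadingCoeff_eq_zero] at h1
  rw [h1] at hpos
  simp at hpos

variable (p : ℕ) [NeZero p]

theorem aeval_jBase_eq (g : ℚ[X]) :
    aeval (jBase p L) g = qExpand L p (aeval (jqModC L) g) := by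
  have := aeval_algHom_apply (qExpand L p).toRatAlgHom (jqModC L) g
  exact this

theorem evBase_eq_aeval (g : ℤ[X]) :
    evBase p L g = aeval (jBase p L) (g.map (Int.castRingHom ℚ)) := by
  rw [aeval_def, eval₂_map, evBase, coe_eval₂RingHom]
  congr 1
  exact Subsingleton.elim _ _

theorem descent_jBase (g : ℚ[X]) (h : ∀ n, IsIntegral ℤ ((aeval (jBase p L) g).coeff n)) :
    ∃ g' : ℤ[X], evBase p L g' = aeval (jBase p L) g := by
  obtain ⟨g', hg'⟩ := descent_j L g (fun n => by
    have := h ((p : ℤ) * n)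
    rwa [aeval_jBase_eq, qExpand_coeff_mul] at this)
  exact ⟨g', by rw [evBase_eq_aeval, hg']⟩

theorem eq_C_of_isMono (g : ℚ[X]) (c : L) (h : IsMono (aeval (jBase p L) g) 0 c) :
    ∃ q : ℚ, algebraMap ℚ L q = c ∧ g = C q := by
  obtain ⟨f, hf, hx⟩ := h
  have hcoeff : ∀ n : ℤ, (aeval (jBase p L) g).coeff n =
      c * (HahnSeries.ofPowerSeries ℤ L f).coeff n := by
    intro n
    rw [hx, ← HahnSeries.C_apply, HahnSeries.C_mul_eq_smul, HahnSeries.coeff_smul, smul_eq_mul]
  have hneg : ∀ n < 0, (aeval (jqModC L) g).coeff n = 0 := by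
    intro n hn
    rw [← qExpand_coeff_mul p, ← aeval_jBase_eq, hcoeff]
    have hp : (0 : ℤ) < p := by exact_mod_cast Nat.pos_of_ne_zero (NeZero.ne p)
    have : (p : ℤ) * n < 0 := mul_neg_of_pos_of_neg hp hn
    rw [HahnSeries.ofPowerSeries_apply, HahnSeries.embDomain_of_notMem_range, mul_zero]
    rintro ⟨m, hm⟩
    simp at hm
    omega
  have hC := const_of_no_pole L g hneg
  refine ⟨g.coeff 0, ?_, hC⟩
  have h0 := hcoeff 0
  rw [hC, aeval_C, bd_algebraMap_rat, HahnSeries.C_apply, HahnSeries.coeff_single_same] at h0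
  rw [h0]
  have : (HahnSeries.ofPowerSeries ℤ L f).coeff 0 = 1 := by
    have := HahnSeries.ofPowerSeries_apply_coeff (Γ := ℤ) f 0
    simpa [hf] using this
  rw [this, mul_one]

theorem evBase_injective : Function.Injective (evBase p L) := by
  rw [injective_iff_map_eq_zero]
  intro g hg
  rw [evBase_eq_aeval, aeval_jBase_eq] at hg
  have h0 : aeval (jqModC L) (g.map (Int.castRingHom ℚ)) = 0 :=
    qExpand_injective p (by rw [hg, map_zero])
  have h1 := coeff_aeval_jqModC_natDegree L (g.map (Int.castRingHom ℚ))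
  rw [h0, HahnSeries.coeff_zero] at h1
  have h2 : (g.map (Int.castRingHom ℚ)).leadingCoeff = 0 := by
    have := h1.symm
    rwa [map_eq_zero] at this
  rw [leadingCoeff_eq_zero] at h2
  exact (Polynomial.map_eq_zero_iff (RingHom.injective_int (Int.castRingHom ℚ))).mp h2

end Fermat.Agent.S28
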