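import Fermat.Agent.S28.BDefs

/-! # S28, block B: leading terms; the product of the units `u_s` is `c₀ (1 + O(y))` -/

set_option autoImplicit false

noncomputable section

namespace Fermat.Agent.S28

open ModularCurve Polynomial

variable {Λ : Type*} [CommRing Λ]

theorem IsMono.congr {x : LaurentSeries Λ} {k l : ℤ} {c d : Λ} (hx : IsMono x k c)
    (hk : k = l) (hc : c = d) : IsMono x l d := by
  subst hk; subst hc; exact hx

theorem IsMono.mul {x y : LaurentSeries Λ} {k l : ℤ} {c d : Λ} (hx : IsMono x k c)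
    (hy : IsMono y l d) : IsMono (x * y) (k + l) (c * d) := by
  obtain ⟨f, hf, rfl⟩ := hx
  obtain ⟨g, hg, rfl⟩ := hy
  refine ⟨f * g, by rw [map_mul, hf, hg, one_mul], ?_⟩
  rw [map_mul (HahnSeries.ofPowerSeries ℤ Λ), ← HahnSeries.single_mul_single]
  ring

theorem IsMono.one : IsMono (1 : LaurentSeries Λ) 0 1 := by
  refine ⟨1, map_one _, ?_⟩
  rw [map_one (HahnSeries.ofPowerSeries ℤ Λ), mul_one]
  rfl

theorem IsMono.pow {x : LaurentSeries Λ} {k : ℤ} {c : Λ} (hx : IsMono x k c) (n : ℕ) :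
    IsMono (x ^ n) (n * k) (c ^ n) := by
  induction n with
  | zero => simpa using IsMono.one (Λ := Λ)
  | succ n ih =>
    rw [pow_succ, pow_succ]
    exact (ih.mul hx).congr (by push_cast; ring) rfl

theorem IsMono.prod {ι : Type*} (s : Finset ι) (x : ι → LaurentSeries Λ) (k : ι → ℤ) (c : ι → Λ)
    (h : ∀ i ∈ s, IsMono (x i) (k i) (c i)) :
    IsMono (∏ i ∈ s, x i) (∑ i ∈ s, k i) (∏ i ∈ s, c i) := by
  classical
  induction s using Finset.induction_on with
  | empty => simpa using IsMono.one (Λ := Λ)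
  | insert a s ha ih =>
    rw [Finset.prod_insert ha, Finset.sum_insert ha, Finset.prod_insert ha]
    exact (h a (Finset.mem_insert_self a s)).mul
      (ih fun i hi => h i (Finset.mem_insert_of_mem hi))

theorem IsMono.natCast (n : ℕ) : IsMono (n : LaurentSeries Λ) 0 (n : Λ) := by
  refine ⟨1, map_one _, ?_⟩
  rw [map_one (HahnSeries.ofPowerSeries ℤ Λ), mul_one]
  have : (n : LaurentSeries Λ) = HahnSeries.C (n : Λ) := (map_natCast HahnSeries.C n).symm
  rw [this]
  rfl

theorem mono_qExpand_ofPowerSeries (p : ℕ) [NeZero p] (f : PowerSeries Λ) :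
    qExpand Λ p (HahnSeries.ofPowerSeries ℤ Λ f) = HahnSeries.ofPowerSeries ℤ Λ
      (PowerSeries.mk fun n => if p ∣ n then PowerSeries.coeff (n / p) f else 0) := by
  have hp : 0 < p := Nat.pos_of_ne_zero (NeZero.ne p)
  ext n
  by_cases hn : n < 0
  · rw [ofPowerSeries_coeff_of_neg _ hn]
    by_cases hd : (p : ℤ) ∣ n
    · obtain ⟨m, rfl⟩ := hd
      rw [qExpand_coeff_mul]
      apply ofPowerSeries_coeff_of_neg
      by_contra hm
      push Not at hm
      have : 0 ≤ (p : ℤ) * m := mul_nonneg (by positivity) hm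
      omega
    · exact qExpand_coeff_of_not_dvd _ _ hd
  · push Not at hn
    obtain ⟨m, rfl⟩ := Int.eq_ofNat_of_zero_le hn
    rw [HahnSeries.ofPowerSeries_apply_coeff, PowerSeries.coeff_mk]
    by_cases hd : p ∣ m
    · rw [if_pos hd]
      obtain ⟨r, rfl⟩ := hd
      rw [Nat.mul_div_cancel_left _ hp]
      push_cast
      rw [qExpand_coeff_mul, HahnSeries.ofPowerSeries_apply_coeff]
    · rw [if_neg hd]
      apply qExpand_coeff_of_not_dvd
      intro h
      exact hd (Int.natCast_dvd_natCast.mp h)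

theorem IsMono.qExpand (p : ℕ) [NeZero p] {x : LaurentSeries Λ} {k : ℤ} {c : Λ}
    (hx : IsMono x k c) : IsMono (qExpand Λ p x) (p * k) c := by
  obtain ⟨f, hf, rfl⟩ := hx
  refine ⟨_, ?_, by rw [map_mul, qExpand_single, mono_qExpand_ofPowerSeries]⟩
  rw [← PowerSeries.coeff_zero_eq_constantCoeff_apply, PowerSeries.coeff_mk, if_pos (dvd_zero p),
    Nat.zero_div, PowerSeries.coeff_zero_eq_constantCoeff_apply, hf]

theorem mono_twist_ofPowerSeries (e : Λˣ) (f : PowerSeries Λ) :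
    twist e (HahnSeries.ofPowerSeries ℤ Λ f) =
      HahnSeries.ofPowerSeries ℤ Λ (PowerSeries.rescale (e : Λ) f) := by
  ext n
  rw [twist_coeff]
  by_cases hn : n < 0
  · rw [ofPowerSeries_coeff_of_neg _ hn, ofPowerSeries_coeff_of_neg _ hn, mul_zero]
  · push Not at hn
    obtain ⟨m, rfl⟩ := Int.eq_ofNat_of_zero_le hn
    rw [HahnSeries.ofPowerSeries_apply_coeff, HahnSeries.ofPowerSeries_apply_coeff,
      PowerSeries.coeff_rescale, zpow_natCast, Units.val_pow_eq_pow_val]

theorem mono_twist_single (e : Λˣ) (k : ℤ) (c : Λ) :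
    twist e (HahnSeries.single k c) = HahnSeries.single k (((e ^ k : Λˣ) : Λ) * c) := by
  ext n
  rw [twist_coeff]
  by_cases h : n = k
  · subst h; rw [HahnSeries.coeff_single_same, HahnSeries.coeff_single_same]
  · rw [HahnSeries.coeff_single_of_ne h, HahnSeries.coeff_single_of_ne h, mul_zero]

theorem IsMono.twist (e : Λˣ) {x : LaurentSeries Λ} {k : ℤ} {c : Λ}
    (hx : IsMono x k c) : IsMono (twist e x) k (((e ^ k : Λˣ) : Λ) * c) := by
  obtain ⟨f, hf, rfl⟩ := hx
  refine ⟨_, ?_, by rw [map_mul, mono_twist_single, mono_twist_ofPowerSeries]⟩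
  rw [← PowerSeries.coeff_zero_eq_constantCoeff_apply, PowerSeries.coeff_rescale, pow_zero, one_mul,
    PowerSeries.coeff_zero_eq_constantCoeff_apply, hf]

theorem IsMono.DlL : IsMono (DlL Λ) 1 1 := by
  refine ⟨dedekindEtaUnit.map (Int.castRingHom Λ), ?_, ?_⟩
  · rw [← PowerSeries.coeff_zero_eq_constantCoeff_apply, PowerSeries.coeff_map,
      PowerSeries.coeff_zero_eq_constantCoeff_apply, constantCoeff_dedekindEtaUnit]
    simp
  · rw [Fermat.Agent.S28.DlL, Dl, map_mul, map_mul, PowerSeries.map_X, HahnSeries.ofPowerSeries_X]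

theorem IsMono.DlLinv : IsMono (DlLinv Λ) (-1) 1 := by
  refine ⟨dedekindEtaUnitInv.map (Int.castRingHom Λ), ?_, rfl⟩
  rw [← PowerSeries.coeff_zero_eq_constantCoeff_apply, PowerSeries.coeff_map,
    PowerSeries.coeff_zero_eq_constantCoeff_apply, constantCoeff_dedekindEtaUnitInv]
  simp

theorem IsMono.coeff_of_lt {x : LaurentSeries Λ} {k : ℤ} {c : Λ} (hx : IsMono x k c) {n : ℤ}
    (hn : n < k) : x.coeff n = 0 := by
  obtain ⟨f, _, rfl⟩ := hx
  rw [HahnSeries.coeff_single_mul, ofPowerSeries_coeff_of_neg _ (by omega), mul_zero]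

theorem IsMono.coeff_self {x : LaurentSeries Λ} {k : ℤ} {c : Λ} (hx : IsMono x k c) :
    x.coeff k = c := by
  obtain ⟨f, hf, rfl⟩ := hx
  rw [HahnSeries.coeff_single_mul, sub_self, show (0 : ℤ) = ((0 : ℕ) : ℤ) from rfl,
    HahnSeries.ofPowerSeries_apply_coeff, PowerSeries.coeff_zero_eq_constantCoeff_apply, hf, mul_one]

/-- the product of all units is `p¹² ∏ ζ^b (1 + O(y))`. -/
theorem isMono_prod_unitFam (p : ℕ) [NeZero p] (ζ : Λˣ) :
    IsMono (∏ s, unitFam p ζ s) 0 ((p : Λ) ^ 12 * ∏ b ∈ Finset.range p, ((ζ ^ b : Λˣ) : Λ)) := by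
  rw [Fintype.prod_option]
  have h0 : IsMono (unitFam p ζ none) ((p : ℤ) * p - p) ((p : Λ) ^ 12) := by
    have := (((IsMono.natCast (Λ := Λ) p).pow 12).mul
      ((IsMono.DlL (Λ := Λ)).qExpand p |>.qExpand p)).mul ((IsMono.DlLinv (Λ := Λ)).qExpand p)
    exact this.congr (by ring) (by ring)
  have h1 : ∀ b ∈ (Finset.univ : Finset (Fin p)),
      IsMono (unitFam p ζ (some b)) (1 - (p : ℤ)) ((ζ ^ (b : ℕ) : Λˣ) : Λ) := by
    intro b _
    have := ((IsMono.DlL (Λ := Λ)).twist (ζ ^ (b : ℕ))).mul ((IsMono.DlLinv (Λ := Λ)).qExpand p)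
    exact this.congr (by ring) (by simp)
  have h2 := h0.mul (IsMono.prod _ _ _ _ h1)
  refine h2.congr ?_ ?_
  · simp only [Finset.sum_const, Finset.card_univ, Fintype.card_fin, nsmul_eq_mul]
    ring
  · rw [Finset.prod_range]

end Fermat.Agent.S28
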