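import Fermat.Agent.S28.BSeries

/-! # S28, block B: the power sums `∑_s a_s^n u_s^m` are polynomials in `j(y^p)` over `ℤ` -/

set_option autoImplicit false

noncomputable section

namespace Fermat.Agent.S28

open ModularCurve Polynomial

section Aux

variable {Λ : Type*} [CommRing Λ]

theorem bps_natCast_eq_C (a : ℕ) : (a : LaurentSeries Λ) = HahnSeries.C (a : Λ) := rfl

theorem bps_natCast_pow_mul_coeff (a k : ℕ) (x : LaurentSeries Λ) (n : ℤ) :
    ((a : LaurentSeries Λ) ^ k * x).coeff n = (a : Λ) ^ k * x.coeff n := by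
  rw [bps_natCast_eq_C, ← map_pow, HahnSeries.C_mul_eq_smul, HahnSeries.coeff_smul, smul_eq_mul]

theorem bps_natCast_mul_coeff (a : ℕ) (x : LaurentSeries Λ) (n : ℤ) :
    ((a : LaurentSeries Λ) * x).coeff n = (a : Λ) * x.coeff n := by
  rw [bps_natCast_eq_C, HahnSeries.C_mul_eq_smul, HahnSeries.coeff_smul, smul_eq_mul]

theorem bps_toL_coeff_natCast (h : PowerSeries ℤ) (m : ℕ) :
    (toL Λ h).coeff (m : ℤ) = ((PowerSeries.coeff m h : ℤ) : Λ) := by
  rw [toL_apply]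
  have := HahnSeries.ofPowerSeries_apply_coeff (Γ := ℤ) (h.map (Int.castRingHom Λ)) m
  rw [this]
  simp

theorem bps_toL_coeff_neg (h : PowerSeries ℤ) {n : ℤ} (hn : n < 0) :
    (toL Λ h).coeff n = 0 := by
  rw [toL_apply, HahnSeries.ofPowerSeries_apply]
  refine HahnSeries.embDomain_of_notMem_range ?_
  rintro ⟨m, hm⟩
  simp at hm
  omega

end Aux

variable {Λ : Type*} [CommRing Λ] (p : ℕ) [NeZero p] (ζ : Λˣ)

/-- `p^k h(y^{p²}) + ∑_b h(ζ^b y) = p (T_p h)(y^p)`. -/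
theorem sum_twist_toL
    (hζ : ∀ k : ℤ, ∑ b ∈ Finset.range p, (((ζ ^ b) ^ k : Λˣ) : Λ) = if (p : ℤ) ∣ k then (p : Λ) else 0)
    (k : ℕ) (hk : 0 < k) (h : PowerSeries ℤ) :
    (p : LaurentSeries Λ) ^ k * qExpand Λ p (qExpand Λ p (toL Λ h)) +
      ∑ b ∈ Finset.range p, twist (ζ ^ b) (toL Λ h) =
    (p : LaurentSeries Λ) * qExpand Λ p (toL Λ (heckeZ k p h)) := by
  have hp0 : (p : ℤ) ≠ 0 := by exact_mod_cast NeZero.ne p
  have hppos : 0 < p := Nat.pos_of_ne_zero (NeZero.ne p)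
  ext n
  rw [HahnSeries.coeff_add, bps_natCast_pow_mul_coeff, bps_natCast_mul_coeff, HahnSeries.coeff_sum]
  simp only [twist_coeff]
  rw [← Finset.sum_mul, hζ n]
  by_cases hpn : (p : ℤ) ∣ n
  · obtain ⟨m, rfl⟩ := hpn
    rw [if_pos (Dvd.intro _ rfl), qExpand_coeff_mul, qExpand_coeff_mul]
    rcases lt_or_ge m 0 with hm | hm
    · have h1 : (p : ℤ) * m < 0 := mul_neg_of_pos_of_neg (by exact_mod_cast hppos) hm
      rw [bps_toL_coeff_neg _ h1, bps_toL_coeff_neg _ hm]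
      have h2 : (qExpand Λ p (toL Λ h)).coeff m = 0 := by
        by_cases hpm : (p : ℤ) ∣ m
        · obtain ⟨m', rfl⟩ := hpm
          rw [qExpand_coeff_mul]
          refine bps_toL_coeff_neg _ ?_
          by_contra hcon
          push Not at hcon
          have : 0 ≤ (p : ℤ) * m' := mul_nonneg (by positivity) hcon
          omega
        · exact qExpand_coeff_of_not_dvd p _ hpm
      rw [h2]; ring
    · obtain ⟨m, rfl⟩ := Int.eq_ofNat_of_zero_le hm
      rw [show (p : ℤ) * (m : ℤ) = ((p * m : ℕ) : ℤ) by push_cast; ring, bps_toL_coeff_natCast,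
        bps_toL_coeff_natCast]
      unfold heckeZ
      rw [PowerSeries.coeff_mk, mul_comm m p]
      by_cases hpm : p ∣ m
      · obtain ⟨m', rfl⟩ := hpm
        rw [if_pos (Dvd.intro _ rfl), Nat.mul_div_cancel_left _ hppos]
        rw [show ((p * m' : ℕ) : ℤ) = (p : ℤ) * (m' : ℤ) by push_cast; ring, qExpand_coeff_mul,
          bps_toL_coeff_natCast]
        obtain ⟨k', rfl⟩ : ∃ k', k = k' + 1 := ⟨k - 1, by omega⟩
        push_cast
        ring
      · rw [if_neg hpm, qExpand_coeff_of_not_dvd p _ (by exact_mod_cast hpm)]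
        push_cast
        ring
  · rw [if_neg hpn, qExpand_coeff_of_not_dvd p _ hpn, qExpand_coeff_of_not_dvd p _ hpn]
    ring

theorem sum_numFam_pow_mul_unitFam_pow (n m : ℕ) :
    ∑ s, numFam p ζ s ^ n * unitFam p ζ s ^ m =
      ((p : LaurentSeries Λ) ^ (12 * (n + m)) * qExpand Λ p (qExpand Λ p (toL Λ (E3 ^ n * Dl ^ m))) +
        ∑ b ∈ Finset.range p, twist (ζ ^ b) (toL Λ (E3 ^ n * Dl ^ m))) *
      qExpand Λ p (DlLinv Λ) ^ (n + m) := by
  rw [Fintype.sum_option, add_mul, Finset.sum_mul, ← Fin.sum_univ_eq_sum_range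
    (fun b => twist (ζ ^ b) (toL Λ (E3 ^ n * Dl ^ m)) * qExpand Λ p (DlLinv Λ) ^ (n + m))]
  congr 1
  · simp only [numFam, unitFam, unitInf, DlL_eq_toL, map_mul, map_pow]
    ring
  · refine Finset.sum_congr rfl fun b _ => ?_
    simp only [numFam, unitFam, unitFin, DlL_eq_toL, map_mul, map_pow]
    ring

theorem powerSum_mem (hA : StatementA) (hp : p.Prime)
    (hζ : ∀ k : ℤ, ∑ b ∈ Finset.range p, (((ζ ^ b) ^ k : Λˣ) : Λ) = if (p : ℤ) ∣ k then (p : Λ) else 0)
    (n m : ℕ) :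
    ∃ g : ℤ[X], ∑ s, numFam p ζ s ^ n * unitFam p ζ s ^ m = evBase p Λ g := by
  rcases Nat.eq_zero_or_pos (n + m) with h0 | hpos
  · obtain ⟨rfl, rfl⟩ : n = 0 ∧ m = 0 := by omega
    refine ⟨C ((p : ℤ) + 1), ?_⟩
    simp [evBase]
  · obtain ⟨c, hc⟩ := hA p hp n m hpos
    refine ⟨C (p : ℤ) * ∑ i ∈ Finset.range (n + m + 1), C (c i) * X ^ i, ?_⟩
    have h1 : qExpand Λ p (evJ Λ (C (p : ℤ))) = (p : LaurentSeries Λ) := by
      simp [evJ]
    have h2 : toL Λ (∑ i ∈ Finset.range (n + m + 1),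
          PowerSeries.C (c i) * (E3 ^ i * Dl ^ (n + m - i))) * DlLinv Λ ^ (n + m)
        = evJ Λ (∑ i ∈ Finset.range (n + m + 1), C (c i) * X ^ i) := by
      rw [map_sum, map_sum, Finset.sum_mul]
      refine Finset.sum_congr rfl fun i hi => ?_
      have hi' : i ≤ n + m := by
        have := Finset.mem_range.mp hi
        omega
      rw [map_mul, mul_assoc, toL_mul_DlLinv_pow Λ (n + m) i hi', map_mul, map_pow]
      have h3 : toL Λ (PowerSeries.C (c i)) = evJ Λ (C (c i)) := by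
        simp [evJ, toL]
      have h4 : evJ Λ X = jqModC Λ := by
        simp [evJ]
      rw [h3, h4]
    rw [sum_numFam_pow_mul_unitFam_pow, sum_twist_toL p ζ hζ (12 * (n + m)) (by omega), hc,
      evBase_eq, ← map_pow, mul_assoc, ← map_mul, h2, map_mul (evJ Λ), map_mul (qExpand Λ p), h1]

end Fermat.Agent.S28
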