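import Fermat.Agent.S28.BDefs

/-! # S28, block B: basic identities and naturality (`coeffMap`) of the series -/

set_option autoImplicit false

noncomputable section

namespace Fermat.Agent.S28

open ModularCurve Polynomial

section Basic

variable (Λ : Type*) [CommRing Λ]

theorem bs_toL_X : toL Λ PowerSeries.X = HahnSeries.single (1 : ℤ) 1 := by
  rw [toL_apply, PowerSeries.map_X, HahnSeries.ofPowerSeries_X]

theorem bs_DlLinv_eq : DlLinv Λ = HahnSeries.single (-1 : ℤ) 1 * toL Λ dedekindEtaUnitInv := rfl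

theorem DlL_mul_DlLinv : DlL Λ * DlLinv Λ = 1 := by
  rw [DlL_eq_toL, bs_DlLinv_eq, Dl, map_mul, bs_toL_X]
  calc HahnSeries.single (1 : ℤ) (1 : Λ) * toL Λ dedekindEtaUnit *
        (HahnSeries.single (-1 : ℤ) 1 * toL Λ dedekindEtaUnitInv)
      = (HahnSeries.single (1 : ℤ) (1 : Λ) * HahnSeries.single (-1 : ℤ) 1) *
        toL Λ (dedekindEtaUnit * dedekindEtaUnitInv) := by rw [map_mul]; ring
    _ = 1 := by
        rw [dedekindEtaUnit_mul_inv, (toL Λ).map_one, HahnSeries.single_mul_single]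
        simp

theorem jqModC_eq : jqModC Λ = toL Λ E3 * DlLinv Λ := by
  rw [bs_DlLinv_eq, jqModC, ← toL_apply, jNum, map_mul, E3]
  ring

theorem jqModC_mul_DlL : jqModC Λ * DlL Λ = toL Λ E3 := by
  rw [jqModC_eq, mul_assoc, mul_comm (DlLinv Λ), DlL_mul_DlLinv, mul_one]

/-- `E^i Δ^(w-i) / Δ^w = j^i`. -/
theorem toL_mul_DlLinv_pow (w i : ℕ) (hi : i ≤ w) :
    toL Λ (E3 ^ i * Dl ^ (w - i)) * DlLinv Λ ^ w = jqModC Λ ^ i := by
  obtain ⟨d, rfl⟩ := Nat.exists_eq_add_of_le hi
  rw [Nat.add_sub_cancel_left, map_mul, map_pow, map_pow, ← DlL_eq_toL, jqModC_eq, pow_add,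
    mul_pow]
  calc toL Λ E3 ^ i * DlL Λ ^ d * (DlLinv Λ ^ i * DlLinv Λ ^ d)
      = toL Λ E3 ^ i * DlLinv Λ ^ i * (DlL Λ * DlLinv Λ) ^ d := by rw [mul_pow]; ring
    _ = _ := by rw [DlL_mul_DlLinv, one_pow, mul_one]

variable (p : ℕ) [NeZero p]

theorem evBase_eq (g : ℤ[X]) : evBase p Λ g = qExpand Λ p (evJ Λ g) := by
  have h : evBase p Λ = (qExpand Λ p).comp (evJ Λ) := by
    apply Polynomial.ringHom_ext
    · intro a
      simp [evBase, evJ]
    · simp [evBase, evJ, jBase]
  rw [h]
  rfl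

theorem unitInf_eq :
    unitInf p Λ = qExpand Λ p ((p : LaurentSeries Λ) ^ 12 * qExpand Λ p (DlL Λ) * DlLinv Λ) := by
  rw [unitInf, map_mul, map_mul, map_pow, map_natCast]

variable {Λ}

theorem rootFam_mul_unitFam (ζ : Λˣ) (s : Option (Fin p)) :
    rootFam p ζ s * unitFam p ζ s = numFam p ζ s := by
  cases s with
  | none =>
    show rootInf p Λ * unitInf p Λ = _
    rw [rootInf, unitInf, numFam, ← jqModC_mul_DlL, map_mul, map_mul]
    ring
  | some b =>
    show rootFin ζ (b : ℕ) * unitFin p ζ (b : ℕ) = _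
    rw [rootFin, unitFin, numFam, ← jqModC_mul_DlL, map_mul]
    ring

theorem PhiB_eq (ζ : Λˣ) :
    PhiB p ζ = (X - C (rootInf p Λ)) * ∏ b ∈ Finset.range p, (X - C (rootFin ζ b)) := by
  rw [PhiB, Fintype.prod_option, ← Fin.prod_univ_eq_prod_range (fun b => X - C (rootFin ζ b)) p]
  rfl

end Basic

section Naturality

variable {R S : Type*} [CommRing R] [CommRing S] (f : R →+* S)

theorem coeffMap_injective (hf : Function.Injective f) : Function.Injective (coeffMap f) := by
  intro x y h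
  ext k
  apply hf
  rw [← coeffMap_coeff, ← coeffMap_coeff, h]

theorem coeffMap_toL (h : PowerSeries ℤ) : coeffMap f (toL R h) = toL S h := by
  rw [toL_apply, toL_apply, coeffMap_ofPowerSeries,
    ← RingHom.comp_apply (PowerSeries.map f) (PowerSeries.map (Int.castRingHom R)),
    ← PowerSeries.map_comp, RingHom.ext_int (f.comp (Int.castRingHom R)) (Int.castRingHom S)]

theorem coeffMap_DlL : coeffMap f (DlL R) = DlL S := by
  rw [DlL_eq_toL, DlL_eq_toL, coeffMap_toL]

theorem coeffMap_DlLinv : coeffMap f (DlLinv R) = DlLinv S := by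
  rw [bs_DlLinv_eq, bs_DlLinv_eq, map_mul, coeffMap_single, map_one, coeffMap_toL]

theorem coeffMap_twist (c : Rˣ) (x : LaurentSeries R) :
    coeffMap f (twist c x) = twist (Units.map (f : R →* S) c) (coeffMap f x) := by
  ext n
  rw [coeffMap_coeff, twist_coeff, twist_coeff, coeffMap_coeff, map_mul, ← map_zpow]
  rfl

variable (p : ℕ) [NeZero p]

theorem coeffMap_jBase : coeffMap f (jBase p R) = jBase p S := by
  rw [jBase, jBase, coeffMap_qExpand, coeffMap_jqModC]

theorem coeffMap_rootInf : coeffMap f (rootInf p R) = rootInf p S := by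
  rw [rootInf, rootInf, coeffMap_qExpand, coeffMap_qExpand, coeffMap_jqModC]

theorem coeffMap_unitInf : coeffMap f (unitInf p R) = unitInf p S := by
  rw [unitInf, unitInf, map_mul, map_mul, map_pow, map_natCast, coeffMap_qExpand,
    coeffMap_qExpand, coeffMap_qExpand, coeffMap_DlL, coeffMap_DlLinv]

theorem coeffMap_rootFin (ζ : Rˣ) (b : ℕ) :
    coeffMap f (rootFin ζ b) = rootFin (Units.map (f : R →* S) ζ) b := by
  rw [rootFin, rootFin, coeffMap_twist, coeffMap_jqModC, map_pow]

theorem coeffMap_unitFin (ζ : Rˣ) (b : ℕ) :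
    coeffMap f (unitFin p ζ b) = unitFin p (Units.map (f : R →* S) ζ) b := by
  rw [unitFin, unitFin, map_mul, coeffMap_twist, coeffMap_qExpand, coeffMap_DlL,
    coeffMap_DlLinv, map_pow]

theorem coeffMap_comp_evBase : (coeffMap f).comp (evBase p R) = evBase p S := by
  apply Polynomial.ringHom_ext
  · intro a
    simp [evBase]
  · simp [evBase, coeffMap_jBase]

theorem coeffMap_comp_evJ : (coeffMap f).comp (evJ R) = evJ S := by
  apply Polynomial.ringHom_ext
  · intro a
    simp [evJ]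
  · simp [evJ, coeffMap_jqModC]

theorem coeffMap_rootFam (ζ : Rˣ) (s : Option (Fin p)) :
    coeffMap f (rootFam p ζ s) = rootFam p (Units.map (f : R →* S) ζ) s := by
  cases s with
  | none => exact coeffMap_rootInf f p
  | some b => exact coeffMap_rootFin f ζ b

theorem coeffMap_unitFam (ζ : Rˣ) (s : Option (Fin p)) :
    coeffMap f (unitFam p ζ s) = unitFam p (Units.map (f : R →* S) ζ) s := by
  cases s with
  | none => exact coeffMap_unitInf f p
  | some b => exact coeffMap_unitFin f p ζ b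

theorem map_PhiB (ζ : Rˣ) :
    (PhiB p ζ).map (coeffMap f) = PhiB p (Units.map (f : R →* S) ζ) := by
  rw [PhiB, PhiB, Polynomial.map_prod]
  refine Finset.prod_congr rfl fun s _ => ?_
  rw [Polynomial.map_sub, Polynomial.map_X, Polynomial.map_C, coeffMap_rootFam]

theorem map_UB (ζ : Rˣ) :
    (UB p ζ).map (coeffMap f) = UB p (Units.map (f : R →* S) ζ) := by
  rw [UB, UB, Polynomial.map_prod]
  refine Finset.prod_congr rfl fun s _ => ?_
  rw [Polynomial.map_sub, Polynomial.map_X, Polynomial.map_C, coeffMap_unitFam]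

theorem map_GB (ζ : Rˣ) (m : ℕ) :
    (GB p ζ m).map (coeffMap f) = GB p (Units.map (f : R →* S) ζ) m := by
  rw [GB, GB, Polynomial.map_sum]
  refine Finset.sum_congr rfl fun s _ => ?_
  rw [Polynomial.map_mul, Polynomial.map_C, map_pow, coeffMap_unitFam, Polynomial.map_prod]
  congr 1
  refine Finset.prod_congr rfl fun s' _ => ?_
  rw [Polynomial.map_sub, Polynomial.map_X, Polynomial.map_C, coeffMap_rootFam]

theorem bs_map_map_evBase (Φ : ℤ[X][X]) :
    (Φ.map (evBase p R)).map (coeffMap f) = Φ.map (evBase p S) := by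
  rw [Polynomial.map_map, coeffMap_comp_evBase]

theorem bs_coeffMap_eval (Φ : ℤ[X][X]) (x : LaurentSeries R) :
    coeffMap f ((Φ.map (evBase p R)).eval x) = (Φ.map (evBase p S)).eval (coeffMap f x) := by
  rw [← bs_map_map_evBase f p, Polynomial.eval_map_apply]

theorem bs_coeffMap_eval_derivative (Φ : ℤ[X][X]) (x : LaurentSeries R) :
    coeffMap f ((Φ.map (evBase p R)).derivative.eval x) =
      (Φ.map (evBase p S)).derivative.eval (coeffMap f x) := by
  rw [← bs_map_map_evBase f p, Polynomial.derivative_map (Φ.map (evBase p R)) (coeffMap f),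
    Polynomial.eval_map_apply]

theorem bs_map_prod (ζ : Rˣ) :
    ((X - C (rootInf p R)) * ∏ b ∈ Finset.range p, (X - C (rootFin ζ b))).map (coeffMap f) =
      (X - C (rootInf p S)) *
        ∏ b ∈ Finset.range p, (X - C (rootFin (Units.map (f : R →* S) ζ) b)) := by
  rw [← PhiB_eq, ← PhiB_eq, map_PhiB]

/-- the identities are pushed forward by ring homs. -/
theorem IdentB.push {ζ : Rˣ} {Φ G : ℤ[X][X]} {m : ℕ} (h : IdentB p ζ Φ G m) :
    IdentB p (Units.map (f : R →* S) ζ) Φ G m := by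
  obtain ⟨h1, h2, h3⟩ := h
  refine ⟨?_, ?_, fun b hb => ?_⟩
  · rw [← bs_map_map_evBase f p, h1, bs_map_prod]
  · rw [← coeffMap_rootInf f p, ← bs_coeffMap_eval, h2, map_mul, map_pow, coeffMap_unitInf,
      bs_coeffMap_eval_derivative]
  · rw [← coeffMap_rootFin f ζ b, ← bs_coeffMap_eval, h3 b hb, map_mul, map_pow,
      coeffMap_unitFin, bs_coeffMap_eval_derivative]

/-- the identities are pulled back along injective ring homs. -/
theorem IdentB.pull (hf : Function.Injective f) {ζ : Rˣ} {Φ G : ℤ[X][X]} {m : ℕ}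
    (h : IdentB p (Units.map (f : R →* S) ζ) Φ G m) : IdentB p ζ Φ G m := by
  obtain ⟨h1, h2, h3⟩ := h
  have hinj := coeffMap_injective f hf
  refine ⟨?_, ?_, fun b hb => ?_⟩
  · apply Polynomial.map_injective _ hinj
    rw [bs_map_map_evBase, h1, bs_map_prod]
  · apply hinj
    rw [bs_coeffMap_eval, coeffMap_rootInf, h2, map_mul, map_pow, coeffMap_unitInf,
      bs_coeffMap_eval_derivative, coeffMap_rootInf]
  · apply hinj
    rw [bs_coeffMap_eval, coeffMap_rootFin, h3 b hb, map_mul, map_pow, coeffMap_unitFin,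
      bs_coeffMap_eval_derivative, coeffMap_rootFin]

end Naturality

end Fermat.Agent.S28
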