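import Mathlib

/-! # S28, block B: the universal ring `ℤ[ζ_p]` -/

set_option autoImplicit false

namespace Fermat.Agent.S28

open Polynomial

theorem sum_zpow_of_isPrimitiveRoot {L : Type*} [CommRing L] [IsDomain L] (p : ℕ) (hp : p.Prime)
    (ζ : Lˣ) (h : IsPrimitiveRoot ζ p) (k : ℤ) :
    ∑ b ∈ Finset.range p, (((ζ ^ b) ^ k : Lˣ) : L) = if (p : ℤ) ∣ k then (p : L) else 0 := by
  have hcomm : ∀ b : ℕ, (((ζ ^ b) ^ k : Lˣ) : L) = (((ζ ^ k : Lˣ) : L)) ^ b := by
    intro b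
    rw [← Units.val_pow_eq_pow_val, ← zpow_natCast, ← zpow_natCast, ← zpow_mul, ← zpow_mul,
      mul_comm]
  simp_rw [hcomm]
  split_ifs with hk
  · have h1 : ζ ^ k = 1 := (h.zpow_eq_one_iff_dvd k).mpr hk
    simp [h1]
  · have hgcd : k.gcd (p : ℤ) = 1 := by
      have := (Nat.Prime.coprime_iff_not_dvd hp (n := k.natAbs)).mpr (by
        intro hd
        exact hk (Int.natCast_dvd.mpr hd))
      rw [Int.gcd_comm]
      simpa [Int.gcd, Nat.Coprime] using this
    have h2 : IsPrimitiveRoot (ζ ^ k) p := h.zpow_of_gcd_eq_one k hgcd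
    have h3 : IsPrimitiveRoot ((ζ ^ k : Lˣ) : L) p := h2.map_of_injective Units.val_injective (f := Units.coeHom L)
    exact h3.geom_sum_eq_zero hp.one_lt

theorem exists_universal (p : ℕ) (hp : p.Prime) :
    ∃ (Λu : Type) (_ : CommRing Λu) (L : Type) (_ : Field L) (_ : CharZero L) (f : Λu →+* L)
      (ζu : Λuˣ), Function.Injective f ∧ (∀ x, IsIntegral ℤ (f x)) ∧
      IsPrimitiveRoot (Units.map (f : Λu →* L) ζu) p ∧
      ∀ (K : Type) [Field K] (ζ : Kˣ), IsPrimitiveRoot ζ p →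
        ∃ g : Λu →+* K, Units.map (g : Λu →* K) ζu = ζ := by
  have hdom : IsDomain (AdjoinRoot (cyclotomic p ℤ)) :=
    AdjoinRoot.isDomain_of_prime (cyclotomic.irreducible hp.pos).prime
  have hmonic : (cyclotomic p ℤ).Monic := cyclotomic.monic p ℤ
  have hinj0 : Function.Injective (AdjoinRoot.of (cyclotomic p ℤ)) :=
    AdjoinRoot.of.injective_of_degree_ne_zero (by
      rw [degree_cyclotomic]
      exact_mod_cast (Nat.totient_pos.mpr hp.pos).ne')
  have hinj1 : Function.Injective (algebraMap (AdjoinRoot (cyclotomic p ℤ))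
      (FractionRing (AdjoinRoot (cyclotomic p ℤ)))) := IsFractionRing.injective _ _
  have hchar : CharZero (FractionRing (AdjoinRoot (cyclotomic p ℤ))) :=
    charZero_of_injective_ringHom (f := (algebraMap (AdjoinRoot (cyclotomic p ℤ))
      (FractionRing (AdjoinRoot (cyclotomic p ℤ)))).comp (AdjoinRoot.of (cyclotomic p ℤ)))
      (hinj1.comp hinj0)
  have hroot : (AdjoinRoot.root (cyclotomic p ℤ)) ^ p = 1 := by
    have h1 : AdjoinRoot.mk (cyclotomic p ℤ) (X ^ p - 1) = 0 :=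
      AdjoinRoot.mk_eq_zero.mpr (cyclotomic.dvd_X_pow_sub_one p ℤ)
    rw [map_sub, map_pow, map_one, AdjoinRoot.mk_X, sub_eq_zero] at h1
    exact h1
  have hfin : Module.Finite ℤ (AdjoinRoot (cyclotomic p ℤ)) := hmonic.finite_adjoinRoot
  refine ⟨AdjoinRoot (cyclotomic p ℤ), inferInstance, FractionRing (AdjoinRoot (cyclotomic p ℤ)),
    inferInstance, hchar, algebraMap _ _, Units.ofPowEqOne _ p hroot hp.ne_zero, hinj1,
    fun x => map_isIntegral_int _ (Algebra.IsIntegral.isIntegral x), ?_, ?_⟩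
  · rw [← IsPrimitiveRoot.coe_units_iff]
    have : NeZero ((p : ℕ) : FractionRing (AdjoinRoot (cyclotomic p ℤ))) :=
      ⟨Nat.cast_ne_zero.mpr hp.ne_zero⟩
    rw [← isRoot_cyclotomic_iff, IsRoot.def,
      ← map_cyclotomic_int p (FractionRing (AdjoinRoot (cyclotomic p ℤ))), eval_map]
    have h2 := AdjoinRoot.eval₂_root (cyclotomic p ℤ)
    have h3 := congrArg (algebraMap (AdjoinRoot (cyclotomic p ℤ))
      (FractionRing (AdjoinRoot (cyclotomic p ℤ)))) h2
    rw [hom_eval₂, map_zero] at h3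
    have h4 : (algebraMap (AdjoinRoot (cyclotomic p ℤ))
      (FractionRing (AdjoinRoot (cyclotomic p ℤ)))).comp (AdjoinRoot.of (cyclotomic p ℤ)) =
        Int.castRingHom _ := RingHom.ext_int _ _
    rw [h4] at h3
    exact h3
  · intro K _ ζ hζ
    have hζ' : IsPrimitiveRoot (ζ : K) p := IsPrimitiveRoot.coe_units_iff.mpr hζ
    have h0 : eval₂ (Int.castRingHom K) (ζ : K) (cyclotomic p ℤ) = 0 := by
      rw [← eval_map, map_cyclotomic_int]
      exact hζ'.isRoot_cyclotomic hp.pos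
    refine ⟨AdjoinRoot.lift (Int.castRingHom K) (ζ : K) h0, ?_⟩
    ext
    simp

end Fermat.Agent.S28
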