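import Fermat.Agent.S28.CSetup

/-!
# Block C, part 4: integrality and separability.
-/

set_option autoImplicit false

noncomputable section

namespace Fermat.Agent.S28

open ModularCurve Polynomial

/-- a root of a monic two-variable integer polynomial `P(X, y)` with `y` integral is integral. -/
theorem isIntegral_of_evY {R L : Type*} [CommRing R] [CommRing L] [Algebra R L] (P : ℤ[X][X])
    (hP : P.Monic) (y u : L) (hy : IsIntegral R y) (h : (P.map (evY y)).eval u = 0) :
    IsIntegral R u := by
  let yB : integralClosure R L := ⟨y, hy⟩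
  have h1 : IsIntegral (integralClosure R L) u := by
    refine ⟨P.map (evY yB), hP.map _, ?_⟩
    rw [← eval_map, map_map_evY]
    exact h
  exact isIntegral_trans u h1

/-- if moreover the constant coefficient of `P` is an integer constant `c` which is invertible
with integral inverse, then `u⁻¹` is integral as well. -/
theorem isIntegral_inv_of_evY {R L : Type*} [CommRing R] [Field L] [Algebra R L] (P : ℤ[X][X])
    (hP : P.Monic) (c : ℤ) (hc : P.coeff 0 = C c) (c' : L) (hc' : IsIntegral R c')
    (hcc : (c : L) * c' = 1) (y u : L) (hy : IsIntegral R y)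
    (h : (P.map (evY y)).eval u = 0) : IsIntegral R u⁻¹ := by
  have hu : IsIntegral R u := isIntegral_of_evY P hP y u hy h
  let yB : integralClosure R L := ⟨y, hy⟩
  let uB : integralClosure R L := ⟨u, hu⟩
  set Q := P.map (evY yB) with hQ
  have hQ0 : Q.eval uB = 0 := by
    apply Subtype.val_injective
    have := map_eval_evY (algebraMap (integralClosure R L) L) yB uB P
    rw [← hQ] at this
    change algebraMap (integralClosure R L) L (Q.eval uB) = 0
    rw [this]
    exact h
  have hQc : Q.coeff 0 = (c : integralClosure R L) := by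
    rw [hQ, coeff_map, hc, evY_C]
  have h2 : Q.divX.eval uB * uB + (c : integralClosure R L) = 0 := by
    have := congrArg (eval uB) (divX_mul_X_add Q)
    rw [eval_add, eval_mul, eval_X, eval_C, hQ0, hQc] at this
    exact this
  have h3 : ((Q.divX.eval uB : integralClosure R L) : L) * u + (c : L) = 0 := by
    have := congrArg (algebraMap (integralClosure R L) L) h2
    rw [map_add, map_mul, map_intCast, map_zero] at this
    exact this
  have hc0 : (c : L) ≠ 0 := left_ne_zero_of_mul_eq_one hcc
  have hu0 : u ≠ 0 := by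
    rintro rfl
    rw [mul_zero, zero_add] at h3
    exact hc0 h3
  have h4 : u⁻¹ = -(((Q.divX.eval uB : integralClosure R L) : L) * c') := by
    have h5 : ((Q.divX.eval uB : integralClosure R L) : L) * u = -(c : L) := by linear_combination h3
    field_simp
    linear_combination c' * h5 - hcc
  rw [h4]
  exact ((Q.divX.eval uB).2.mul hc').neg

section Concrete

variable (k : Type) [Field k]

/-- `Φ_p(j(q^{pd}), j(q^d)) = 0`. -/
theorem Phi_jd {p : ℕ} [NeZero p] {Φ U G : ℤ[X][X]} {m : ℕ} {c : ℤ} (hB : BData p Φ U G m c)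
    (hpK : (p : AlgebraicClosure k) ≠ 0) (d : ℕ) (hd : d ≠ 0) :
    (Φ.map (evY (jd k d))).eval (jd k (p * d)) = 0 := by
  apply iota_injective k
  rw [map_eval_evY, iota_jd k d hd, iota_jd k (p * d) (mul_ne_zero (NeZero.ne p) hd), ← Pd_pow k p d hd,
    step_root_pow hB hpK, map_zero]

/-- `Φ_p(X, j(q^d))` is separable. -/
theorem Phi_jd_sep {p : ℕ} [NeZero p] {Φ U G : ℤ[X][X]} {m : ℕ} {c : ℤ} (hB : BData p Φ U G m c)
    (hp : p.Prime) (hpK : (p : AlgebraicClosure k) ≠ 0) (d : ℕ) (hd : d ≠ 0) :
    (Φ.map (evY (jd k d))).Separable := by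
  rw [← Polynomial.separable_map (iota k), map_map_evY, iota_jd k d hd]
  exact step_sep hB hp hpK _

variable (N : ℕ) [NeZero N]

theorem isIntegral_jd (hB : StatementB) (hN : (N : k) ≠ 0) {d : ℕ} (hd : d ∣ N) :
    IsIntegral ↥(AA k) (jd k d) := by
  induction d using induction_on_primes with
  | zero => exact absurd rfl (ne_zero_of_dvd N hd)
  | one =>
    rw [jd_one]
    exact isIntegral_algebraMap (R := ↥(AA k)) (A := LaurentSeries k)
      (x := ⟨jqModC k, Algebra.subset_adjoin (Set.mem_singleton _)⟩)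
  | prime_mul p d hp ih =>
    have : NeZero p := ⟨hp.ne_zero⟩
    obtain ⟨Φ, U, G, m, c, hBp⟩ := hB p hp
    have hd' : d ∣ N := (Dvd.intro_left p rfl).trans hd
    have hpK := natCast_ne_zero_of_dvd k N hN ((Dvd.intro d rfl).trans hd)
    exact isIntegral_of_evY Φ hBp.2.1 _ _ (ih hd') (Phi_jd k hBp hpK d (ne_zero_of_dvd N hd'))

theorem isSeparable_jd (hB : StatementB) (hN : (N : k) ≠ 0) {d : ℕ} (hd : d ∣ N) :
    IsSeparable ↥(EE k) (jd k d) := by
  induction d using induction_on_primes with
  | zero => exact absurd rfl (ne_zero_of_dvd N hd)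
  | one =>
    rw [jd_one]
    exact isSeparable_algebraMap (F := ↥(EE k)) (K := LaurentSeries k)
      ⟨jqModC k, IntermediateField.mem_adjoin_simple_self k _⟩
  | prime_mul p d hp ih =>
    have : NeZero p := ⟨hp.ne_zero⟩
    obtain ⟨Φ, U, G, m, c, hBp⟩ := hB p hp
    have hd' : d ∣ N := (Dvd.intro_left p rfl).trans hd
    have hpK := natCast_ne_zero_of_dvd k N hN ((Dvd.intro d rfl).trans hd)
    let yS : separableClosure ↥(EE k) (LaurentSeries k) :=
      ⟨jd k d, mem_separableClosure_iff.mpr (ih hd')⟩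
    have hmap : (Φ.map (evY yS)).map
        (algebraMap (separableClosure ↥(EE k) (LaurentSeries k)) (LaurentSeries k)) =
        Φ.map (evY (jd k d)) := map_map_evY _ _ _
    have hsep : (Φ.map (evY yS)).Separable := by
      rw [← Polynomial.separable_map
        (algebraMap (separableClosure ↥(EE k) (LaurentSeries k)) (LaurentSeries k)), hmap]
      exact Phi_jd_sep k hBp hp hpK d (ne_zero_of_dvd N hd')
    have hroot : aeval (jd k (p * d)) (Φ.map (evY yS)) = 0 := by
      rw [aeval_def, ← eval_map, hmap]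
      exact Phi_jd k hBp hpK d (ne_zero_of_dvd N hd')
    have h1 : IsSeparable (separableClosure ↥(EE k) (LaurentSeries k)) (jd k (p * d)) :=
      hsep.of_dvd (minpoly.dvd _ _ hroot)
    exact IsSeparable.of_algebra_isSeparable_of_isSeparable ↥(EE k) h1

theorem finiteDimensional_FF (hB : StatementB) (hN : (N : k) ≠ 0) :
    FiniteDimensional ↥(EE k) ↥(FF k N) := by
  have hfin : Finite (divisorExpansionsC k N) := by
    rw [divisorExpansionsC_eq]
    exact (Set.Finite.image _ (Finset.finite_toSet _)).to_subtype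
  refine IntermediateField.finiteDimensional_adjoin fun x hx => ?_
  obtain ⟨d, hne, hd, rfl⟩ := hx
  rw [← jd_eq]
  exact (isSeparable_jd k N hB hN hd).isIntegral

theorem isSeparable_FF (hB : StatementB) (hN : (N : k) ≠ 0) :
    Algebra.IsSeparable ↥(EE k) ↥(FF k N) := by
  rw [IntermediateField.isSeparable_adjoin_iff_isSeparable]
  rintro x ⟨d, hne, hd, rfl⟩
  rw [← jd_eq]
  exact isSeparable_jd k N hB hN hd

/-- the unit `u = p¹² Δ(q^{pd}) / Δ(q^d)` and its inverse are integral over `k[j]`. -/
theorem isIntegral_unit (hB : StatementB) (hN : (N : k) ≠ 0) {p d : ℕ} [NeZero p] [NeZero d]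
    [NeZero (p * d)] (hp : p.Prime) (hd : p * d ∣ N) :
    IsIntegral ↥(AA k)
      ((p : LaurentSeries k) ^ 12 * qExpand k (p * d) (DlL k) * qExpand k d (DlLinv k)) ∧
    IsIntegral ↥(AA k)
      ((p : LaurentSeries k) ^ 12 * qExpand k (p * d) (DlL k) * qExpand k d (DlLinv k))⁻¹ := by
  obtain ⟨Φ, U, G, m, c, hBp⟩ := hB p hp
  have hd' : d ∣ N := (Dvd.intro_left p rfl).trans hd
  have hU := hBp.2.2.2.2.2.1
  have hU' := congrArg ((qExpand k d).comp (coeffMap (Int.castRingHom k))) hU
  change ((qExpand k d).comp (coeffMap (Int.castRingHom k)))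
    ((U.map (evY (jqModC ℤ))).eval _) = _ at hU'
  rw [map_eval_evY, map_zero] at hU'
  simp only [RingHom.comp_apply, map_mul, map_pow, map_natCast, coeffMap_jqModC, coeffMap_qExpand,
    cpar_coeffMap_DlL, cpar_coeffMap_DlLinv, qExpand_qExpand] at hU'
  rw [qExpand_congr (mul_comm d p), ← jd_eq] at hU'
  have hj := isIntegral_jd k N hB hN hd'
  refine ⟨isIntegral_of_evY U hBp.2.2.1 _ _ hj hU', ?_⟩
  have hpk : (p : k) ≠ 0 := by
    intro h
    obtain ⟨e, he⟩ := (Dvd.intro d rfl : p ∣ p * d).trans hd
    apply hN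
    rw [he, Nat.cast_mul, h, zero_mul]
  have hpL : (p : LaurentSeries k) ≠ 0 := by
    have : (p : LaurentSeries k) = algebraMap k (LaurentSeries k) (p : k) := (map_natCast _ _).symm
    rw [this]
    exact (_root_.map_ne_zero _).mpr hpk
  have hinv : IsIntegral ↥(AA k) ((p : LaurentSeries k)⁻¹) := by
    have : (p : LaurentSeries k)⁻¹ =
        algebraMap ↥(AA k) (LaurentSeries k) (algebraMap k ↥(AA k) (p : k)⁻¹) := by
      rw [← IsScalarTower.algebraMap_apply, map_inv₀, map_natCast]
    rw [this]
    exact isIntegral_algebraMap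
  refine isIntegral_inv_of_evY U hBp.2.2.1 c hBp.2.2.2.1
    ((c : LaurentSeries k) * ((p : LaurentSeries k)⁻¹) ^ 24)
    ((isIntegral_intCast c).mul (hinv.pow 24)) ?_ _ _ hj hU'
  have hcc : (c : LaurentSeries k) * c = (p : LaurentSeries k) ^ 24 := by
    exact_mod_cast congrArg (Int.cast : ℤ → LaurentSeries k) hBp.2.2.2.2.1
  rw [← mul_assoc, hcc, inv_pow, mul_inv_cancel₀ (pow_ne_zero _ hpL)]

end Concrete

end Fermat.Agent.S28
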