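import Fermat.Agent.S28.Interface

/-!
# Block C, part 1: parameters `t = c y^r` and the substitution homomorphisms
`K((q)) → K((y^ℚ))`, `q ↦ c y^r`.
-/

set_option autoImplicit false

noncomputable section

namespace Fermat.Agent.S28

open ModularCurve Polynomial

/-- parameters `t = c y^r`, `c ≠ 0`, `r > 0` rational. -/
@[ext] structure Par (K : Type*) [Field K] where
  c : Kˣ
  r : ℚ
  pos : 0 < r

variable {K : Type*} [Field K]

namespace Par

/-- `t ^ n`. -/
def pow (t : Par K) (n : ℕ) [NeZero n] : Par K :=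
  ⟨t.c ^ n, n * t.r, mul_pos (by exact_mod_cast Nat.pos_of_ne_zero (NeZero.ne n)) t.pos⟩

/-- `z t`. -/
def tw (t : Par K) (z : Kˣ) : Par K := ⟨t.c * z, t.r, t.pos⟩

variable (K) in
/-- `y ^ d`. -/
def ofNat (d : ℕ) [NeZero d] : Par K :=
  ⟨1, d, by exact_mod_cast Nat.pos_of_ne_zero (NeZero.ne d)⟩

@[simp] theorem pow_c (t : Par K) (n : ℕ) [NeZero n] : (t.pow n).c = t.c ^ n := rfl
@[simp] theorem pow_r (t : Par K) (n : ℕ) [NeZero n] : (t.pow n).r = n * t.r := rfl
@[simp] theorem tw_c (t : Par K) (z : Kˣ) : (t.tw z).c = t.c * z := rfl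
@[simp] theorem tw_r (t : Par K) (z : Kˣ) : (t.tw z).r = t.r := rfl
@[simp] theorem ofNat_c (d : ℕ) [NeZero d] : (ofNat K d).c = 1 := rfl
@[simp] theorem ofNat_r (d : ℕ) [NeZero d] : (ofNat K d).r = d := rfl

theorem ofNat_pow (d n : ℕ) [NeZero d] [NeZero n] [NeZero (n * d)] :
    (ofNat K d).pow n = ofNat K (n * d) := by
  ext <;> simp

theorem ofNat_one_pow (n : ℕ) [NeZero n] : (ofNat K 1).pow n = ofNat K n := by
  ext <;> simp

theorem tw_one (t : Par K) : t.tw 1 = t := by
  ext <;> simp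

end Par

/-- `n ↦ r n`, `ℤ → ℚ`. -/
def scaleHom (r : ℚ) : ℤ →+ ℚ := (AddMonoidHom.mulLeft r).comp (Int.castAddHom ℚ)

@[simp] theorem scaleHom_apply (r : ℚ) (n : ℤ) : scaleHom r n = r * n := rfl

variable (K) in
/-- `q ↦ y^r`. -/
def embQ (r : ℚ) (hr : 0 < r) : LaurentSeries K →+* HahnSeries ℚ K :=
  HahnSeries.embDomainRingHom (scaleHom r)
    (fun a b h => by
      simp only [scaleHom_apply] at h
      exact_mod_cast mul_left_cancel₀ hr.ne' h)
    (fun g g' => by
      simp only [scaleHom_apply]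
      rw [mul_le_mul_iff_of_pos_left hr]
      exact Int.cast_le)

theorem embQ_coeff (r : ℚ) (hr : 0 < r) (x : LaurentSeries K) (n : ℤ) :
    (embQ K r hr x).coeff (r * n) = x.coeff n :=
  HahnSeries.embDomain_coeff

theorem embQ_coeff_of_ne (r : ℚ) (hr : 0 < r) (x : LaurentSeries K) (g : ℚ)
    (hg : ∀ n : ℤ, r * n ≠ g) : (embQ K r hr x).coeff g = 0 := by
  refine HahnSeries.embDomain_of_notMem_range ?_
  rintro ⟨m, hm⟩
  exact hg m hm

/-- the substitution `q ↦ t = c y^r`. -/
def sub (t : Par K) : LaurentSeries K →+* HahnSeries ℚ K := (embQ K t.r t.pos).comp (twist t.c)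

theorem sub_coeff (t : Par K) (x : LaurentSeries K) (n : ℤ) :
    (sub t x).coeff (t.r * n) = ((t.c ^ n : Kˣ) : K) * x.coeff n := by
  rw [sub, RingHom.comp_apply, embQ_coeff, twist_coeff]

theorem sub_coeff_of_ne (t : Par K) (x : LaurentSeries K) (g : ℚ)
    (hg : ∀ n : ℤ, t.r * n ≠ g) : (sub t x).coeff g = 0 :=
  embQ_coeff_of_ne _ t.pos _ _ hg

theorem sub_injective (t : Par K) : Function.Injective (sub t) := (sub t).injective

theorem sub_qExpand (t : Par K) (n : ℕ) [NeZero n] (x : LaurentSeries K) :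
    sub t (qExpand K n x) = sub (t.pow n) x := by
  ext g
  by_cases h : ∃ m : ℤ, (t.pow n).r * m = g
  · obtain ⟨m, rfl⟩ := h
    rw [sub_coeff]
    have : (t.pow n).r * m = t.r * ((n : ℤ) * m : ℤ) := by
      simp only [Par.pow_r]; push_cast; ring
    rw [this, sub_coeff, qExpand_coeff_mul, Par.pow_c]
    congr 2
    rw [zpow_mul, zpow_natCast]
  · push Not at h
    rw [sub_coeff_of_ne _ _ _ h]
    by_cases h' : ∃ m : ℤ, t.r * m = g
    · obtain ⟨m, rfl⟩ := h'
      rw [sub_coeff, qExpand_coeff_of_not_dvd, mul_zero]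
      rintro ⟨l, rfl⟩
      refine h l ?_
      simp only [Par.pow_r]; push_cast; ring
    · push Not at h'
      rw [sub_coeff_of_ne _ _ _ h']

theorem sub_twist (t : Par K) (z : Kˣ) (x : LaurentSeries K) :
    sub t (twist z x) = sub (t.tw z) x := by
  ext g
  by_cases h : ∃ m : ℤ, t.r * m = g
  · obtain ⟨m, rfl⟩ := h
    rw [sub_coeff]
    have : t.r * (m : ℚ) = (t.tw z).r * m := rfl
    rw [this, sub_coeff, twist_coeff, Par.tw_c, mul_zpow, Units.val_mul, mul_assoc]
  · push Not at h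
    rw [sub_coeff_of_ne _ _ _ h, sub_coeff_of_ne _ _ _ (by simpa using h)]

theorem orderTop_sub (t : Par K) (x : LaurentSeries K) (n : ℤ) (hx : x.orderTop = n) :
    (sub t x).orderTop = ((t.r * n : ℚ) : WithTop ℚ) := by
  apply HahnSeries.orderTop_eq_of_le
  · rw [HahnSeries.mem_support, sub_coeff]
    exact mul_ne_zero (Units.ne_zero _) (HahnSeries.coeff_orderTop_ne hx)
  · intro g hg
    rw [HahnSeries.mem_support] at hg
    by_cases h : ∃ m : ℤ, t.r * m = g
    · obtain ⟨m, rfl⟩ := h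
      rw [sub_coeff] at hg
      have hm : x.coeff m ≠ 0 := right_ne_zero_of_mul hg
      have : x.orderTop ≤ m := HahnSeries.orderTop_le_of_coeff_ne_zero hm
      rw [hx] at this
      have h2 : n ≤ m := by exact_mod_cast this
      exact mul_le_mul_of_nonneg_left (by exact_mod_cast h2) t.pos.le
    · push Not at h
      exact absurd (sub_coeff_of_ne _ _ _ h) hg

/-! ### the series `j`, `Δ`, `1/Δ` -/

section Series

variable (Λ : Type*) [CommRing Λ]

theorem DlL_eq : DlL Λ = HahnSeries.single (1 : ℤ) 1 *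
    HahnSeries.ofPowerSeries ℤ Λ (dedekindEtaUnit.map (Int.castRingHom Λ)) := by
  rw [DlL, Dl, map_mul, map_mul, PowerSeries.map_X, HahnSeries.ofPowerSeries_X]

theorem cpar_DlL_mul_DlLinv : DlL Λ * DlLinv Λ = 1 := by
  rw [DlL_eq, DlLinv]
  have h1 : (HahnSeries.single (1 : ℤ) (1 : Λ)) * HahnSeries.single (-1 : ℤ) 1 = 1 := by
    rw [HahnSeries.single_mul_single]; simp
  have h2 : HahnSeries.ofPowerSeries ℤ Λ (dedekindEtaUnit.map (Int.castRingHom Λ)) *
      HahnSeries.ofPowerSeries ℤ Λ (dedekindEtaUnitInv.map (Int.castRingHom Λ)) = 1 := by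
    rw [← map_mul, ← map_mul, dedekindEtaUnit_mul_inv, map_one, map_one]
  calc _ = (HahnSeries.single (1 : ℤ) (1 : Λ) * HahnSeries.single (-1 : ℤ) 1) *
      (HahnSeries.ofPowerSeries ℤ Λ (dedekindEtaUnit.map (Int.castRingHom Λ)) *
      HahnSeries.ofPowerSeries ℤ Λ (dedekindEtaUnitInv.map (Int.castRingHom Λ))) := by ring
    _ = 1 := by rw [h1, h2, one_mul]

/-- order of `q^n (1 + …)`. -/
theorem orderTop_single_mul_ofPowerSeries [Nontrivial Λ] (n : ℤ) (u : PowerSeries Λ)
    (hu : PowerSeries.constantCoeff u = 1) :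
    (HahnSeries.single n (1 : Λ) * HahnSeries.ofPowerSeries ℤ Λ u).orderTop = n := by
  apply HahnSeries.orderTop_eq_of_le
  · rw [HahnSeries.mem_support, HahnSeries.coeff_single_mul, one_mul, sub_self,
      show (0 : ℤ) = ((0 : ℕ) : ℤ) from rfl, HahnSeries.ofPowerSeries_apply_coeff,
      PowerSeries.coeff_zero_eq_constantCoeff, hu]
    exact one_ne_zero
  · intro g hg
    by_contra hlt
    rw [not_le] at hlt
    apply hg
    rw [HahnSeries.coeff_single_mul, one_mul]
    exact ofPowerSeries_coeff_of_neg _ (by omega)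

theorem coeff_single_mul_ofPowerSeries (n : ℤ) (u : PowerSeries Λ)
    (hu : PowerSeries.constantCoeff u = 1) :
    (HahnSeries.single n (1 : Λ) * HahnSeries.ofPowerSeries ℤ Λ u).coeff n = 1 := by
  rw [HahnSeries.coeff_single_mul, one_mul, sub_self,
      show (0 : ℤ) = ((0 : ℕ) : ℤ) from rfl, HahnSeries.ofPowerSeries_apply_coeff,
      PowerSeries.coeff_zero_eq_constantCoeff, hu]

theorem constantCoeff_map_intCast (u : PowerSeries ℤ) (hu : PowerSeries.constantCoeff u = 1) :
    PowerSeries.constantCoeff (u.map (Int.castRingHom Λ)) = 1 := by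
  rw [← PowerSeries.coeff_zero_eq_constantCoeff, PowerSeries.coeff_map,
    PowerSeries.coeff_zero_eq_constantCoeff, hu, map_one]

theorem orderTop_jqModC [Nontrivial Λ] : (jqModC Λ).orderTop = ((-1 : ℤ) : WithTop ℤ) :=
  orderTop_single_mul_ofPowerSeries Λ _ _ (constantCoeff_map_intCast Λ _ constantCoeff_jNum)

theorem orderTop_DlL [Nontrivial Λ] : (DlL Λ).orderTop = ((1 : ℤ) : WithTop ℤ) := by
  rw [DlL_eq]
  exact orderTop_single_mul_ofPowerSeries Λ _ _
    (constantCoeff_map_intCast Λ _ constantCoeff_dedekindEtaUnit)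

theorem orderTop_DlLinv [Nontrivial Λ] : (DlLinv Λ).orderTop = ((-1 : ℤ) : WithTop ℤ) :=
  orderTop_single_mul_ofPowerSeries Λ _ _
    (constantCoeff_map_intCast Λ _ constantCoeff_dedekindEtaUnitInv)

variable {Λ} in
theorem cpar_coeffMap_DlL {Λ' : Type*} [CommRing Λ'] (f : Λ →+* Λ') :
    coeffMap f (DlL Λ) = DlL Λ' := by
  rw [DlL, coeffMap_ofPowerSeries, DlL,
    ← RingHom.comp_apply (PowerSeries.map f) (PowerSeries.map (Int.castRingHom Λ)),
    ← PowerSeries.map_comp, RingHom.ext_int (f.comp (Int.castRingHom Λ)) (Int.castRingHom Λ')]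

variable {Λ} in
theorem cpar_coeffMap_DlLinv {Λ' : Type*} [CommRing Λ'] (f : Λ →+* Λ') :
    coeffMap f (DlLinv Λ) = DlLinv Λ' := by
  rw [DlLinv, map_mul, coeffMap_single, map_one, coeffMap_ofPowerSeries, DlLinv,
    ← RingHom.comp_apply (PowerSeries.map f) (PowerSeries.map (Int.castRingHom Λ)),
    ← PowerSeries.map_comp, RingHom.ext_int (f.comp (Int.castRingHom Λ)) (Int.castRingHom Λ')]

end Series

/-- `j(t)`. -/
def J (t : Par K) : HahnSeries ℚ K := sub t (jqModC K)

/-- `Δ(t)`. -/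
def D (t : Par K) : HahnSeries ℚ K := sub t (DlL K)

/-- `1/Δ(t)`. -/
def Dinv (t : Par K) : HahnSeries ℚ K := sub t (DlLinv K)

theorem D_mul_Dinv (t : Par K) : D t * Dinv t = 1 := by
  rw [D, Dinv, ← map_mul, cpar_DlL_mul_DlLinv, map_one]

theorem orderTop_J (t : Par K) : (J t).orderTop = ((-t.r : ℚ) : WithTop ℚ) := by
  rw [J, orderTop_sub t _ _ (orderTop_jqModC K)]
  simp

theorem orderTop_D (t : Par K) : (D t).orderTop = ((t.r : ℚ) : WithTop ℚ) := by
  rw [D, orderTop_sub t _ _ (orderTop_DlL K)]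
  simp

theorem orderTop_Dinv (t : Par K) : (Dinv t).orderTop = ((-t.r : ℚ) : WithTop ℚ) := by
  rw [Dinv, orderTop_sub t _ _ (orderTop_DlLinv K)]
  simp

theorem J_coeff_neg (t : Par K) : (J t).coeff (-t.r) = ((t.c⁻¹ : Kˣ) : K) := by
  have h := sub_coeff t (jqModC K) (-1)
  rw [coeff_jqModC_neg_one, mul_one, zpow_neg_one] at h
  rw [J, ← h]
  congr 1
  simp

theorem J_injective : Function.Injective (J : Par K → HahnSeries ℚ K) := by
  intro t t' h
  have h1 : t.r = t'.r := by
    have := orderTop_J t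
    rw [h, orderTop_J] at this
    have h2 : -t'.r = -t.r := by exact_mod_cast this
    linarith
  have h2 : t.c = t'.c := by
    have := J_coeff_neg t
    rw [h, h1, J_coeff_neg] at this
    have h3 : t'.c⁻¹ = t.c⁻¹ := Units.ext this
    exact (inv_injective h3).symm
  exact Par.ext h2 h1

theorem J_pow (t : Par K) (n : ℕ) [NeZero n] : sub t (qExpand K n (jqModC K)) = J (t.pow n) :=
  sub_qExpand t n _

/-! ### the embedding of `k((q))` -/

section Iota

variable (k : Type*) [Field k]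

/-- `k((q)) → k̄((y^ℚ))`, `q ↦ y`. -/
def iota : LaurentSeries k →+* HahnSeries ℚ (AlgebraicClosure k) :=
  (sub (Par.ofNat (AlgebraicClosure k) 1)).comp (coeffMap (algebraMap k (AlgebraicClosure k)))

theorem iota_injective : Function.Injective (iota k) := (iota k).injective

theorem iota_qExpand_jqModC (d : ℕ) [NeZero d] :
    iota k (qExpand k d (jqModC k)) = J (Par.ofNat (AlgebraicClosure k) d) := by
  rw [iota, RingHom.comp_apply, coeffMap_qExpand, coeffMap_jqModC, sub_qExpand, J,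
    Par.ofNat_one_pow]

theorem iota_jqModC : iota k (jqModC k) = J (Par.ofNat (AlgebraicClosure k) 1) := by
  rw [iota, RingHom.comp_apply, coeffMap_jqModC, J]

theorem iota_qExpand_DlL (d : ℕ) [NeZero d] :
    iota k (qExpand k d (DlL k)) = D (Par.ofNat (AlgebraicClosure k) d) := by
  rw [iota, RingHom.comp_apply, coeffMap_qExpand, cpar_coeffMap_DlL, sub_qExpand, D,
    Par.ofNat_one_pow]

theorem iota_qExpand_DlLinv (d : ℕ) [NeZero d] :
    iota k (qExpand k d (DlLinv k)) = Dinv (Par.ofNat (AlgebraicClosure k) d) := by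
  rw [iota, RingHom.comp_apply, coeffMap_qExpand, cpar_coeffMap_DlLinv, sub_qExpand, Dinv,
    Par.ofNat_one_pow]

theorem orderTop_iota_C (c : k) (hc : c ≠ 0) : (iota k (HahnSeries.C c)).orderTop = 0 := by
  have h : (HahnSeries.C c : LaurentSeries k).orderTop = ((0 : ℤ) : WithTop ℤ) :=
    HahnSeries.orderTop_single hc
  have h' : (coeffMap (algebraMap k (AlgebraicClosure k)) (HahnSeries.C c)).orderTop =
      ((0 : ℤ) : WithTop ℤ) := by
    rw [HahnSeries.C_apply, coeffMap_single]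
    exact HahnSeries.orderTop_single (by simpa using hc)
  rw [iota, RingHom.comp_apply, orderTop_sub _ _ _ h']
  simp

end Iota

end Fermat.Agent.S28
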