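import Fermat.Statements.S28

set_option autoImplicit false

noncomputable section

namespace Fermat.Agent.S28

open ModularCurve Polynomial

/-- formal `E₄³` over `ℤ`. -/
def E3 : PowerSeries ℤ := eisenstein4 ^ 3

/-- formal `Δ = q ∏ (1 - qⁿ)²⁴` over `ℤ`. -/
def Dl : PowerSeries ℤ := PowerSeries.X * dedekindEtaUnit

/-- formal Hecke operator `T_p` in weight `k` on power series over `ℤ`. -/
def heckeZ (k p : ℕ) (h : PowerSeries ℤ) : PowerSeries ℤ :=
  PowerSeries.mk fun n => PowerSeries.coeff (n * p) h +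
    if p ∣ n then (p : ℤ) ^ (k - 1) * PowerSeries.coeff (n / p) h else 0

/-- Block A: `T_p` preserves the span of `E₄^{3i} Δ^{w-i}` (weight `12 w`, level one). -/
def StatementA : Prop :=
  ∀ p : ℕ, p.Prime → ∀ n m : ℕ, 0 < n + m →
    ∃ c : ℕ → ℤ, heckeZ (12 * (n + m)) p (E3 ^ n * Dl ^ m) =
      ∑ i ∈ Finset.range (n + m + 1), PowerSeries.C (c i) * (E3 ^ i * Dl ^ (n + m - i))

section Laurent

variable (Λ : Type*) [CommRing Λ]

/-- `Δ` as a Laurent series over `Λ`. -/
def DlL : LaurentSeries Λ := HahnSeries.ofPowerSeries ℤ Λ (Dl.map (Int.castRingHom Λ))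

/-- `1/Δ` as a Laurent series over `Λ`. -/
def DlLinv : LaurentSeries Λ :=
  HahnSeries.single (-1 : ℤ) 1 *
    HahnSeries.ofPowerSeries ℤ Λ (dedekindEtaUnitInv.map (Int.castRingHom Λ))

variable {Λ}

/-- underlying function of `twist`. -/
def twistFun (c : Λˣ) (x : LaurentSeries Λ) : LaurentSeries Λ where
  coeff n := ((c ^ n : Λˣ) : Λ) * x.coeff n
  isPWO_support' := x.isPWO_support.mono fun n hn => by
    simp only [Function.mem_support, ne_eq, HahnSeries.mem_support] at hn ⊢
    intro h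
    exact hn (by rw [h, mul_zero])

@[simp] theorem twistFun_coeff (c : Λˣ) (x : LaurentSeries Λ) (n : ℤ) :
    (twistFun c x).coeff n = ((c ^ n : Λˣ) : Λ) * x.coeff n := rfl

theorem support_twistFun (c : Λˣ) (x : LaurentSeries Λ) :
    (twistFun c x).support = x.support := by
  ext n
  simp only [HahnSeries.mem_support, twistFun_coeff, ne_eq, Units.mul_right_eq_zero]

/-- the substitution `q ↦ c q` on Laurent series (`c` a unit). -/
def twist (c : Λˣ) : LaurentSeries Λ →+* LaurentSeries Λ where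
  toFun := twistFun c
  map_zero' := by ext n; simp
  map_one' := by
    ext n
    rw [twistFun_coeff, HahnSeries.coeff_one]
    split_ifs with h
    · subst h; simp
    · simp
  map_add' x y := by ext n; simp [mul_add]
  map_mul' x y := by
    ext n
    rw [twistFun_coeff, HahnSeries.coeff_mul, HahnSeries.coeff_mul, Finset.mul_sum]
    have hset : Finset.antidiagonal (twistFun c x).isPWO_support (twistFun c y).isPWO_support n =
        Finset.antidiagonal x.isPWO_support y.isPWO_support n := by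
      ext ij
      simp only [Finset.mem_antidiagonal, support_twistFun]
    rw [hset]
    refine Finset.sum_congr rfl fun ij hij => ?_
    have h := (Finset.mem_antidiagonal.mp hij).2.2
    rw [twistFun_coeff, twistFun_coeff, ← h, zpow_add, Units.val_mul]
    ring

@[simp] theorem twist_coeff (c : Λˣ) (x : LaurentSeries Λ) (n : ℤ) :
    (twist c x).coeff n = ((c ^ n : Λˣ) : Λ) * x.coeff n := rfl

end Laurent

section PrimeLevel

variable (p : ℕ) [NeZero p] (K : Type*) [CommRing K] (ζ : Kˣ)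

/-- `j(y^p)`; the variable of the Laurent series is `y`, and `q = y^p`. -/
def jBase : LaurentSeries K := qExpand K p (jqModC K)

/-- `j(y^{p²}) = j(q^p)`. -/
def rootInf : LaurentSeries K := qExpand K p (qExpand K p (jqModC K))

variable {K} in
/-- `j(ζ^b y) = j(ζ^b q^{1/p})`. -/
def rootFin (b : ℕ) : LaurentSeries K := twist (ζ ^ b) (jqModC K)

/-- `p¹² Δ(y^{p²}) / Δ(y^p)`. -/
def unitInf : LaurentSeries K :=
  (p : LaurentSeries K) ^ 12 * qExpand K p (qExpand K p (DlL K)) * qExpand K p (DlLinv K)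

variable {K} in
/-- `Δ(ζ^b y) / Δ(y^p)`. -/
def unitFin (b : ℕ) : LaurentSeries K := twist (ζ ^ b) (DlL K) * qExpand K p (DlLinv K)

/-- `ℤ[Y] → K((y))`, `Y ↦ j(y^p)`. -/
def evBase : ℤ[X] →+* LaurentSeries K := eval₂RingHom (Int.castRingHom _) (jBase p K)

/-- `ℤ[Y] → K((q))`, `Y ↦ j(q)`. -/
def evJ : ℤ[X] →+* LaurentSeries K := eval₂RingHom (Int.castRingHom _) (jqModC K)

end PrimeLevel

/-- Block B: the prime level identities. -/
def StatementB : Prop :=
  ∀ (p : ℕ) [NeZero p], p.Prime →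
    ∃ (Φ U G : ℤ[X][X]) (m : ℕ) (c : ℤ), 0 < m ∧ Φ.Monic ∧ U.Monic ∧ U.coeff 0 = C c ∧
      c * c = (p : ℤ) ^ 24 ∧
      (U.map (evJ ℤ)).eval
        ((p : LaurentSeries ℤ) ^ 12 * qExpand ℤ p (DlL ℤ) * DlLinv ℤ) = 0 ∧
      ∀ (K : Type) [Field K] (ζ : Kˣ), IsPrimitiveRoot ζ p →
        Φ.map (evBase p K) =
          (X - C (rootInf p K)) * ∏ b ∈ Finset.range p, (X - C (rootFin ζ b)) ∧
        (G.map (evBase p K)).eval (rootInf p K) =
          unitInf p K ^ m * (Φ.map (evBase p K)).derivative.eval (rootInf p K) ∧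
        ∀ b < p, (G.map (evBase p K)).eval (rootFin ζ b) =
          unitFin p ζ b ^ m * (Φ.map (evBase p K)).derivative.eval (rootFin ζ b)

/-- Block C: the degree of the function field of `X₀(N)` over `K₀(j)` does not depend on the
field `K₀` as long as `N` is invertible in it. -/
def StatementC : Prop :=
  ∀ (N : ℕ) [NeZero N], ∃ n : ℕ, 0 < n ∧ ∀ (K₀ : Type) [Field K₀], ((N : ℕ) : K₀) ≠ 0 →
    Module.finrank ↥(IntermediateField.adjoin K₀ {jqModC K₀})
      ↥(IntermediateField.adjoin ↥(IntermediateField.adjoin K₀ {jqModC K₀})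
        (divisorExpansionsC K₀ N)) = n

open IgusaScheme in
/-- Block D: the fibres of the three charts. -/
def StatementD : Prop :=
  ∀ (N : ℕ) [NeZero N] (ℓ : ℕ) [Fact ℓ.Prime], ¬ ℓ ∣ N →
    ∀ (K : Type) [Field K] [CharP K ℓ] [Algebra ↥(GaloisRep.ratLocalizedAt ℓ) K],
      IsDomain (TensorProduct ↥(GaloisRep.ratLocalizedAt ℓ) ↥(chartAlgFin N ℓ) K) ∧
      IsDomain (TensorProduct ↥(GaloisRep.ratLocalizedAt ℓ) ↥(chartAlgInf N ℓ) K) ∧
      Nontrivial (TensorProduct ↥(GaloisRep.ratLocalizedAt ℓ) ↥(chartAlgMid N ℓ) K)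

end Fermat.Agent.S28
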