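import Mathlib

set_option autoImplicit false

namespace Fermat.Agent.S28

/-- alternating sum over subsets `A` of the prime factors of `N`. -/
noncomputable def altSum (N : ℕ) (r : ℕ → ℚ) : ℚ :=
  ∑ A ∈ N.primeFactors.powerset,
    (-1 : ℚ) ^ A.card * (∏ p ∈ N.primeFactors \ A, (p : ℚ)) * r (N / ∏ p ∈ A, p)

theorem altSum_one (N : ℕ) : altSum N (fun _ => 1) = ∏ p ∈ N.primeFactors, ((p : ℚ) - 1) := by
  have h := Finset.prod_add (fun _ : ℕ => (-1 : ℚ)) (fun p : ℕ => (p : ℚ)) N.primeFactors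
  simp only [Finset.prod_const] at h
  rw [altSum]
  simp only [mul_one]
  rw [← h]
  apply Finset.prod_congr rfl
  intro p _
  ring

theorem altSum_one_ne_zero (N : ℕ) : altSum N (fun _ => 1) ≠ 0 := by
  rw [altSum_one, Finset.prod_ne_zero_iff]
  intro p hp
  have h2 : 2 ≤ p := (Nat.prime_of_mem_primeFactors hp).two_le
  have : (2 : ℚ) ≤ p := by exact_mod_cast h2
  linarith

theorem comb_val_ne {p q : ℕ} (hp : p.Prime) (hq : q.Prime) (hpq : p ≠ q) {x y : ℚ}
    (hx : x ≠ 0) (hy : y ≠ 0) (h : y = q * x ∨ q * y = x) :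
    padicValRat p y = padicValRat p x := by
  have := Fact.mk hp
  have hq0 : (q : ℚ) ≠ 0 := Nat.cast_ne_zero.mpr hq.ne_zero
  have hv : padicValRat p (q : ℚ) = 0 := by
    rw [padicValRat.of_nat]
    have : padicValNat p q = 0 := by
      apply padicValNat.eq_zero_of_not_dvd
      intro hd
      exact hpq ((Nat.prime_dvd_prime_iff_eq hp hq).mp hd)
    simp [this]
  rcases h with h | h
  · rw [h, padicValRat.mul hq0 hx, hv, zero_add]
  · rw [← h, padicValRat.mul hq0 hy, hv, zero_add]

theorem comb_val_pow {p : ℕ} (hp : p.Prime) {x y : ℚ} (hx : x ≠ 0) (h : y = p * x) :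
    padicValRat p y = padicValRat p x + 1 := by
  have := Fact.mk hp
  have hp0 : (p : ℚ) ≠ 0 := Nat.cast_ne_zero.mpr hp.ne_zero
  rw [h, padicValRat.mul hp0 hx, padicValRat.self hp.one_lt, add_comm]

theorem comb_val_root {p : ℕ} (hp : p.Prime) {x y : ℚ} (hy : y ≠ 0) (h : p * y = x) :
    padicValRat p x = padicValRat p y + 1 :=
  comb_val_pow hp hy h.symm

/-- commuting square: the type of a `p`-step does not change under a `q`-step. -/
theorem comb_square (N : ℕ) (r : ℕ → ℚ)
    (hne : ∀ d, d ∣ N → r d ≠ 0)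
    (hstep : ∀ p d : ℕ, p.Prime → p * d ∣ N → r (p * d) = p * r d ∨ p * r (p * d) = r d)
    {p q : ℕ} (hp : p.Prime) (hq : q.Prime) (hpq : p ≠ q) (d : ℕ) (hd : p * (q * d) ∣ N) :
    p * r (p * d) = r d ↔ p * r (p * (q * d)) = r (q * d) := by
  have hd1 : p * d ∣ N := (Dvd.intro q (by ring)).trans hd
  have hd2 : q * d ∣ N := (Dvd.intro_left p rfl).trans hd
  have hd3 : d ∣ N := (Dvd.intro_left q rfl).trans hd2
  have hd4 : q * (p * d) ∣ N := by rwa [mul_left_comm]
  have e1 := comb_val_ne hp hq hpq (hne _ hd3) (hne _ hd2) (hstep q d hq hd2)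
  have e2 := comb_val_ne hp hq hpq (hne _ hd1) (hne _ hd4) (hstep q (p * d) hq hd4)
  rw [mul_left_comm] at e2
  constructor
  · intro h
    have e3 := comb_val_root hp (hne _ hd1) h
    rcases hstep p (q * d) hp hd with h' | h'
    · have e4 := comb_val_pow hp (hne _ hd2) h'
      omega
    · exact h'
  · intro h
    have e3 := comb_val_root hp (hne _ hd) h
    rcases hstep p d hp hd1 with h' | h'
    · have e4 := comb_val_pow hp (hne _ hd3) h'
      omega
    · exact h'

theorem comb_up (N : ℕ) (hN : N ≠ 0) (r : ℕ → ℚ)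
    (hne : ∀ d, d ∣ N → r d ≠ 0)
    (hstep : ∀ p d : ℕ, p.Prime → p * d ∣ N → r (p * d) = p * r d ∨ p * r (p * d) = r d)
    (hnoback : ∀ p d : ℕ, p.Prime → p * (p * d) ∣ N → p * r (p * d) = r d →
      p * r (p * (p * d)) = r (p * d))
    {p : ℕ} (hp : p.Prime) (e : ℕ) :
    ∀ d : ℕ, p * (e * d) ∣ N → p * r (p * d) = r d → p * r (p * (e * d)) = r (e * d) := by
  induction e using induction_on_primes with
  | zero =>
    intro d hd _
    simp only [zero_mul, mul_zero, zero_dvd_iff] at hd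
    exact absurd hd hN
  | one => intro d _ h; simpa using h
  | prime_mul q e hq ih =>
    intro d hd h
    rw [mul_assoc] at hd ⊢
    have hd' : p * (e * d) ∣ N := (Dvd.intro q (by ring)).trans hd
    have h1 := ih d hd' h
    by_cases hpq : p = q
    · subst hpq
      exact hnoback p (e * d) hp hd h1
    · exact (comb_square N r hne hstep hp hq hpq (e * d) hd).mp h1

theorem comb_down (N : ℕ) (r : ℕ → ℚ)
    (hne : ∀ d, d ∣ N → r d ≠ 0)
    (hstep : ∀ p d : ℕ, p.Prime → p * d ∣ N → r (p * d) = p * r d ∨ p * r (p * d) = r d)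
    {p : ℕ} (hp : p.Prime) (e : ℕ) :
    ¬ p ∣ e → ∀ d : ℕ, p * (e * d) ∣ N → p * r (p * (e * d)) = r (e * d) →
      p * r (p * d) = r d := by
  induction e using induction_on_primes with
  | zero => intro h; exact absurd (dvd_zero p) h
  | one => intro _ d _ h; simpa using h
  | prime_mul q e hq ih =>
    intro hpe d hd h
    rw [mul_assoc] at hd h
    have hd' : p * (e * d) ∣ N := (Dvd.intro q (by ring)).trans hd
    have hpq : p ≠ q := by
      rintro rfl
      exact hpe (Dvd.intro e rfl)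
    have hpe' : ¬ p ∣ e := fun h' => hpe (h'.mul_left q)
    exact ih hpe' d hd' ((comb_square N r hne hstep hp hq hpq (e * d) hd).mpr h)

theorem comb_prod_dvd (N : ℕ) {A : Finset ℕ} (hA : A ⊆ N.primeFactors) : ∏ p ∈ A, p ∣ N :=
  (Finset.prod_dvd_prod_of_subset _ _ _ hA).trans (Nat.prod_primeFactors_dvd N)

theorem comb_div_dvd (N : ℕ) {A : Finset ℕ} (hA : A ⊆ N.primeFactors) : N / ∏ p ∈ A, p ∣ N :=
  Nat.div_dvd_of_dvd (comb_prod_dvd N hA)

theorem altSum_congr (N : ℕ) {r r' : ℕ → ℚ} (h : ∀ d, d ∣ N → r d = r' d) :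
    altSum N r = altSum N r' := by
  apply Finset.sum_congr rfl
  intro A hA
  rw [h _ (comb_div_dvd N (Finset.mem_powerset.mp hA))]

theorem altSum_eq_zero_or (N : ℕ) (hN : N ≠ 0) (r : ℕ → ℚ) (h1 : r 1 = 1)
    (hne : ∀ d, d ∣ N → r d ≠ 0)
    (hstep : ∀ p d : ℕ, p.Prime → p * d ∣ N → r (p * d) = p * r d ∨ p * r (p * d) = r d)
    (hnoback : ∀ p d : ℕ, p.Prime → p * (p * d) ∣ N → p * r (p * d) = r d →
      p * r (p * (p * d)) = r (p * d)) :
    (∀ d, d ∣ N → r d = d) ∨ altSum N r = 0 := by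
  by_cases hall : ∀ p d : ℕ, p.Prime → p * d ∣ N → r (p * d) = p * r d
  · left
    intro d
    induction d using induction_on_primes with
    | zero => intro h; exact absurd (zero_dvd_iff.mp h) hN
    | one => intro _; simpa using h1
    | prime_mul q e hq ih =>
      intro h
      rw [hall q e hq h, ih ((Dvd.intro_left q rfl).trans h)]
      push_cast; ring
  · right
    push Not at hall
    obtain ⟨p, d₀, hp, hd₀, hne₀⟩ := hall
    have hQ₀ : p * r (p * d₀) = r d₀ := (hstep p d₀ hp hd₀).resolve_left hne₀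
    have hpN : p ∈ N.primeFactors :=
      Nat.mem_primeFactors.mpr ⟨hp, (Dvd.intro d₀ rfl).trans hd₀, hN⟩
    have hS : N.primeFactors = insert p (N.primeFactors.erase p) :=
      (Finset.insert_erase hpN).symm
    rw [altSum]
    conv_lhs => rw [hS]
    rw [Finset.sum_powerset_insert (Finset.notMem_erase p _), ← Finset.sum_add_distrib]
    apply Finset.sum_eq_zero
    intro A hA
    rw [← hS]
    rw [Finset.mem_powerset] at hA
    have hpA : p ∉ A := fun h => Finset.notMem_erase p _ (hA h)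
    have hA' : insert p A ⊆ N.primeFactors := by
      intro x hx
      rcases Finset.mem_insert.mp hx with rfl | hx
      · exact hpN
      · exact Finset.mem_of_mem_erase (hA hx)
    obtain ⟨d', hd'⟩ := comb_prod_dvd N hA'
    rw [Finset.prod_insert hpA] at hd'
    have hpos : 0 < p * ∏ x ∈ A, x := by
      rcases Nat.eq_zero_or_pos (p * ∏ x ∈ A, x) with h0 | h0
      · rw [h0, zero_mul] at hd'; exact absurd hd' hN
      · exact h0
    have hposA : 0 < ∏ x ∈ A, x := Nat.pos_of_mul_pos_left hpos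
    have hdiv1 : N / ∏ x ∈ A, x = p * d' := by
      rw [hd', mul_comm p, mul_assoc, Nat.mul_div_cancel_left _ hposA]
    have hdiv2 : N / ∏ x ∈ insert p A, x = d' := by
      rw [Finset.prod_insert hpA, hd', Nat.mul_div_cancel_left _ hpos]
    have hsd : N.primeFactors \ A = insert p (N.primeFactors \ insert p A) := by
      ext x
      simp only [Finset.mem_sdiff, Finset.mem_insert, not_or]
      constructor
      · rintro ⟨hx1, hx2⟩
        by_cases hxp : x = p
        · exact Or.inl hxp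
        · exact Or.inr ⟨hx1, hxp, hx2⟩
      · rintro (rfl | ⟨hx1, _, hx2⟩)
        · exact ⟨hpN, hpA⟩
        · exact ⟨hx1, hx2⟩
    have hpn : p ∉ N.primeFactors \ insert p A := by simp
    -- the key relation
    have hkey : p * r (p * d') = r d' := by
      obtain ⟨e, he⟩ := hd₀
      have htop : (∏ x ∈ A, x) * d' = e * d₀ := by
        have : p * ((∏ x ∈ A, x) * d') = p * (e * d₀) := by
          rw [← mul_assoc, ← hd', he]; ring
        exact Nat.eq_of_mul_eq_mul_left hp.pos this
      have hdvd : p * (e * d₀) ∣ N := by rw [he]; exact Dvd.intro_left 1 (by ring)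
      have hup := comb_up N hN r hne hstep hnoback hp e d₀ hdvd hQ₀
      rw [← htop] at hup hdvd
      refine comb_down N r hne hstep hp _ ?_ d' hdvd hup
      intro hdv
      obtain ⟨x, hx, hpx⟩ := (Prime.dvd_finsetProd_iff hp.prime _).mp hdv
      have hxp : x.Prime := Nat.prime_of_mem_primeFactors (Finset.mem_of_mem_erase (hA hx))
      rw [(Nat.prime_dvd_prime_iff_eq hp hxp).mp hpx] at hpA
      exact hpA hx
    rw [hdiv1, hdiv2, hsd, Finset.prod_insert hpn, Finset.card_insert_of_notMem hpA, ← hkey]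
    ring

theorem altSum_sum {ι : Type*} [Fintype ι] (N : ℕ) (r : ι → ℕ → ℚ) :
    ∑ i, altSum N (r i) = altSum N (fun d => ∑ i, r i d) := by
  simp only [altSum]
  rw [Finset.sum_comm]
  apply Finset.sum_congr rfl
  intro A _
  rw [Finset.mul_sum]

theorem altSum_const (N : ℕ) (c : ℚ) : altSum N (fun _ => c) = c * altSum N (fun _ => 1) := by
  simp only [altSum]
  rw [Finset.mul_sum]
  apply Finset.sum_congr rfl
  intro A _
  ring

theorem card_mul_altSum {ι : Type*} [Fintype ι] (N : ℕ) (hN : N ≠ 0) (r : ι → ℕ → ℚ) (i₀ : ι)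
    (h0 : ∀ d, d ∣ N → r i₀ d = d) (huniq : ∀ i, (∀ d, d ∣ N → r i d = d) → i = i₀)
    (h1 : ∀ i, r i 1 = 1) (hne : ∀ i d, d ∣ N → r i d ≠ 0)
    (hstep : ∀ i, ∀ p d : ℕ, p.Prime → p * d ∣ N →
      r i (p * d) = p * r i d ∨ p * r i (p * d) = r i d)
    (hnoback : ∀ i, ∀ p d : ℕ, p.Prime → p * (p * d) ∣ N → p * r i (p * d) = r i d →
      p * r i (p * (p * d)) = r i (p * d))
    (hsum : ∀ d, d ∣ N → ∑ i, r i d = Fintype.card ι) :
    (Fintype.card ι : ℚ) * altSum N (fun _ => 1) = altSum N (fun d => (d : ℚ)) := by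
  rw [← altSum_const, ← altSum_congr N hsum, ← altSum_sum, ← altSum_congr N h0]
  apply Finset.sum_eq_single i₀
  · intro i _ hi
    rcases altSum_eq_zero_or N hN (r i) (h1 i) (hne i) (hstep i) (hnoback i) with h | h
    · exact absurd (huniq i h) hi
    · exact h
  · intro h; exact absurd (Finset.mem_univ _) h

end Fermat.Agent.S28
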