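import Fermat.Agent.S28.Interface
import Fermat.Prelude.Sol.S_ModularCurve_coeff_jqModC_neg_one

set_option autoImplicit false

noncomputable section

namespace Fermat.Agent.S28

open ModularCurve Polynomial

/-- abstract: the norm of a unit of the integral closure is a unit of the base. -/
theorem norm_eq_unit {R E F : Type*} [CommRing R] [IsDomain R] [IsIntegrallyClosed R]
    [Field E] [Field F] [Algebra R E] [IsFractionRing R E] [Algebra E F] [Algebra R F]
    [IsScalarTower R E F] [FiniteDimensional E F] [Algebra.IsSeparable E F]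
    (x : F) (h0 : x ≠ 0) (hx : IsIntegral R x) (hx' : IsIntegral R x⁻¹) :
    ∃ a : Rˣ, Algebra.norm E x = algebraMap R E a := by
  obtain ⟨a, ha⟩ := IsIntegrallyClosed.isIntegral_iff.mp (Algebra.isIntegral_norm E hx)
  obtain ⟨b, hb⟩ := IsIntegrallyClosed.isIntegral_iff.mp (Algebra.isIntegral_norm E hx')
  have hab : a * b = 1 := by
    apply IsFractionRing.injective R E
    rw [map_mul, ha, hb, ← map_mul, mul_inv_cancel₀ h0, map_one, map_one]
  exact ⟨⟨a, b, hab, by rw [mul_comm]; exact hab⟩, ha.symm⟩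

open scoped IntermediateField.algebraAdjoinAdjoin in
/-- concrete: `k[j]`-units of a finite separable extension `F ⊆ k((q))` of `k(j)` have constant
norm. -/
theorem norm_eq_const (k : Type*) [Field k]
    (F : IntermediateField ↥(IntermediateField.adjoin k {jqModC k}) (LaurentSeries k))
    [FiniteDimensional ↥(IntermediateField.adjoin k {jqModC k}) ↥F]
    [Algebra.IsSeparable ↥(IntermediateField.adjoin k {jqModC k}) ↥F]
    (x : ↥F) (h0 : x ≠ 0)
    (hx : IsIntegral ↥(Algebra.adjoin k {jqModC k}) (x : LaurentSeries k))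
    (hx' : IsIntegral ↥(Algebra.adjoin k {jqModC k}) (x : LaurentSeries k)⁻¹) :
    ∃ c : k, c ≠ 0 ∧
      ((Algebra.norm ↥(IntermediateField.adjoin k {jqModC k}) x :
        ↥(IntermediateField.adjoin k {jqModC k})) : LaurentSeries k) = HahnSeries.C c := by
  have htr : Transcendental k (jqModC k) :=
    P2MW.S_ModularCurve_coeff_jqModC_neg_one.ModularCurve.CharLRows.transcendental_jqModC k
  let e : k[X] ≃ₐ[k] ↥(Algebra.adjoin k {jqModC k}) :=
    Polynomial.algEquivOfTranscendental k (jqModC k) htr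
  have hic : IsIntegrallyClosed ↥(Algebra.adjoin k {jqModC k}) :=
    IsIntegrallyClosed.of_equiv e.toRingEquiv
  let _ : Algebra ↥(Algebra.adjoin k {jqModC k}) ↥F :=
    ((algebraMap ↥(IntermediateField.adjoin k {jqModC k}) ↥F).comp
      (algebraMap ↥(Algebra.adjoin k {jqModC k}) ↥(IntermediateField.adjoin k {jqModC k}))).toAlgebra
  have hst : IsScalarTower ↥(Algebra.adjoin k {jqModC k})
      ↥(IntermediateField.adjoin k {jqModC k}) ↥F := IsScalarTower.of_algebraMap_eq (fun _ => rfl)
  have hst2 : IsScalarTower ↥(Algebra.adjoin k {jqModC k}) ↥F (LaurentSeries k) :=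
    IsScalarTower.of_algebraMap_eq (fun _ => rfl)
  have hinj : Function.Injective (algebraMap ↥F (LaurentSeries k)) := Subtype.val_injective
  have hx1 : IsIntegral ↥(Algebra.adjoin k {jqModC k}) x :=
    (isIntegral_algebraMap_iff hinj).mp hx
  have hx2 : IsIntegral ↥(Algebra.adjoin k {jqModC k}) x⁻¹ :=
    (isIntegral_algebraMap_iff hinj).mp (by simpa using hx')
  obtain ⟨a, ha⟩ := norm_eq_unit (R := ↥(Algebra.adjoin k {jqModC k}))
    (E := ↥(IntermediateField.adjoin k {jqModC k})) x h0 hx1 hx2
  have hu : IsUnit (e.symm (a : ↥(Algebra.adjoin k {jqModC k}))) := a.isUnit.map e.symm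
  obtain ⟨c, hc, hce⟩ := Polynomial.isUnit_iff.mp hu
  refine ⟨c, hc.ne_zero, ?_⟩
  have ha2 : (a : ↥(Algebra.adjoin k {jqModC k})) = algebraMap k _ c := by
    rw [← e.apply_symm_apply (a : ↥(Algebra.adjoin k {jqModC k})), ← hce]
    exact e.commutes c
  rw [ha, ha2]
  exact P2MW.S_ModularCurve_coeff_jqModC_neg_one.ModularCurve.CharLRows.algebraMap_laurentSeries_eq_single
    k c

end Fermat.Agent.S28
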