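import Fermat.Agent.S28.CUnit
import Fermat.Agent.S28.CComb
import Fermat.Agent.S28.CNorm

/-!
# Block C: final assembly.  `StatementB → StatementC`.
-/

set_option autoImplicit false

noncomputable section

namespace Fermat.Agent.S28

open ModularCurve Polynomial

section MainSec

variable {k : Type} [Field k] {N : ℕ} [NeZero N]

theorem orderTop_prod_eq {ι : Type*} (s : Finset ι) (f : ι → Om k) (g : ι → ℚ)
    (h : ∀ i ∈ s, (f i).orderTop = ((g i : ℚ) : WithTop ℚ)) :
    (∏ i ∈ s, f i).orderTop = ((∑ i ∈ s, g i : ℚ) : WithTop ℚ) := by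
  classical
  induction s using Finset.induction_on with
  | empty => simp
  | insert a s ha ih =>
    rw [Finset.prod_insert ha, Finset.sum_insert ha, HahnSeries.orderTop_mul,
      h a (Finset.mem_insert_self a s), ih fun i hi => h i (Finset.mem_insert_of_mem hi),
      WithTop.coe_add]

theorem sum_T_r (hB : StatementB) (hN : (N : k) ≠ 0) [FiniteDimensional ↥(EE k) ↥(FF k N)]
    [Algebra.IsSeparable ↥(EE k) ↥(FF k N)] {d : ℕ} (hd : d ∣ N) :
    ∑ σ : ↥(FF k N) →ₐ[↥(EE k)] OmBar k, (T σ d).r =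
      Fintype.card (↥(FF k N) →ₐ[↥(EE k)] OmBar k) := by
  obtain ⟨M, hM, x, hx0, hx, hx', hσ⟩ := exists_unit hB hN hd
  obtain ⟨c, hc, hnorm⟩ := norm_eq_const k (FF k N) x hx0 hx hx'
  choose y hy hyo using hσ
  have h1 := Algebra.norm_eq_prod_embeddings (EE k) (OmBar k) x
  rw [algebraMap_EE_bar, hnorm] at h1
  simp_rw [hy] at h1
  rw [← map_prod] at h1
  have h2 := toBar_injective k h1
  have h3 := orderTop_prod_eq Finset.univ y _ fun σ _ => hyo σ
  rw [← h2, orderTop_iota_C k c hc] at h3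
  have h4 : (0 : ℚ) = ∑ σ : ↥(FF k N) →ₐ[↥(EE k)] OmBar k, (M : ℚ) * ((T σ d).r - 1) := by
    exact_mod_cast h3
  rw [← Finset.mul_sum, Finset.sum_sub_distrib] at h4
  have hM' : (M : ℚ) ≠ 0 := by exact_mod_cast hM.ne'
  have h5 := (mul_eq_zero.mp h4.symm).resolve_left hM'
  simp only [Finset.sum_const, Finset.card_univ, nsmul_eq_mul, mul_one] at h5
  linarith

theorem finrank_mul_altSum (hB : StatementB) (hN : (N : k) ≠ 0) :
    (Module.finrank ↥(EE k) ↥(FF k N) : ℚ) * altSum N (fun _ => 1) =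
      altSum N (fun d => (d : ℚ)) := by
  have := finiteDimensional_FF k N hB hN
  have := isSeparable_FF k N hB hN
  rw [← AlgHom.card (EE k) (FF k N) (OmBar k)]
  exact card_mul_altSum N (NeZero.ne N) (fun σ d => (T σ d).r) σ₀
    (fun d hd => by rw [T_σ₀ hB hN hd, Pd_r k d (ne_zero_of_dvd N hd)])
    (fun σ h => eq_σ₀_of_T_r hB hN σ h) (T_r_one hB hN) (fun σ d _ => (T σ d).pos.ne')
    (T_r_step hB hN) (T_r_noback hB hN) (fun d hd => sum_T_r hB hN hd)

end MainSec

/-- Block C from block B. -/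
theorem statementC_of_statementB (hB : StatementB) : StatementC := by
  intro N _
  have hQ : ((N : ℕ) : ℚ) ≠ 0 := by exact_mod_cast NeZero.ne N
  have := finiteDimensional_FF ℚ N hB hQ
  refine ⟨Module.finrank ↥(EE ℚ) ↥(FF ℚ N), Module.finrank_pos, fun K₀ _ hN => ?_⟩
  have h1 := finrank_mul_altSum (k := ℚ) (N := N) hB hQ
  have h2 := finrank_mul_altSum (k := K₀) (N := N) hB hN
  rw [← h1] at h2
  have h3 := mul_right_cancel₀ (altSum_one_ne_zero N) h2
  exact_mod_cast h3

end Fermat.Agent.S28
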