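import Fermat.Agent.S28.D0

set_option autoImplicit false

noncomputable section

namespace Fermat.Agent.S28

open ModularCurve Polynomial

theorem D1bk_abstract {E L : Type*} [Field E] [Field L] [Algebra E L] (S : Set L) (n : ℕ)
    (hn0 : 0 < n) (hn : Module.finrank E ↥(IntermediateField.adjoin E S) = n) :
    ∃ v : Fin n → L, (∀ i, v i ∈ Submonoid.closure S) ∧ LinearIndependent E v := by
  classical
  set Fb := IntermediateField.adjoin E S with hFb
  have hfin : Module.Finite E ↥Fb := Module.finite_of_finrank_pos (by rw [hn]; exact hn0)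
  have halg : ∀ x ∈ S, IsAlgebraic E x := by
    intro x hx
    have hxF : x ∈ Fb := IntermediateField.subset_adjoin _ _ hx
    have h1 : IsAlgebraic E (⟨x, hxF⟩ : ↥Fb) := Algebra.IsAlgebraic.isAlgebraic _
    exact (IntermediateField.isAlgebraic_iff).mp h1
  have hsub : Fb.toSubalgebra = Algebra.adjoin E S :=
    IntermediateField.adjoin_toSubalgebra_of_isAlgebraic halg
  have hspan : Subalgebra.toSubmodule Fb.toSubalgebra =
      Submodule.span E (Submonoid.closure S : Set L) := by
    rw [hsub, Algebra.adjoin_eq_span]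
  obtain ⟨b, hbS, hbspan, hli⟩ := exists_linearIndependent E (Submonoid.closure S : Set L)
  have hrange : Submodule.span E (Set.range ((↑) : b → L)) =
      Subalgebra.toSubmodule Fb.toSubalgebra := by
    rw [Subtype.range_coe, hbspan, hspan]
  let B := Module.Basis.span hli
  have hfin2 : Module.Finite E ↥(Submodule.span E (Set.range ((↑) : b → L))) := by
    rw [hrange]
    exact hfin
  have hbfin : Finite b := Module.Finite.finite_basis B
  have hcard : Nat.card b = n := by
    have h1 : Module.finrank E ↥(Submodule.span E (Set.range ((↑) : b → L))) = Nat.card b :=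
      Module.finrank_eq_nat_card_basis B
    rw [← h1, hrange]
    exact hn
  let e : Fin n ≃ b := (Finite.equivFinOfCardEq hcard).symm
  exact ⟨fun i => (e i : L), fun i => hbS (e i).2, hli.comp e e.injective⟩

theorem D1bk_lift (ℓ : ℕ) [Fact ℓ.Prime] (N : ℕ) [NeZero N] (x : LaurentSeries (ZMod ℓ))
    (hx : x ∈ Submonoid.closure (divisorExpansionsC (ZMod ℓ) N)) :
    ∃ z : LaurentSeries (Rl ℓ), piL ℓ z = x ∧ iotaL ℓ z ∈ modularFunctionFieldFull N := by
  induction hx using Submonoid.closure_induction with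
  | mem x hx =>
    obtain ⟨d, hd, hdN, rfl⟩ := hx
    refine ⟨qExpand (Rl ℓ) d (jqModC (Rl ℓ)), ?_, ?_⟩
    · rw [piL_qExpand, piL_jqModC]
    · rw [iotaL_qExpand, iotaL_jqModC]
      exact jqd_mem_full N hdN
  | one => exact ⟨1, map_one _, by rw [map_one]; exact one_mem _⟩
  | mul x y _ _ hx hy =>
    obtain ⟨z, rfl, hz⟩ := hx
    obtain ⟨z', rfl, hz'⟩ := hy
    exact ⟨z * z', map_mul _ _ _, by rw [map_mul]; exact mul_mem hz hz'⟩

theorem D1bk (ℓ : ℕ) [Fact ℓ.Prime] (N : ℕ) [NeZero N] (n : ℕ) (hn0 : 0 < n)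
    (hn : Module.finrank ↥(IntermediateField.adjoin (ZMod ℓ) {jqModC (ZMod ℓ)})
      ↥(IntermediateField.adjoin ↥(IntermediateField.adjoin (ZMod ℓ) {jqModC (ZMod ℓ)})
        (divisorExpansionsC (ZMod ℓ) N)) = n) :
    ∃ z : Fin n → LaurentSeries (Rl ℓ), (∀ i, iotaL ℓ (z i) ∈ modularFunctionFieldFull N) ∧
      ∀ c : Fin n → LaurentSeries (ZMod ℓ),
        (∀ i, c i ∈ IntermediateField.adjoin (ZMod ℓ) {jqModC (ZMod ℓ)}) →
        ∑ i, c i * piL ℓ (z i) = 0 → c = 0 := by
  classical
  obtain ⟨v, hv, hli⟩ := D1bk_abstract (divisorExpansionsC (ZMod ℓ) N) n hn0 hn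
  have hlift : ∀ i : Fin n, ∃ z : LaurentSeries (Rl ℓ),
      piL ℓ z = v i ∧ iotaL ℓ z ∈ modularFunctionFieldFull N :=
    fun i => D1bk_lift ℓ N _ (hv i)
  choose z hz1 hz2 using hlift
  refine ⟨z, hz2, fun c hc hsum => ?_⟩
  rw [Fintype.linearIndependent_iff] at hli
  have := hli (fun i => ⟨c i, hc i⟩) (by
    simp only [Algebra.smul_def]
    rw [← hsum]
    refine Finset.sum_congr rfl fun i _ => ?_
    rw [hz1]
    rfl)
  funext i
  exact congrArg Subtype.val (this i)

end Fermat.Agent.S28
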