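import Fermat.Agent.S28.D0
import Fermat.Prelude.Sol.S_ModularCurve_coeff_jqModC_neg_one

set_option autoImplicit false

noncomputable section

namespace Fermat.Agent.S28

open ModularCurve Polynomial

theorem transcendental_jqModC (k : Type*) [Field k] : Transcendental k (jqModC k) :=
  P2MW.S_ModularCurve_coeff_jqModC_neg_one.ModularCurve.CharLRows.transcendental_jqModC k

variable (ℓ : ℕ) [Fact ℓ.Prime]

/-- constants of `ℤ_(ℓ)` in the Gauss ring. -/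
def cstG : Rl ℓ →+* ↥(gaussRing ℓ) :=
  ((iotaL ℓ).comp HahnSeries.C).codRestrict (gaussRing ℓ) (fun _ => iotaL_mem_gaussRing ℓ _)

theorem coe_cstG (r : Rl ℓ) :
    ((cstG ℓ r : ↥(gaussRing ℓ)) : LaurentSeries ℚ) = algebraMap ℚ (LaurentSeries ℚ) (r : ℚ) := by
  show iotaL ℓ (HahnSeries.C r) = _
  rw [algebraMap_laurentSeries_eq_single, iotaL]
  show coeffMap _ (HahnSeries.single 0 r) = _
  rw [coeffMap_single]
  rfl

theorem gaussRes_cstG (r : Rl ℓ) :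
    gaussRes ℓ (cstG ℓ r) = algebraMap (ZMod ℓ) (LaurentSeries (ZMod ℓ)) (resR ℓ r) := by
  have h : cstG ℓ r = ⟨iotaL ℓ (HahnSeries.C r), iotaL_mem_gaussRing ℓ _⟩ := rfl
  rw [h, gaussRes_iotaL, algebraMap_laurentSeries_eq_single, piL]
  show coeffMap _ (HahnSeries.single 0 r) = _
  rw [coeffMap_single]

/-- evaluation of polynomials over `ℤ_(ℓ)` at an element of the Gauss ring. -/
def phiG (T : ↥(gaussRing ℓ)) : (Rl ℓ)[X] →+* ↥(gaussRing ℓ) := eval₂RingHom (cstG ℓ) T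

theorem coe_phiG (T : ↥(gaussRing ℓ)) (P : (Rl ℓ)[X]) :
    ((phiG ℓ T P : ↥(gaussRing ℓ)) : LaurentSeries ℚ) =
      aeval (T : LaurentSeries ℚ) (P.map (GaloisRep.ratLocalizedAt ℓ).subtype) := by
  have h1 := Polynomial.hom_eval₂ P (cstG ℓ) (gaussRing ℓ).subtype T
  have h2 : (gaussRing ℓ).subtype.comp (cstG ℓ) =
      (algebraMap ℚ (LaurentSeries ℚ)).comp (GaloisRep.ratLocalizedAt ℓ).subtype := by
    ext1 r
    exact coe_cstG ℓ r
  rw [h2] at h1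
  rw [aeval_def, eval₂_map]
  exact h1

theorem gaussRes_phiG (T : ↥(gaussRing ℓ)) (P : (Rl ℓ)[X]) :
    gaussRes ℓ (phiG ℓ T P) = aeval (gaussRes ℓ T) (P.map (resR ℓ)) := by
  have h1 := Polynomial.hom_eval₂ P (cstG ℓ) (gaussRes ℓ) T
  have h2 : (gaussRes ℓ).comp (cstG ℓ) =
      (algebraMap (ZMod ℓ) (LaurentSeries (ZMod ℓ))).comp (resR ℓ) := by
    ext1 r
    exact gaussRes_cstG ℓ r
  rw [h2] at h1
  rw [aeval_def, eval₂_map]
  exact h1

theorem natCast_laurent_zmod : (ℓ : LaurentSeries (ZMod ℓ)) = 0 := by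
  rw [← map_natCast (algebraMap (ZMod ℓ) (LaurentSeries (ZMod ℓ))) ℓ, ZMod.natCast_self, map_zero]

omit [Fact ℓ.Prime] in
theorem exists_map_eq_of_coeff_mem (P : ℚ[X]) (hP : ∀ i, P.coeff i ∈ GaloisRep.ratLocalizedAt ℓ) :
    ∃ Q : (Rl ℓ)[X], Q.map (GaloisRep.ratLocalizedAt ℓ).subtype = P := by
  rw [← mem_lifts, lifts_iff_coeff_lifts]
  intro n
  exact ⟨⟨_, hP n⟩, rfl⟩

theorem D1c_step (T : ↥(gaussRing ℓ))
    (hT : Transcendental (ZMod ℓ) (gaussRes ℓ T)) (P : ℚ[X])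
    (h : aeval (T : LaurentSeries ℚ) P ∈ gaussRing ℓ)
    (hP : ∀ i, (ℓ : ℚ) * P.coeff i ∈ GaloisRep.ratLocalizedAt ℓ) (i : ℕ) :
    P.coeff i ∈ GaloisRep.ratLocalizedAt ℓ := by
  have hl : (ℓ : ℚ) ≠ 0 := by exact_mod_cast (Fact.out : ℓ.Prime).ne_zero
  obtain ⟨Q, hQ⟩ := exists_map_eq_of_coeff_mem ℓ (C (ℓ : ℚ) * P) (fun i => by
    rw [coeff_C_mul]; exact hP i)
  have h1 : phiG ℓ T Q = (ℓ : ↥(gaussRing ℓ)) * ⟨_, h⟩ := by
    apply Subtype.ext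
    rw [coe_phiG, hQ, map_mul, aeval_C, Subring.coe_mul, Subring.coe_natCast, map_natCast]
  have h2 : aeval (gaussRes ℓ T) (Q.map (resR ℓ)) = 0 := by
    rw [← gaussRes_phiG, h1, map_mul, map_natCast, natCast_laurent_zmod, zero_mul]
  have h3 : Q.map (resR ℓ) = 0 := transcendental_iff.mp hT _ h2
  have h4 : resR ℓ (Q.coeff i) = 0 := by
    rw [← coeff_map, h3, coeff_zero]
  have h5 := div_mem_of_resR_eq_zero ℓ _ h4
  have h6 : ((Q.coeff i : Rl ℓ) : ℚ) = (ℓ : ℚ) * P.coeff i := by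
    have := congrArg (fun R => coeff R i) hQ
    simpa [coeff_map, coeff_C_mul] using this
  rw [h6, mul_div_cancel_left₀ _ hl] at h5
  exact h5

theorem D1c_pow (T : ↥(gaussRing ℓ))
    (hT : Transcendental (ZMod ℓ) (gaussRes ℓ T)) (m : ℕ) : ∀ (P : ℚ[X])
    (_ : aeval (T : LaurentSeries ℚ) P ∈ gaussRing ℓ)
    (_ : ∀ i, (ℓ : ℚ) ^ m * P.coeff i ∈ GaloisRep.ratLocalizedAt ℓ) (i : ℕ),
    P.coeff i ∈ GaloisRep.ratLocalizedAt ℓ := by
  induction m with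
  | zero =>
    intro P _ hP i
    simpa using hP i
  | succ m ih =>
    intro P h hP
    apply ih P h
    have h1 : aeval (T : LaurentSeries ℚ) (C ((ℓ : ℚ) ^ m) * P) ∈ gaussRing ℓ := by
      rw [map_mul, aeval_C, map_pow, map_natCast]
      exact mul_mem (pow_mem (natCast_mem _ _) _) h
    intro i
    have := D1c_step ℓ T hT (C ((ℓ : ℚ) ^ m) * P) h1 (fun i => by
      rw [coeff_C_mul, ← mul_assoc, ← pow_succ']; exact hP i) i
    rwa [coeff_C_mul] at this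

theorem exists_pow_mul_mem (x : ℚ) : ∃ m : ℕ, (ℓ : ℚ) ^ m * x ∈ GaloisRep.ratLocalizedAt ℓ := by
  have hl : (ℓ : ℚ) ≠ 0 := by exact_mod_cast (Fact.out : ℓ.Prime).ne_zero
  obtain ⟨e, d, hd, hxd⟩ := Nat.exists_eq_pow_mul_and_not_dvd x.den_ne_zero ℓ
    (Fact.out : ℓ.Prime).ne_one
  refine ⟨e, ?_⟩
  have hd0 : (d : ℚ) ≠ 0 := by
    intro h0
    have : d = 0 := by exact_mod_cast h0
    exact hd (this ▸ dvd_zero _)
  have hxe : (ℓ : ℚ) ^ e * x = (x.num : ℚ) / ((d : ℤ) : ℚ) := by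
    have h1 : x * (x.den : ℚ) = x.num := Rat.mul_den_eq_num _
    rw [hxd] at h1
    push_cast at h1 ⊢
    rw [eq_div_iff hd0, ← h1]
    ring
  have hdvd : (((x.num : ℚ) / ((d : ℤ) : ℚ)).den : ℤ) ∣ (d : ℤ) := by
    rw [← Rat.divInt_eq_div]
    exact Rat.den_dvd _ _
  rw [hxe]
  have hc : d.Coprime ℓ := ((Nat.Prime.coprime_iff_not_dvd (Fact.out : ℓ.Prime)).mpr hd).symm
  exact Nat.Coprime.coprime_dvd_left (Int.natCast_dvd_natCast.mp hdvd) hc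

theorem exists_pow_mul_coeff_mem (P : ℚ[X]) :
    ∃ m : ℕ, ∀ i, (ℓ : ℚ) ^ m * P.coeff i ∈ GaloisRep.ratLocalizedAt ℓ := by
  choose f hf using exists_pow_mul_mem ℓ
  refine ⟨∑ i ∈ P.support, f (P.coeff i), fun i => ?_⟩
  by_cases hi : i ∈ P.support
  · obtain ⟨k, hk⟩ := Nat.exists_eq_add_of_le
      (Finset.single_le_sum (f := fun i => f (P.coeff i)) (fun _ _ => Nat.zero_le _) hi)
    rw [hk, add_comm, pow_add, mul_assoc]
    exact mul_mem (pow_mem (natCast_mem _ _) _) (hf _)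
  · rw [notMem_support_iff.mp hi, mul_zero]
    exact zero_mem _

theorem D1c' (T : ↥(gaussRing ℓ))
    (hT : Transcendental (ZMod ℓ) (gaussRes ℓ T)) (P : ℚ[X])
    (h : aeval (T : LaurentSeries ℚ) P ∈ gaussRing ℓ) (i : ℕ) :
    P.coeff i ∈ GaloisRep.ratLocalizedAt ℓ := by
  obtain ⟨m, hm⟩ := exists_pow_mul_coeff_mem ℓ P
  exact D1c_pow ℓ T hT m P h hm i

/-- `j` as an element of the Gauss ring. -/
def jG : ↥(gaussRing ℓ) := ⟨iotaL ℓ (jqModC (Rl ℓ)), iotaL_mem_gaussRing ℓ _⟩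

theorem coe_jG : ((jG ℓ : ↥(gaussRing ℓ)) : LaurentSeries ℚ) = jq := iotaL_jqModC ℓ

theorem gaussRes_jG : gaussRes ℓ (jG ℓ) = jqModC (ZMod ℓ) := by
  rw [jG, gaussRes_iotaL, piL_jqModC]

/-- normalisation of a nonzero polynomial in `j`. -/
theorem exists_normalise (b : ℚ[X]) (hb : b ≠ 0) :
    ∃ (s t : ℕ) (b2 : (Rl ℓ)[X]), b2.map (resR ℓ) ≠ 0 ∧
      (ℓ : LaurentSeries ℚ) ^ s * aeval jq b =
        (ℓ : LaurentSeries ℚ) ^ t * (phiG ℓ (jG ℓ) b2 : ↥(gaussRing ℓ)) := by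
  have hl : (ℓ : ℚ) ≠ 0 := by exact_mod_cast (Fact.out : ℓ.Prime).ne_zero
  have hlL : (ℓ : LaurentSeries ℚ) ≠ 0 := natCast_laurent_ne_zero ℓ
  have hT : Transcendental (ZMod ℓ) (gaussRes ℓ (jG ℓ)) := by
    rw [gaussRes_jG]; exact transcendental_jqModC _
  obtain ⟨s, hs⟩ := exists_pow_mul_coeff_mem ℓ b
  obtain ⟨b1, hb1⟩ := exists_map_eq_of_coeff_mem ℓ (C ((ℓ : ℚ) ^ s) * b) (fun i => by
    rw [coeff_C_mul]; exact hs i)
  have hb1j : ((phiG ℓ (jG ℓ) b1 : ↥(gaussRing ℓ)) : LaurentSeries ℚ) =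
      (ℓ : LaurentSeries ℚ) ^ s * aeval jq b := by
    rw [coe_phiG, hb1, coe_jG, map_mul, aeval_C, map_pow, map_natCast]
  have hbj : aeval jq b ≠ 0 := fun h0 =>
    hb (transcendental_iff.mp (transcendental_jqModC ℚ) b h0)
  -- the same element as a Laurent series over `ℤ_(ℓ)`
  let z : LaurentSeries (Rl ℓ) := eval₂ HahnSeries.C (jqModC (Rl ℓ)) b1
  have hz : iotaL ℓ z = (phiG ℓ (jG ℓ) b1 : ↥(gaussRing ℓ)) := by
    have h1 := Polynomial.hom_eval₂ b1 HahnSeries.C (iotaL ℓ) (jqModC (Rl ℓ))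
    have h2 := Polynomial.hom_eval₂ b1 (cstG ℓ) (gaussRing ℓ).subtype (jG ℓ)
    exact h1.trans h2.symm
  have hz0 : z ≠ 0 := by
    intro h0
    rw [h0, map_zero, hb1j] at hz
    exact mul_ne_zero (pow_ne_zero _ hlL) hbj hz.symm
  obtain ⟨t, z', hzz', hz'⟩ := exists_pow_mul ℓ z hz0
  -- divide `b1` by `ℓ ^ t`
  have hP : aeval ((jG ℓ : ↥(gaussRing ℓ)) : LaurentSeries ℚ)
      (C (((ℓ : ℚ) ^ t)⁻¹) * (C ((ℓ : ℚ) ^ s) * b)) = iotaL ℓ z' := by
    have h3 : iotaL ℓ z = (ℓ : LaurentSeries ℚ) ^ t * iotaL ℓ z' := by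
      rw [hzz', map_mul, map_pow, map_natCast]
    rw [hz, hb1j] at h3
    rw [coe_jG, map_mul, map_mul, aeval_C, aeval_C, map_inv₀, map_pow, map_pow, map_natCast, h3,
      ← mul_assoc, inv_mul_cancel₀ (pow_ne_zero _ hlL), one_mul]
  have hcoef := D1c' ℓ (jG ℓ) hT _ (hP ▸ iotaL_mem_gaussRing ℓ z')
  obtain ⟨b2, hb2⟩ := exists_map_eq_of_coeff_mem ℓ _ hcoef
  have hb2j : ((phiG ℓ (jG ℓ) b2 : ↥(gaussRing ℓ)) : LaurentSeries ℚ) = iotaL ℓ z' := by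
    rw [coe_phiG, hb2, hP]
  refine ⟨s, t, b2, ?_, ?_⟩
  · intro h0
    have h4 : gaussRes ℓ (phiG ℓ (jG ℓ) b2) = piL ℓ z' := by
      have : phiG ℓ (jG ℓ) b2 = ⟨iotaL ℓ z', iotaL_mem_gaussRing ℓ z'⟩ := Subtype.ext hb2j
      rw [this, gaussRes_iotaL]
    rw [gaussRes_phiG, h0, map_zero] at h4
    exact hz' h4.symm
  · rw [hb2j, ← hb1j, ← hz, hzz', map_mul, map_pow, map_natCast]

theorem aeval_mem_adjoin_jqModC (P : (ZMod ℓ)[X]) :
    aeval (jqModC (ZMod ℓ)) P ∈ IntermediateField.adjoin (ZMod ℓ) {jqModC (ZMod ℓ)} := by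
  rw [IntermediateField.mem_adjoin_simple_iff]
  exact ⟨P, 1, by simp⟩

theorem D1c (c : ↥(gaussRing ℓ))
    (hc : (c : LaurentSeries ℚ) ∈ IntermediateField.adjoin ℚ {jq}) :
    gaussRes ℓ c ∈ IntermediateField.adjoin (ZMod ℓ) {jqModC (ZMod ℓ)} := by
  have hlL : (ℓ : LaurentSeries ℚ) ≠ 0 := natCast_laurent_ne_zero ℓ
  obtain ⟨a, b, hab⟩ := (IntermediateField.mem_adjoin_simple_iff ℚ _).mp hc
  by_cases hc0 : c = 0
  · rw [hc0, map_zero]; exact zero_mem _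
  have hc0' : (c : LaurentSeries ℚ) ≠ 0 := fun h => hc0 (Subtype.ext h)
  have ha : a ≠ 0 := by
    rintro rfl
    rw [map_zero, zero_div] at hab
    exact hc0' hab
  have hbj : aeval jq b ≠ 0 := by
    intro h0
    rw [h0, div_zero] at hab
    exact hc0' hab
  have hb : b ≠ 0 := by
    rintro rfl
    exact hbj (map_zero _)
  obtain ⟨s, t, b2, hb2, hbe⟩ := exists_normalise ℓ b hb
  obtain ⟨s', t', a2, ha2, hae⟩ := exists_normalise ℓ a ha
  have hT : Transcendental (ZMod ℓ) (jqModC (ZMod ℓ)) := transcendental_jqModC _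
  have hresb : gaussRes ℓ (phiG ℓ (jG ℓ) b2) ≠ 0 := by
    rw [gaussRes_phiG, gaussRes_jG]
    exact fun h0 => hb2 (transcendental_iff.mp hT _ h0)
  have hresa : gaussRes ℓ (phiG ℓ (jG ℓ) a2) ≠ 0 := by
    rw [gaussRes_phiG, gaussRes_jG]
    exact fun h0 => ha2 (transcendental_iff.mp hT _ h0)
  -- the basic relation
  have hrel : (ℓ : LaurentSeries ℚ) ^ (t + s') * ((phiG ℓ (jG ℓ) b2 : ↥(gaussRing ℓ)) *
      (c : LaurentSeries ℚ)) =
      (ℓ : LaurentSeries ℚ) ^ (t' + s) * (phiG ℓ (jG ℓ) a2 : ↥(gaussRing ℓ)) := by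
    have h1 : aeval jq b * (c : LaurentSeries ℚ) = aeval jq a := by
      rw [hab, mul_div_cancel₀ _ hbj]
    calc (ℓ : LaurentSeries ℚ) ^ (t + s') * ((phiG ℓ (jG ℓ) b2 : ↥(gaussRing ℓ)) *
          (c : LaurentSeries ℚ))
        = (ℓ : LaurentSeries ℚ) ^ s' * ((ℓ : LaurentSeries ℚ) ^ t *
            (phiG ℓ (jG ℓ) b2 : ↥(gaussRing ℓ))) * (c : LaurentSeries ℚ) := by
          rw [pow_add]; ring
      _ = (ℓ : LaurentSeries ℚ) ^ s * ((ℓ : LaurentSeries ℚ) ^ s' * aeval jq a) := by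
          rw [← hbe, ← h1]; ring
      _ = _ := by rw [hae, pow_add]; ring
  rcases le_total (t + s') (t' + s) with hle | hle
  · obtain ⟨k, hk⟩ := Nat.exists_eq_add_of_le hle
    rw [hk, pow_add _ (t + s') k, mul_assoc] at hrel
    have h2 := mul_left_cancel₀ (pow_ne_zero _ hlL) hrel
    have h3 : phiG ℓ (jG ℓ) b2 * c = (ℓ : ↥(gaussRing ℓ)) ^ k * phiG ℓ (jG ℓ) a2 := by
      apply Subtype.ext
      rw [Subring.coe_mul, Subring.coe_mul, Subring.coe_pow, Subring.coe_natCast]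
      exact h2
    have h4 := congrArg (gaussRes ℓ) h3
    rw [map_mul, map_mul] at h4
    have h5 : gaussRes ℓ c = gaussRes ℓ ((ℓ : ↥(gaussRing ℓ)) ^ k) *
        gaussRes ℓ (phiG ℓ (jG ℓ) a2) / gaussRes ℓ (phiG ℓ (jG ℓ) b2) := by
      rw [eq_div_iff hresb, ← h4, mul_comm]
    rw [h5, map_pow, map_natCast, gaussRes_phiG, gaussRes_phiG, gaussRes_jG]
    exact div_mem (mul_mem (pow_mem (natCast_mem _ _) _) (aeval_mem_adjoin_jqModC ℓ _))
      (aeval_mem_adjoin_jqModC ℓ _)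
  · rcases Nat.eq_or_lt_of_le hle with heq | hlt
    · -- equal exponents: same as the first case with `k = 0`
      rw [heq] at hrel
      have h2 := mul_left_cancel₀ (pow_ne_zero _ hlL) hrel
      have h3 : phiG ℓ (jG ℓ) b2 * c = phiG ℓ (jG ℓ) a2 := by
        apply Subtype.ext
        rw [Subring.coe_mul]
        exact h2
      have h4 := congrArg (gaussRes ℓ) h3
      rw [map_mul] at h4
      have h5 : gaussRes ℓ c =
          gaussRes ℓ (phiG ℓ (jG ℓ) a2) / gaussRes ℓ (phiG ℓ (jG ℓ) b2) := by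
        rw [eq_div_iff hresb, ← h4, mul_comm]
      rw [h5, gaussRes_phiG, gaussRes_phiG, gaussRes_jG]
      exact div_mem (aeval_mem_adjoin_jqModC ℓ _) (aeval_mem_adjoin_jqModC ℓ _)
    · exfalso
      obtain ⟨k, hk⟩ := Nat.exists_eq_add_of_lt hlt
      rw [hk, add_assoc, pow_add _ (t' + s) (k + 1), mul_assoc] at hrel
      have h2 := mul_left_cancel₀ (pow_ne_zero _ hlL) hrel
      have h3 : (ℓ : ↥(gaussRing ℓ)) ^ (k + 1) * (phiG ℓ (jG ℓ) b2 * c) = phiG ℓ (jG ℓ) a2 := by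
        apply Subtype.ext
        rw [Subring.coe_mul, Subring.coe_mul, Subring.coe_pow, Subring.coe_natCast]
        exact h2
      have h4 := congrArg (gaussRes ℓ) h3
      rw [map_mul, map_pow, map_natCast, natCast_laurent_zmod, zero_pow (Nat.succ_ne_zero k),
        zero_mul] at h4
      exact hresa h4.symm

end Fermat.Agent.S28
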