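import Fermat.Agent.S28.Interface

set_option autoImplicit false

noncomputable section

namespace Fermat.Agent.S28

open ModularCurve

/-- `ℤ_(ℓ)` as a type. -/
abbrev Rl (ℓ : ℕ) : Type := ↥(GaloisRep.ratLocalizedAt ℓ)

variable (ℓ : ℕ) [Fact ℓ.Prime]

theorem den_ne_zero_of_mem {x : ℚ} (hx : x ∈ GaloisRep.ratLocalizedAt ℓ) :
    ((x.den : ℕ) : ZMod ℓ) ≠ 0 := by
  intro h
  rw [ZMod.natCast_eq_zero_iff] at h
  have hc : x.den.Coprime ℓ := hx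
  have h1 : ℓ ∣ Nat.gcd x.den ℓ := Nat.dvd_gcd h dvd_rfl
  rw [hc] at h1
  exact (Fact.out : ℓ.Prime).one_lt.ne' (Nat.dvd_one.mp h1)

/-- the residue map `ℤ_(ℓ) → 𝔽_ℓ`. -/
def resR : Rl ℓ →+* ZMod ℓ where
  toFun x := ((x : ℚ) : ZMod ℓ)
  map_one' := by simp
  map_zero' := by simp
  map_mul' x y := by
    simpa using Rat.cast_mul_of_ne_zero (den_ne_zero_of_mem ℓ x.2) (den_ne_zero_of_mem ℓ y.2)
  map_add' x y := by
    simpa using Rat.cast_add_of_ne_zero (den_ne_zero_of_mem ℓ x.2) (den_ne_zero_of_mem ℓ y.2)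

theorem resR_apply (x : Rl ℓ) : resR ℓ x = ((x : ℚ) : ZMod ℓ) := rfl

theorem resR_surjective : Function.Surjective (resR ℓ) := by
  intro a
  obtain ⟨n, rfl⟩ := ZMod.natCast_zmod_surjective a
  exact ⟨(n : Rl ℓ), by simp⟩

theorem resR_natCast_self : resR ℓ (ℓ : Rl ℓ) = 0 := by simp

theorem div_mem_of_resR_eq_zero (x : Rl ℓ) (hx : resR ℓ x = 0) :
    (x : ℚ) / ℓ ∈ GaloisRep.ratLocalizedAt ℓ := by
  have hden := den_ne_zero_of_mem ℓ x.2
  rw [resR_apply, Rat.cast_def, div_eq_zero_iff] at hx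
  have hnum : (((x : ℚ).num : ℤ) : ZMod ℓ) = 0 := hx.resolve_right hden
  rw [ZMod.intCast_zmod_eq_zero_iff_dvd] at hnum
  obtain ⟨k, hk⟩ := hnum
  have hxe : (x : ℚ) / ℓ = (k : ℚ) / ((x : ℚ).den : ℤ) := by
    have hl : (ℓ : ℚ) ≠ 0 := by exact_mod_cast (Fact.out : ℓ.Prime).ne_zero
    have hd : (((x : ℚ).den : ℤ) : ℚ) ≠ 0 := by exact_mod_cast (x : ℚ).den_ne_zero
    rw [div_eq_div_iff hl hd]
    have h1 : (x : ℚ) * ((x : ℚ).den : ℚ) = (x : ℚ).num := Rat.mul_den_eq_num _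
    push_cast
    rw [h1, hk]
    push_cast
    ring
  have hdvd : (((k : ℚ) / (((x : ℚ).den : ℤ) : ℚ)).den : ℤ) ∣ ((x : ℚ).den : ℤ) := by
    rw [← Rat.divInt_eq_div]
    exact Rat.den_dvd _ _
  rw [hxe]
  have hc : (x : ℚ).den.Coprime ℓ := x.2
  exact Nat.Coprime.coprime_dvd_left (Int.natCast_dvd_natCast.mp hdvd) hc

/-- division by `ℓ` on the kernel of the residue map (junk value `0` elsewhere). -/
def divL (x : Rl ℓ) : Rl ℓ :=
  if h : resR ℓ x = 0 then ⟨(x : ℚ) / ℓ, div_mem_of_resR_eq_zero ℓ x h⟩ else 0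

theorem divL_zero : divL ℓ 0 = 0 := by
  unfold divL
  split_ifs
  · ext; simp
  · rfl

theorem mul_divL (x : Rl ℓ) (h : resR ℓ x = 0) : (ℓ : Rl ℓ) * divL ℓ x = x := by
  have hl : (ℓ : ℚ) ≠ 0 := by exact_mod_cast (Fact.out : ℓ.Prime).ne_zero
  unfold divL
  rw [dif_pos h]
  ext
  simp only [Subring.coe_mul, Subring.coe_natCast]
  field_simp

/-- inclusion `ℤ_(ℓ)((q)) → ℚ((q))`. -/
def iotaL : LaurentSeries (Rl ℓ) →+* LaurentSeries ℚ := coeffMap (GaloisRep.ratLocalizedAt ℓ).subtype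

/-- reduction `ℤ_(ℓ)((q)) → 𝔽_ℓ((q))`. -/
def piL : LaurentSeries (Rl ℓ) →+* LaurentSeries (ZMod ℓ) := coeffMap (resR ℓ)

omit [Fact ℓ.Prime] in
theorem iotaL_injective : Function.Injective (iotaL ℓ) := by
  intro x y h
  ext n
  have := congrArg (fun s => HahnSeries.coeff s n) h
  simpa [iotaL] using this

theorem natCast_mul_coeff {A : Type*} [CommRing A] (m : ℕ) (z : LaurentSeries A) (n : ℤ) :
    ((m : LaurentSeries A) * z).coeff n = (m : A) * z.coeff n := by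
  rw [← nsmul_eq_mul, ← nsmul_eq_mul, HahnSeries.coeff_smul]

theorem natCast_laurent_ne_zero : (ℓ : LaurentSeries ℚ) ≠ 0 := by
  intro h
  have h1 := natCast_mul_coeff (A := ℚ) ℓ 1 0
  rw [h, zero_mul] at h1
  simp only [HahnSeries.coeff_zero, HahnSeries.coeff_one, if_true, mul_one] at h1
  exact (Fact.out : ℓ.Prime).ne_zero (by exact_mod_cast h1.symm)

theorem exists_eq_mul_of_piL_eq_zero (z : LaurentSeries (Rl ℓ)) (hz : piL ℓ z = 0) :
    ∃ z' : LaurentSeries (Rl ℓ), z = (ℓ : LaurentSeries (Rl ℓ)) * z' := by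
  refine ⟨z.map (⟨divL ℓ, divL_zero ℓ⟩ : ZeroHom (Rl ℓ) (Rl ℓ)), ?_⟩
  ext n
  rw [natCast_mul_coeff]
  have h : resR ℓ (z.coeff n) = 0 := by
    have := congrArg (fun s => HahnSeries.coeff s n) hz
    simpa [piL] using this
  simp only [HahnSeries.map_coeff, ZeroHom.coe_mk]
  rw [mul_divL ℓ _ h]

theorem padicValRat_nonneg_of_mem {x : ℚ} (hx : x ∈ GaloisRep.ratLocalizedAt ℓ) :
    0 ≤ padicValRat ℓ x := by
  have hc : x.den.Coprime ℓ := hx
  have hnd : ¬ ℓ ∣ x.den := by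
    intro h
    have h1 : ℓ ∣ Nat.gcd x.den ℓ := Nat.dvd_gcd h dvd_rfl
    rw [hc] at h1
    exact (Fact.out : ℓ.Prime).one_lt.ne' (Nat.dvd_one.mp h1)
  rw [padicValRat_def, padicValNat.eq_zero_of_not_dvd hnd]
  simp

theorem exists_pow_mul_aux (m : ℕ) : ∀ (z : LaurentSeries (Rl ℓ)) (n : ℤ), z.coeff n ≠ 0 →
    padicValRat ℓ (z.coeff n : ℚ) ≤ m →
    ∃ (a : ℕ) (z' : LaurentSeries (Rl ℓ)), z = (ℓ : LaurentSeries (Rl ℓ)) ^ a * z' ∧
      piL ℓ z' ≠ 0 := by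
  have hl : (ℓ : ℚ) ≠ 0 := by exact_mod_cast (Fact.out : ℓ.Prime).ne_zero
  induction m with
  | zero =>
    intro z n hn hv
    by_cases hz : piL ℓ z = 0
    · exfalso
      obtain ⟨z1, rfl⟩ := exists_eq_mul_of_piL_eq_zero ℓ z hz
      rw [natCast_mul_coeff] at hn hv
      have h1 : z1.coeff n ≠ 0 := fun h => hn (by rw [h, mul_zero])
      have h1' : ((z1.coeff n : Rl ℓ) : ℚ) ≠ 0 := fun h => h1 (Subtype.ext h)
      have hv' : padicValRat ℓ ((ℓ : ℚ) * (z1.coeff n : ℚ)) ≤ 0 := by simpa using hv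
      rw [padicValRat.mul hl h1', padicValRat.self (Fact.out : ℓ.Prime).one_lt] at hv'
      have := padicValRat_nonneg_of_mem ℓ (z1.coeff n).2
      omega
    · exact ⟨0, z, by simp, hz⟩
  | succ m ih =>
    intro z n hn hv
    by_cases hz : piL ℓ z = 0
    · obtain ⟨z1, rfl⟩ := exists_eq_mul_of_piL_eq_zero ℓ z hz
      rw [natCast_mul_coeff] at hn hv
      have h1 : z1.coeff n ≠ 0 := fun h => hn (by rw [h, mul_zero])
      have h1' : ((z1.coeff n : Rl ℓ) : ℚ) ≠ 0 := fun h => h1 (Subtype.ext h)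
      have hv' : padicValRat ℓ ((ℓ : ℚ) * (z1.coeff n : ℚ)) ≤ (m : ℤ) + 1 := by simpa using hv
      rw [padicValRat.mul hl h1', padicValRat.self (Fact.out : ℓ.Prime).one_lt] at hv'
      obtain ⟨a, z', hz', hpi⟩ := ih z1 n h1 (by omega)
      exact ⟨a + 1, z', by rw [hz', pow_succ']; ring, hpi⟩
    · exact ⟨0, z, by simp, hz⟩

theorem exists_pow_mul (z : LaurentSeries (Rl ℓ)) (hz : z ≠ 0) :
    ∃ (a : ℕ) (z' : LaurentSeries (Rl ℓ)), z = (ℓ : LaurentSeries (Rl ℓ)) ^ a * z' ∧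
      piL ℓ z' ≠ 0 := by
  obtain ⟨n, hn⟩ : ∃ n, z.coeff n ≠ 0 := by
    by_contra h
    exact hz (by ext n; by_contra hn; exact h ⟨n, by simpa using hn⟩)
  have h0 := padicValRat_nonneg_of_mem ℓ (z.coeff n).2
  exact exists_pow_mul_aux ℓ (padicValRat ℓ (z.coeff n : ℚ)).toNat z n hn (by omega)

/-- the Gauss valuation ring: quotients `z / g` with `z, g ∈ ℤ_(ℓ)((q))`, `g ≢ 0 mod ℓ`. -/
def gaussRing : Subring (LaurentSeries ℚ) where
  carrier := {x | ∃ z g : LaurentSeries (Rl ℓ), piL ℓ g ≠ 0 ∧ iotaL ℓ g * x = iotaL ℓ z}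
  mul_mem' := by
    rintro x y ⟨z, g, hg, h⟩ ⟨z', g', hg', h'⟩
    refine ⟨z * z', g * g', by rw [map_mul]; exact mul_ne_zero hg hg', ?_⟩
    rw [map_mul, map_mul, ← h, ← h']; ring
  one_mem' := ⟨1, 1, by simp, by simp⟩
  add_mem' := by
    rintro x y ⟨z, g, hg, h⟩ ⟨z', g', hg', h'⟩
    refine ⟨z * g' + z' * g, g * g', by rw [map_mul]; exact mul_ne_zero hg hg', ?_⟩
    rw [map_add, map_mul, map_mul, map_mul, ← h, ← h']; ring
  zero_mem' := ⟨0, 1, by simp, by simp⟩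
  neg_mem' := by
    rintro x ⟨z, g, hg, h⟩
    exact ⟨-z, g, hg, by rw [map_neg, ← h]; ring⟩

theorem mem_gaussRing_iff {x : LaurentSeries ℚ} : x ∈ gaussRing ℓ ↔
    ∃ z g : LaurentSeries (Rl ℓ), piL ℓ g ≠ 0 ∧ iotaL ℓ g * x = iotaL ℓ z := Iff.rfl

theorem iotaL_ne_zero_of_piL_ne_zero {g : LaurentSeries (Rl ℓ)} (hg : piL ℓ g ≠ 0) :
    iotaL ℓ g ≠ 0 := by
  intro h
  have : g = 0 := iotaL_injective ℓ (by rw [h, map_zero])
  exact hg (by rw [this, map_zero])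

theorem gaussRes_wd {x : LaurentSeries ℚ} {z g z' g' : LaurentSeries (Rl ℓ)}
    (hg : piL ℓ g ≠ 0) (h : iotaL ℓ g * x = iotaL ℓ z)
    (hg' : piL ℓ g' ≠ 0) (h' : iotaL ℓ g' * x = iotaL ℓ z') :
    piL ℓ z / piL ℓ g = piL ℓ z' / piL ℓ g' := by
  rw [div_eq_div_iff hg hg', ← map_mul, ← map_mul]
  congr 1
  apply iotaL_injective ℓ
  rw [map_mul, map_mul, ← h, ← h']; ring

/-- underlying function of the residue map. -/
def gaussResFun (x : ↥(gaussRing ℓ)) : LaurentSeries (ZMod ℓ) :=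
  piL ℓ x.2.choose / piL ℓ x.2.choose_spec.choose

theorem gaussResFun_eq (x : ↥(gaussRing ℓ)) {z g : LaurentSeries (Rl ℓ)}
    (hg : piL ℓ g ≠ 0) (h : iotaL ℓ g * (x : LaurentSeries ℚ) = iotaL ℓ z) :
    gaussResFun ℓ x = piL ℓ z / piL ℓ g :=
  gaussRes_wd ℓ x.2.choose_spec.choose_spec.1 x.2.choose_spec.choose_spec.2 hg h

/-- the residue map of the Gauss valuation ring. -/
def gaussRes : ↥(gaussRing ℓ) →+* LaurentSeries (ZMod ℓ) where
  toFun := gaussResFun ℓ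
  map_one' := by
    rw [gaussResFun_eq ℓ 1 (z := 1) (g := 1) (by simp) (by simp)]; simp
  map_zero' := by
    rw [gaussResFun_eq ℓ 0 (z := 0) (g := 1) (by simp) (by simp)]; simp
  map_mul' := by
    rintro ⟨x, z, g, hg, h⟩ ⟨y, z', g', hg', h'⟩
    rw [gaussResFun_eq ℓ ⟨x, z, g, hg, h⟩ hg h, gaussResFun_eq ℓ ⟨y, z', g', hg', h'⟩ hg' h',
      gaussResFun_eq ℓ _ (z := z * z') (g := g * g') (by rw [map_mul]; exact mul_ne_zero hg hg')
        (by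
          show iotaL ℓ (g * g') * (x * y) = _
          rw [map_mul, map_mul, ← h, ← h']; ring)]
    rw [map_mul, map_mul, div_mul_div_comm]
  map_add' := by
    rintro ⟨x, z, g, hg, h⟩ ⟨y, z', g', hg', h'⟩
    rw [gaussResFun_eq ℓ ⟨x, z, g, hg, h⟩ hg h, gaussResFun_eq ℓ ⟨y, z', g', hg', h'⟩ hg' h',
      gaussResFun_eq ℓ _ (z := z * g' + z' * g) (g := g * g')
        (by rw [map_mul]; exact mul_ne_zero hg hg')
        (by
          show iotaL ℓ (g * g') * (x + y) = _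
          rw [map_add, map_mul, map_mul, map_mul, ← h, ← h']; ring)]
    rw [map_add, map_mul, map_mul, map_mul, div_add_div _ _ hg hg', mul_comm (piL ℓ g) (piL ℓ z')]

theorem gaussRes_eq (x : ↥(gaussRing ℓ)) {z g : LaurentSeries (Rl ℓ)}
    (hg : piL ℓ g ≠ 0) (h : iotaL ℓ g * (x : LaurentSeries ℚ) = iotaL ℓ z) :
    gaussRes ℓ x = piL ℓ z / piL ℓ g := gaussResFun_eq ℓ x hg h

theorem iotaL_mem_gaussRing (z : LaurentSeries (Rl ℓ)) : iotaL ℓ z ∈ gaussRing ℓ :=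
  ⟨z, 1, by simp, by simp⟩

theorem gaussRes_iotaL (z : LaurentSeries (Rl ℓ)) :
    gaussRes ℓ ⟨iotaL ℓ z, iotaL_mem_gaussRing ℓ z⟩ = piL ℓ z := by
  rw [gaussRes_eq ℓ _ (z := z) (g := 1) (by simp) (by simp)]; simp

theorem inv_mem_gaussRing_of_gaussRes_ne_zero (x : ↥(gaussRing ℓ)) (hx : gaussRes ℓ x ≠ 0) :
    (x : LaurentSeries ℚ)⁻¹ ∈ gaussRing ℓ := by
  obtain ⟨z, g, hg, h⟩ := (mem_gaussRing_iff ℓ).mp x.2
  rw [gaussRes_eq ℓ x hg h] at hx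
  have hz : piL ℓ z ≠ 0 := fun h0 => hx (by rw [h0, zero_div])
  have hx0 : (x : LaurentSeries ℚ) ≠ 0 := by
    intro h0
    rw [h0, mul_zero] at h
    exact iotaL_ne_zero_of_piL_ne_zero ℓ hz h.symm
  refine (mem_gaussRing_iff ℓ).mpr ⟨g, z, hz, ?_⟩
  rw [← h, mul_assoc, mul_inv_cancel₀ hx0, mul_one]

theorem exists_eq_mul_of_gaussRes_eq_zero (x : ↥(gaussRing ℓ)) (hx : gaussRes ℓ x = 0) :
    ∃ y : ↥(gaussRing ℓ), x = (ℓ : ↥(gaussRing ℓ)) * y := by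
  have hl : (ℓ : LaurentSeries ℚ) ≠ 0 := natCast_laurent_ne_zero ℓ
  obtain ⟨z, g, hg, h⟩ := (mem_gaussRing_iff ℓ).mp x.2
  rw [gaussRes_eq ℓ x hg h, div_eq_zero_iff] at hx
  obtain ⟨z', rfl⟩ := exists_eq_mul_of_piL_eq_zero ℓ z (hx.resolve_right hg)
  have hmem : (x : LaurentSeries ℚ) / ℓ ∈ gaussRing ℓ := by
    refine (mem_gaussRing_iff ℓ).mpr ⟨z', g, hg, ?_⟩
    rw [map_mul, map_natCast] at h
    apply mul_left_cancel₀ hl
    rw [← h, div_eq_mul_inv, mul_left_comm, mul_left_comm (ℓ : LaurentSeries ℚ),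
      mul_inv_cancel₀ hl, mul_one]
  refine ⟨⟨_, hmem⟩, Subtype.ext ?_⟩
  rw [Subring.coe_mul, Subring.coe_natCast, mul_div_cancel₀ _ hl]

/-- the fraction field of `ℤ_(ℓ)((q))` inside `ℚ((q))`. -/
def gaussField : Subfield (LaurentSeries ℚ) where
  carrier := {x | ∃ z g : LaurentSeries (Rl ℓ), g ≠ 0 ∧ iotaL ℓ g * x = iotaL ℓ z}
  mul_mem' := by
    rintro x y ⟨z, g, hg, h⟩ ⟨z', g', hg', h'⟩
    refine ⟨z * z', g * g', mul_ne_zero hg hg', ?_⟩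
    rw [map_mul, map_mul, ← h, ← h']; ring
  one_mem' := ⟨1, 1, by simp, by simp⟩
  add_mem' := by
    rintro x y ⟨z, g, hg, h⟩ ⟨z', g', hg', h'⟩
    refine ⟨z * g' + z' * g, g * g', mul_ne_zero hg hg', ?_⟩
    rw [map_add, map_mul, map_mul, map_mul, ← h, ← h']; ring
  zero_mem' := ⟨0, 1, by simp, by simp⟩
  neg_mem' := by
    rintro x ⟨z, g, hg, h⟩
    exact ⟨-z, g, hg, by rw [map_neg, ← h]; ring⟩
  inv_mem' := by
    rintro x ⟨z, g, hg, h⟩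
    by_cases hx : x = 0
    · subst hx
      exact ⟨0, 1, by simp, by simp⟩
    · have hg' : iotaL ℓ g ≠ 0 := fun h0 => hg (iotaL_injective ℓ (by rw [h0, map_zero]))
      have hz : z ≠ 0 := by
        rintro rfl
        rw [map_zero] at h
        exact (mul_ne_zero hg' hx) h
      refine ⟨g, z, hz, ?_⟩
      rw [← h, mul_assoc, mul_inv_cancel₀ hx, mul_one]

omit [Fact ℓ.Prime] in
theorem mem_gaussField_iff {x : LaurentSeries ℚ} : x ∈ gaussField ℓ ↔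
    ∃ z g : LaurentSeries (Rl ℓ), g ≠ 0 ∧ iotaL ℓ g * x = iotaL ℓ z := Iff.rfl

omit [Fact ℓ.Prime] in
theorem iotaL_mem_gaussField (z : LaurentSeries (Rl ℓ)) : iotaL ℓ z ∈ gaussField ℓ :=
  ⟨z, 1, by simp, by simp⟩

theorem mem_or_inv_mem_gaussRing {x : LaurentSeries ℚ} (hx : x ∈ gaussField ℓ) :
    x ∈ gaussRing ℓ ∨ x⁻¹ ∈ gaussRing ℓ := by
  have hl : (ℓ : LaurentSeries ℚ) ≠ 0 := natCast_laurent_ne_zero ℓ
  obtain ⟨z, g, hg, h⟩ := hx
  by_cases hx0 : x = 0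
  · subst hx0; exact Or.inl (zero_mem _)
  have hg' : iotaL ℓ g ≠ 0 := fun h0 => hg (iotaL_injective ℓ (by rw [h0, map_zero]))
  have hz : z ≠ 0 := by
    rintro rfl
    rw [map_zero] at h
    exact (mul_ne_zero hg' hx0) h
  obtain ⟨a, z', rfl, hz'⟩ := exists_pow_mul ℓ z hz
  obtain ⟨b, g', rfl, hg''⟩ := exists_pow_mul ℓ g hg
  rw [map_mul, map_mul, map_pow, map_pow, map_natCast] at h
  rcases le_total b a with hab | hab
  · left
    obtain ⟨c, rfl⟩ := Nat.exists_eq_add_of_le hab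
    refine ⟨(ℓ : LaurentSeries (Rl ℓ)) ^ c * z', g', hg'', ?_⟩
    rw [map_mul, map_pow, map_natCast]
    have hb : (ℓ : LaurentSeries ℚ) ^ b ≠ 0 := pow_ne_zero _ hl
    apply mul_left_cancel₀ hb
    rw [← mul_assoc, h, pow_add]; ring
  · right
    obtain ⟨c, rfl⟩ := Nat.exists_eq_add_of_le hab
    refine ⟨(ℓ : LaurentSeries (Rl ℓ)) ^ c * g', z', hz', ?_⟩
    rw [map_mul, map_pow, map_natCast]
    have ha : (ℓ : LaurentSeries ℚ) ^ a ≠ 0 := pow_ne_zero _ hl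
    apply mul_left_cancel₀ ha
    rw [← mul_assoc, ← h, pow_add, mul_assoc (_ * _ * _), mul_inv_cancel₀ hx0]; ring

theorem gaussRing_le_gaussField {x : LaurentSeries ℚ} (hx : x ∈ gaussRing ℓ) :
    x ∈ gaussField ℓ := by
  obtain ⟨z, g, hg, h⟩ := hx
  exact ⟨z, g, fun h0 => hg (by rw [h0, map_zero]), h⟩

/-- the Gauss valuation ring of an intermediate field contained in `gaussField`. -/
def valSub (E : IntermediateField ℚ (LaurentSeries ℚ)) (hE : ∀ x ∈ E, x ∈ gaussField ℓ) :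
    ValuationSubring ↥E where
  toSubring := (gaussRing ℓ).comap (algebraMap ↥E (LaurentSeries ℚ))
  mem_or_inv_mem' x := by
    rcases mem_or_inv_mem_gaussRing ℓ (hE x x.2) with h | h
    · exact Or.inl h
    · refine Or.inr ?_
      show algebraMap ↥E (LaurentSeries ℚ) x⁻¹ ∈ gaussRing ℓ
      rw [map_inv₀]
      exact h

theorem mem_valSub_iff (E : IntermediateField ℚ (LaurentSeries ℚ))
    (hE : ∀ x ∈ E, x ∈ gaussField ℓ) (x : ↥E) :
    x ∈ valSub ℓ E hE ↔ (x : LaurentSeries ℚ) ∈ gaussRing ℓ := Iff.rfl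

omit [Fact ℓ.Prime] in
theorem iotaL_jqModC : iotaL ℓ (jqModC (Rl ℓ)) = jq := by
  rw [iotaL, coeffMap_jqModC]; rfl

theorem piL_jqModC : piL ℓ (jqModC (Rl ℓ)) = jqModC (ZMod ℓ) := by
  rw [piL, coeffMap_jqModC]

omit [Fact ℓ.Prime] in
theorem iotaL_qExpand (d : ℕ) [NeZero d] (z : LaurentSeries (Rl ℓ)) :
    iotaL ℓ (qExpand (Rl ℓ) d z) = qExpand ℚ d (iotaL ℓ z) := by
  rw [iotaL, coeffMap_qExpand]

theorem piL_qExpand (d : ℕ) [NeZero d] (z : LaurentSeries (Rl ℓ)) :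
    piL ℓ (qExpand (Rl ℓ) d z) = qExpand (ZMod ℓ) d (piL ℓ z) := by
  rw [piL, coeffMap_qExpand]

omit [Fact ℓ.Prime] in
theorem algebraMap_rat_mem_gaussField (c : ℚ) :
    algebraMap ℚ (LaurentSeries ℚ) c ∈ gaussField ℓ := by
  rw [eq_ratCast]
  exact SubfieldClass.ratCast_mem _ c

omit [Fact ℓ.Prime] in
theorem full_le_gaussField (N : ℕ) [NeZero N] :
    ∀ x ∈ modularFunctionFieldFull N, x ∈ gaussField ℓ := by
  have h : modularFunctionFieldFull N ≤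
      (gaussField ℓ).toIntermediateField (algebraMap_rat_mem_gaussField ℓ) := by
    rw [modularFunctionFieldFull, IntermediateField.adjoin_le_iff]
    rintro x ⟨d, hd, -, rfl⟩
    haveI := hd
    show qExpand ℚ d jq ∈ gaussField ℓ
    rw [← iotaL_jqModC ℓ, ← iotaL_qExpand]
    exact iotaL_mem_gaussField ℓ _
  exact fun x hx => h hx

end Fermat.Agent.S28
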