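import Fermat.Agent.S28.CPar

/-!
# Block C, part 2: the prime level identities of block B, transported to `K((y^ℚ))`.
-/

set_option autoImplicit false

noncomputable section

namespace Fermat.Agent.S28

open ModularCurve Polynomial

/-- `ℤ[Y] → R`, `Y ↦ y`. -/
def evY {R : Type*} [CommRing R] (y : R) : ℤ[X] →+* R := eval₂RingHom (Int.castRingHom R) y

theorem comp_evY {R R' : Type*} [CommRing R] [CommRing R'] (f : R →+* R') (y : R) :
    f.comp (evY y) = evY (f y) := by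
  refine Polynomial.ringHom_ext' (Subsingleton.elim _ _) ?_
  simp [evY]

theorem map_map_evY {R R' : Type*} [CommRing R] [CommRing R'] (f : R →+* R') (y : R)
    (P : ℤ[X][X]) : (P.map (evY y)).map f = P.map (evY (f y)) := by
  rw [Polynomial.map_map, comp_evY]

theorem map_eval_evY {R R' : Type*} [CommRing R] [CommRing R'] (f : R →+* R') (y x : R)
    (P : ℤ[X][X]) : f ((P.map (evY y)).eval x) = (P.map (evY (f y))).eval (f x) := by
  rw [← map_map_evY, eval_map_apply]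

theorem evY_C {R : Type*} [CommRing R] (y : R) (c : ℤ) : evY y (C c) = (c : R) := by
  simp [evY]

/-- the data of block B at the prime `p`. -/
def BData (p : ℕ) [NeZero p] (Φ U G : ℤ[X][X]) (m : ℕ) (c : ℤ) : Prop :=
  0 < m ∧ Φ.Monic ∧ U.Monic ∧ U.coeff 0 = C c ∧
      c * c = (p : ℤ) ^ 24 ∧
      (U.map (evJ ℤ)).eval
        ((p : LaurentSeries ℤ) ^ 12 * qExpand ℤ p (DlL ℤ) * DlLinv ℤ) = 0 ∧
      ∀ (K : Type) [Field K] (ζ : Kˣ), IsPrimitiveRoot ζ p →
        Φ.map (evBase p K) =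
          (X - C (rootInf p K)) * ∏ b ∈ Finset.range p, (X - C (rootFin ζ b)) ∧
        (G.map (evBase p K)).eval (rootInf p K) =
          unitInf p K ^ m * (Φ.map (evBase p K)).derivative.eval (rootInf p K) ∧
        ∀ b < p, (G.map (evBase p K)).eval (rootFin ζ b) =
          unitFin p ζ b ^ m * (Φ.map (evBase p K)).derivative.eval (rootFin ζ b)

theorem statementB_iff : StatementB ↔
    ∀ (p : ℕ) [NeZero p], p.Prime → ∃ (Φ U G : ℤ[X][X]) (m : ℕ) (c : ℤ), BData p Φ U G m c :=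
  Iff.rfl

section Step

variable {p : ℕ} [NeZero p] {Φ U G : ℤ[X][X]} {m : ℕ} {c : ℤ}
variable {K : Type} [Field K]

theorem sub_jBase (s : Par K) : sub s (jBase p K) = J (s.pow p) := sub_qExpand _ _ _

theorem sub_rootInf (s : Par K) : sub s (rootInf p K) = J ((s.pow p).pow p) := by
  rw [rootInf, sub_qExpand, sub_qExpand, J]

theorem sub_rootFin (s : Par K) (ζ : Kˣ) (b : ℕ) : sub s (rootFin ζ b) = J (s.tw (ζ ^ b)) := by
  rw [rootFin, sub_twist, J]

theorem sub_unitInf (s : Par K) : sub s (unitInf p K) =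
    (p : HahnSeries ℚ K) ^ 12 * D ((s.pow p).pow p) * Dinv (s.pow p) := by
  rw [unitInf, map_mul, map_mul, map_pow, map_natCast, sub_qExpand, sub_qExpand, sub_qExpand,
    D, Dinv]

theorem sub_unitFin (s : Par K) (ζ : Kˣ) (b : ℕ) : sub s (unitFin p ζ b) =
    D (s.tw (ζ ^ b)) * Dinv (s.pow p) := by
  rw [unitFin, map_mul, sub_twist, sub_qExpand, D, Dinv]

theorem step_factor (hB : BData p Φ U G m c) (ζ : Kˣ) (hζ : IsPrimitiveRoot ζ p) (s : Par K) :
    Φ.map (evY (J (s.pow p))) =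
      (X - C (J ((s.pow p).pow p))) * ∏ b ∈ Finset.range p, (X - C (J (s.tw (ζ ^ b)))) := by
  have h := congrArg (Polynomial.map (sub s)) (hB.2.2.2.2.2.2 K ζ hζ).1
  rw [evBase] at h
  change (Φ.map (evY (jBase p K))).map (sub s) = _ at h
  rw [map_map_evY, sub_jBase] at h
  rw [h, Polynomial.map_mul, Polynomial.map_prod, Polynomial.map_sub, Polynomial.map_X,
    Polynomial.map_C, sub_rootInf]
  congr 1
  refine Finset.prod_congr rfl fun b _ => ?_
  rw [Polynomial.map_sub, Polynomial.map_X, Polynomial.map_C, sub_rootFin]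

theorem step_G_inf (hB : BData p Φ U G m c) (ζ : Kˣ) (hζ : IsPrimitiveRoot ζ p) (s : Par K) :
    (G.map (evY (J (s.pow p)))).eval (J ((s.pow p).pow p)) =
      ((p : HahnSeries ℚ K) ^ 12 * D ((s.pow p).pow p) * Dinv (s.pow p)) ^ m *
        (Φ.map (evY (J (s.pow p)))).derivative.eval (J ((s.pow p).pow p)) := by
  have h := congrArg (sub s) (hB.2.2.2.2.2.2 K ζ hζ).2.1
  change sub s ((G.map (evY (jBase p K))).eval _) =
    sub s (_ * (Φ.map (evY (jBase p K))).derivative.eval _) at h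
  rw [map_eval_evY, map_mul, map_pow, ← eval_map_apply, ← derivative_map, map_map_evY,
    sub_jBase, sub_rootInf, sub_unitInf] at h
  exact h

theorem step_G_fin (hB : BData p Φ U G m c) (ζ : Kˣ) (hζ : IsPrimitiveRoot ζ p) (s : Par K) :
    (G.map (evY (J (s.pow p)))).eval (J s) =
      (D s * Dinv (s.pow p)) ^ m * (Φ.map (evY (J (s.pow p)))).derivative.eval (J s) := by
  have h := congrArg (sub s) ((hB.2.2.2.2.2.2 K ζ hζ).2.2 0 (Nat.pos_of_ne_zero (NeZero.ne p)))
  change sub s ((G.map (evY (jBase p K))).eval _) =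
    sub s (_ * (Φ.map (evY (jBase p K))).derivative.eval _) at h
  rw [map_eval_evY, map_mul, map_pow, ← eval_map_apply, ← derivative_map, map_map_evY,
    sub_jBase, sub_rootFin, sub_unitFin, pow_zero, Par.tw_one] at h
  exact h

/-! ### consequences over an algebraically closed field -/

theorem Par.exists_pow_eq [IsAlgClosed K] (t : Par K) : ∃ s : Par K, s.pow p = t := by
  obtain ⟨z, hz⟩ := IsAlgClosed.exists_pow_nat_eq (t.c : K) (Nat.pos_of_ne_zero (NeZero.ne p))
  have hz0 : z ≠ 0 := by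
    rintro rfl
    rw [zero_pow (NeZero.ne p)] at hz
    exact t.c.ne_zero hz.symm
  have hp : (0 : ℚ) < p := by exact_mod_cast Nat.pos_of_ne_zero (NeZero.ne p)
  refine ⟨⟨Units.mk0 z hz0, t.r / p, div_pos t.pos hp⟩, ?_⟩
  ext
  · simp [hz]
  · simp only [Par.pow_r]
    field_simp

theorem exists_prim [IsAlgClosed K] (hpK : (p : K) ≠ 0) : ∃ ζ : Kˣ, IsPrimitiveRoot ζ p := by
  have : NeZero (p : K) := ⟨hpK⟩
  obtain ⟨ζ, hζ⟩ := HasEnoughRootsOfUnity.exists_primitiveRoot K p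
  exact ⟨hζ.isUnit (NeZero.ne p) |>.unit, IsPrimitiveRoot.coe_units_iff.mp (by simpa using hζ)⟩

theorem Par.tw_pow (s : Par K) (ζ : Kˣ) (hζ : ζ ^ p = 1) (b : ℕ) :
    (s.tw (ζ ^ b)).pow p = s.pow p := by
  ext
  · simp only [Par.pow_c, Par.tw_c, mul_pow, ← pow_mul, mul_comm b p]
    rw [pow_mul, hζ, one_pow, mul_one]
  · simp

theorem step_root_pow [IsAlgClosed K] (hB : BData p Φ U G m c) (hpK : (p : K) ≠ 0) (t : Par K) :
    (Φ.map (evY (J t))).eval (J (t.pow p)) = 0 := by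
  obtain ⟨ζ, hζ⟩ := exists_prim (p := p) hpK
  obtain ⟨s, rfl⟩ := t.exists_pow_eq (p := p)
  rw [step_factor hB ζ hζ s]
  simp

theorem step_roots [IsAlgClosed K] (hB : BData p Φ U G m c) (hpK : (p : K) ≠ 0) (t : Par K)
    {L : Type*} [Field L] (f : HahnSeries ℚ K →+* L) (x : L)
    (hx : (Φ.map (evY (f (J t)))).eval x = 0) :
    ∃ s : Par K, x = f (J s) ∧ (s = t.pow p ∨ s.pow p = t) := by
  obtain ⟨ζ, hζ⟩ := exists_prim (p := p) hpK
  obtain ⟨s, rfl⟩ := t.exists_pow_eq (p := p)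
  rw [← map_map_evY, step_factor hB ζ hζ s, Polynomial.map_mul, Polynomial.map_prod, eval_mul,
    eval_prod, mul_eq_zero, Finset.prod_eq_zero_iff] at hx
  rcases hx with hx | ⟨b, _, hx⟩
  · refine ⟨(s.pow p).pow p, ?_, Or.inl rfl⟩
    simpa [sub_eq_zero] using hx
  · refine ⟨s.tw (ζ ^ b), ?_, Or.inr (Par.tw_pow s ζ hζ.pow_eq_one b)⟩
    simpa [sub_eq_zero] using hx

theorem step_sep [IsAlgClosed K] (hB : BData p Φ U G m c) (hp : p.Prime) (hpK : (p : K) ≠ 0)
    (t : Par K) : (Φ.map (evY (J t))).Separable := by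
  obtain ⟨ζ, hζ⟩ := exists_prim (p := p) hpK
  obtain ⟨s, rfl⟩ := t.exists_pow_eq (p := p)
  rw [step_factor hB ζ hζ s]
  refine Separable.mul separable_X_sub_C ?_ ?_
  · rw [separable_prod_X_sub_C_iff']
    intro b hb b' hb' h
    have h1 := congrArg Par.c (J_injective h)
    simp only [Par.tw_c, mul_right_inj] at h1
    exact hζ.pow_inj (Finset.mem_range.mp hb) (Finset.mem_range.mp hb') h1
  · refine IsCoprime.prod_right fun b _ => ?_
    refine isCoprime_X_sub_C_of_isUnit_sub (IsUnit.mk0 _ (sub_ne_zero.mpr fun h => ?_))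
    have h1 := congrArg Par.r (J_injective h)
    simp only [Par.tw_r, Par.pow_r] at h1
    have h2 : (2 : ℚ) ≤ p := by exact_mod_cast hp.two_le
    have h3 := s.pos
    have h4 : (p : ℚ) * s.r ≥ 2 * s.r := mul_le_mul_of_nonneg_right h2 h3.le
    have h5 : (p : ℚ) * (p * s.r) ≥ 2 * (p * s.r) :=
      mul_le_mul_of_nonneg_right h2 (by positivity)
    linarith

omit [NeZero p] in
theorem orderTop_natCast_pow (hpK : (p : K) ≠ 0) (n : ℕ) :
    ((p : HahnSeries ℚ K) ^ n).orderTop = 0 := by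
  have : ((p : HahnSeries ℚ K) ^ n) = HahnSeries.single 0 ((p : K) ^ n) := by
    rw [← HahnSeries.C_apply, map_pow, map_natCast]
  rw [this]
  exact HahnSeries.orderTop_single (pow_ne_zero _ hpK)

theorem step_unit [IsAlgClosed K] (hB : BData p Φ U G m c) (hpK : (p : K) ≠ 0)
    (t s : Par K) (h : s = t.pow p ∨ s.pow p = t) :
    ∃ u : HahnSeries ℚ K, u.orderTop = ((s.r - t.r : ℚ) : WithTop ℚ) ∧
      (G.map (evY (J t))).eval (J s) = u ^ m * (Φ.map (evY (J t))).derivative.eval (J s) := by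
  obtain ⟨ζ, hζ⟩ := exists_prim (p := p) hpK
  rcases h with rfl | rfl
  · obtain ⟨s, rfl⟩ := t.exists_pow_eq (p := p)
    refine ⟨_, ?_, step_G_inf hB ζ hζ s⟩
    rw [HahnSeries.orderTop_mul, HahnSeries.orderTop_mul, orderTop_natCast_pow hpK, orderTop_D,
      orderTop_Dinv, zero_add, ← WithTop.coe_add, sub_eq_add_neg]
  · refine ⟨_, ?_, step_G_fin hB ζ hζ s⟩
    rw [HahnSeries.orderTop_mul, orderTop_D, orderTop_Dinv, ← WithTop.coe_add, sub_eq_add_neg]

theorem step_unit_pow [IsAlgClosed K] (hB : BData p Φ U G m c) (hpK : (p : K) ≠ 0) (t : Par K) :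
    (G.map (evY (J t))).eval (J (t.pow p)) =
      ((p : HahnSeries ℚ K) ^ 12 * D (t.pow p) * Dinv t) ^ m *
        (Φ.map (evY (J t))).derivative.eval (J (t.pow p)) := by
  obtain ⟨ζ, hζ⟩ := exists_prim (p := p) hpK
  obtain ⟨s, rfl⟩ := t.exists_pow_eq (p := p)
  exact step_G_inf hB ζ hζ s

end Step

end Fermat.Agent.S28
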