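import Mathlib

set_option autoImplicit false

namespace Fermat.Agent.S28

/-- Pivot lemma: a nonzero finite family in `E` has an entry dividing all the others in `O`. -/
theorem D1a_pivot_finset {M : Type*} [Field M] (O : Subring M)
    (E : Subfield M) (hval : ∀ c ∈ E, c ∈ O ∨ c⁻¹ ∈ O) {ι : Type*} (c : ι → M)
    (hc : ∀ i, c i ∈ E) (s : Finset ι) (hs : ∃ i ∈ s, c i ≠ 0) :
    ∃ i₀ ∈ s, c i₀ ≠ 0 ∧ ∀ i ∈ s, c i / c i₀ ∈ O := by
  classical
  induction s using Finset.induction_on with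
  | empty => obtain ⟨i, hi, -⟩ := hs; simp at hi
  | insert a s' ha ih =>
    by_cases hs' : ∃ i ∈ s', c i ≠ 0
    · obtain ⟨i₁, hi₁, hne, hdiv⟩ := ih hs'
      rcases hval (c a / c i₁) (E.div_mem (hc a) (hc i₁)) with h | h
      · refine ⟨i₁, Finset.mem_insert_of_mem hi₁, hne, ?_⟩
        intro i hi
        rcases Finset.mem_insert.mp hi with rfl | hi
        · exact h
        · exact hdiv i hi
      · by_cases ha0 : c a = 0
        · refine ⟨i₁, Finset.mem_insert_of_mem hi₁, hne, ?_⟩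
          intro i hi
          rcases Finset.mem_insert.mp hi with rfl | hi
          · rw [ha0, zero_div]; exact O.zero_mem
          · exact hdiv i hi
        · refine ⟨a, Finset.mem_insert_self _ _, ha0, ?_⟩
          intro i hi
          rcases Finset.mem_insert.mp hi with rfl | hi
          · rw [div_self ha0]; exact O.one_mem
          · have : c i / c a = (c i / c i₁) * (c a / c i₁)⁻¹ := by
              field_simp
            rw [this]
            exact O.mul_mem (hdiv i hi) h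
    · push Not at hs'
      obtain ⟨i, hi, hne⟩ := hs
      have hia : i = a := by
        rcases Finset.mem_insert.mp hi with h | h
        · exact h
        · exact absurd (hs' i h) hne
      subst hia
      refine ⟨i, Finset.mem_insert_self _ _, hne, ?_⟩
      intro j hj
      rcases Finset.mem_insert.mp hj with rfl | hj
      · rw [div_self hne]; exact O.one_mem
      · rw [hs' j hj, zero_div]; exact O.zero_mem

theorem D1a_pivot {M : Type*} [Field M] (O : Subring M)
    (E : Subfield M) (hval : ∀ c ∈ E, c ∈ O ∨ c⁻¹ ∈ O) {ι : Type*} [Fintype ι] (c : ι → M)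
    (hc : ∀ i, c i ∈ E) (hne : c ≠ 0) :
    ∃ i₀, c i₀ ≠ 0 ∧ ∀ i, c i / c i₀ ∈ O := by
  have : ∃ i ∈ (Finset.univ : Finset ι), c i ≠ 0 := by
    by_contra h
    push Not at h
    exact hne (funext fun i => h i (Finset.mem_univ i))
  obtain ⟨i₀, -, h1, h2⟩ := D1a_pivot_finset O E hval c hc Finset.univ this
  exact ⟨i₀, h1, fun i => h2 i (Finset.mem_univ i)⟩

/-- A normalised relation (`d i₀ = 1`, all `d i ∈ O ∩ E`) with right-hand side killed by `ρ`
is impossible. -/
theorem D1a_contra {M Mk : Type*} [Field M] [Field Mk] (O : Subring M) (ρ : ↥O →+* Mk)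
    (E : Subfield M)
    (Ek : Subfield Mk) (hEk : ∀ c : ↥O, (c : M) ∈ E → ρ c ∈ Ek)
    (n : ℕ) (z : Fin n → ↥O)
    (hz : ∀ c : Fin n → Mk, (∀ i, c i ∈ Ek) → ∑ i, c i * ρ (z i) = 0 → c = 0)
    (d : Fin n → M) (hdE : ∀ i, d i ∈ E) (hdO : ∀ i, d i ∈ O) (i₀ : Fin n) (h1 : d i₀ = 1)
    (r : ↥O) (hr : ρ r = 0) (hrel : (r : M) = ∑ i, d i * (z i : M)) : False := by
  have hO : r = ∑ i, (⟨d i, hdO i⟩ : ↥O) * z i := by
    apply Subtype.ext
    rw [hrel]
    push_cast
    rfl
  have h2 := congrArg ρ hO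
  rw [hr, map_sum] at h2
  simp only [map_mul] at h2
  have h3 := hz (fun i => ρ ⟨d i, hdO i⟩) (fun i => hEk _ (hdE i)) h2.symm
  have h4 := congrFun h3 i₀
  have h5 : (⟨d i₀, hdO i₀⟩ : ↥O) = 1 := Subtype.ext h1
  simp only [h5, map_one, Pi.zero_apply] at h4
  exact one_ne_zero h4

theorem D1a {M Mk : Type*} [Field M] [Field Mk] (O : Subring M) (ρ : ↥O →+* Mk)
    (hunit : ∀ x : ↥O, ρ x ≠ 0 → (x : M)⁻¹ ∈ O)
    (E : Subfield M) (hval : ∀ c ∈ E, c ∈ O ∨ c⁻¹ ∈ O)
    (Ek : Subfield Mk) (hEk : ∀ c : ↥O, (c : M) ∈ E → ρ c ∈ Ek)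
    (L : Set M) (n : ℕ) (z : Fin n → ↥O)
    (hspan : ∀ (w : Fin (n + 1) → M), (∀ i, w i ∈ L) →
      ∃ c : Fin (n + 1) → M, (∀ i, c i ∈ E) ∧ c ≠ 0 ∧ ∑ i, c i * w i = 0)
    (hzL : ∀ i, (z i : M) ∈ L)
    (hz : ∀ c : Fin n → Mk, (∀ i, c i ∈ Ek) → ∑ i, c i * ρ (z i) = 0 → c = 0)
    (y : ↥O) (hy : (y : M) ∈ L) :
    ∃ c : Fin n → ↥O, (∀ i, (c i : M) ∈ E) ∧ (y : M) = ∑ i, (c i : M) * (z i : M) := by
  classical
  -- (2) independence of the `z i` over `E`
  have hind : ∀ c : Fin n → M, (∀ i, c i ∈ E) → ∑ i, c i * (z i : M) = 0 → c = 0 := by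
    intro c hc hrel
    by_contra hne
    obtain ⟨i₀, h0, hdiv⟩ := D1a_pivot O E hval c hc hne
    refine D1a_contra O ρ E Ek hEk n z hz (fun i => c i / c i₀)
      (fun i => E.div_mem (hc i) (hc i₀)) hdiv i₀ (div_self h0) 0 (map_zero ρ) ?_
    have : ∑ i, c i / c i₀ * (z i : M) = (∑ i, c i * (z i : M)) / c i₀ := by
      rw [Finset.sum_div]
      refine Finset.sum_congr rfl fun i _ => by ring
    rw [this, hrel, zero_div]
    rfl
  -- (3) `y` is an `E`-combination of the `z i`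
  obtain ⟨c, hcE, hc0, hrel⟩ := hspan (Fin.cons (y : M) fun i => (z i : M)) (by
    intro i
    refine Fin.cases ?_ (fun j => ?_) i
    · simpa using hy
    · simpa using hzL j)
  rw [Fin.sum_univ_succ] at hrel
  simp only [Fin.cons_zero, Fin.cons_succ] at hrel
  have hc00 : c 0 ≠ 0 := by
    intro h0
    rw [h0, zero_mul, zero_add] at hrel
    have := hind (fun i => c i.succ) (fun i => hcE _) hrel
    apply hc0
    funext i
    refine Fin.cases ?_ (fun j => ?_) i
    · exact h0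
    · exact congrFun this j
  obtain ⟨d, hd⟩ : ∃ d : Fin n → M, d = fun i => -(c i.succ) / c 0 := ⟨_, rfl⟩
  have hdE : ∀ i, d i ∈ E := by
    intro i
    rw [hd]
    exact E.div_mem (E.neg_mem (hcE _)) (hcE _)
  have hyd : (y : M) = ∑ i, d i * (z i : M) := by
    have : ∑ i, d i * (z i : M) = -(∑ i, c i.succ * (z i : M)) / c 0 := by
      rw [hd, ← Finset.sum_neg_distrib, Finset.sum_div]
      refine Finset.sum_congr rfl fun i _ => by ring
    rw [this]
    field_simp
    linear_combination hrel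
  -- (4) the coefficients lie in `O`
  have hdO : ∀ i, d i ∈ O := by
    by_contra hnot
    push Not at hnot
    obtain ⟨i₁, hi₁⟩ := hnot
    have hdne : d ≠ 0 := by
      intro h
      apply hi₁
      rw [h]
      exact O.zero_mem
    obtain ⟨i₀, h0, hdiv⟩ := D1a_pivot O E hval d hdE hdne
    have hi₀ : d i₀ ∉ O := by
      intro h
      apply hi₁
      have : d i₁ = d i₁ / d i₀ * d i₀ := by field_simp
      rw [this]
      exact O.mul_mem (hdiv i₁) h
    have hinv : (d i₀)⁻¹ ∈ O := (hval _ (hdE i₀)).resolve_left hi₀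
    have hρ : ρ ⟨(d i₀)⁻¹, hinv⟩ = 0 := by
      by_contra hne
      have := hunit _ hne
      simp only [inv_inv] at this
      exact hi₀ this
    refine D1a_contra O ρ E Ek hEk n z hz (fun i => d i / d i₀)
      (fun i => E.div_mem (hdE i) (hdE i₀)) hdiv i₀ (div_self h0) (⟨(d i₀)⁻¹, hinv⟩ * y)
      (by rw [map_mul, hρ, zero_mul]) ?_
    have : ∑ i, d i / d i₀ * (z i : M) = (∑ i, d i * (z i : M)) / d i₀ := by
      rw [Finset.sum_div]
      refine Finset.sum_congr rfl fun i _ => by ring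
    rw [this, ← hyd]
    push_cast
    ring
  exact ⟨fun i => ⟨d i, hdO i⟩, hdE, hyd⟩

end Fermat.Agent.S28
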