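import Fermat.Agent.S28.D0

set_option autoImplicit false

noncomputable section

namespace Fermat.Agent.S28

open ModularCurve Polynomial

theorem D1bQ (N : ℕ) [NeZero N] (n : ℕ) (hn0 : 0 < n)
    (hn : Module.finrank ↥(IntermediateField.adjoin ℚ {jqModC ℚ})
      ↥(IntermediateField.adjoin ↥(IntermediateField.adjoin ℚ {jqModC ℚ})
        (divisorExpansionsC ℚ N)) = n)
    (w : Fin (n + 1) → LaurentSeries ℚ) (hw : ∀ i, w i ∈ modularFunctionFieldFull N) :
    ∃ c : Fin (n + 1) → LaurentSeries ℚ, (∀ i, c i ∈ IntermediateField.adjoin ℚ {jq}) ∧ c ≠ 0 ∧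
      ∑ i, c i * w i = 0 := by
  classical
  set E0 := IntermediateField.adjoin ℚ {jqModC ℚ} with hE0
  set Fb := IntermediateField.adjoin ↥E0 (divisorExpansionsC ℚ N) with hFb
  have hle : modularFunctionFieldFull N ≤
      Fb.toSubfield.toIntermediateField (fun c => by
        rw [eq_ratCast]; exact SubfieldClass.ratCast_mem _ c) := by
    rw [modularFunctionFieldFull, IntermediateField.adjoin_le_iff]
    intro x hx
    exact IntermediateField.subset_adjoin (↥E0) (divisorExpansionsC ℚ N) hx
  have hw' : ∀ i, w i ∈ Fb := fun i => hle (hw i)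
  have : Module.Finite ↥E0 ↥Fb := Module.finite_of_finrank_pos (by rw [hn]; exact hn0)
  have hdep : ¬ LinearIndependent ↥E0 (fun i => (⟨w i, hw' i⟩ : ↥Fb)) := by
    intro hli
    have := hli.fintype_card_le_finrank
    rw [hn, Fintype.card_fin] at this
    omega
  rw [Fintype.not_linearIndependent_iff] at hdep
  obtain ⟨g, hg, i0, hi0⟩ := hdep
  refine ⟨fun i => (g i : LaurentSeries ℚ), fun i => (g i).2, ?_, ?_⟩
  · intro h
    apply hi0
    have := congrFun h i0
    exact Subtype.ext this
  · have := congrArg (fun x : ↥Fb => (x : LaurentSeries ℚ)) hg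
    simpa [Algebra.smul_def, IntermediateField.coe_sum] using this

end Fermat.Agent.S28
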