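import Mathlib

namespace Fermat.Agent.S28

open Polynomial

open scoped IntermediateField.algebraAdjoinAdjoin in
/-- Coefficients of the minimal polynomial over `Q₀(T)` of an element integral over `Q₀[T]`
are polynomials in `T`. -/
theorem D2_aux1 {Q₀ M : Type*} [Field Q₀] [Field M] [Algebra Q₀ M]
    (T : M) (hT : Transcendental Q₀ T) (y : M)
    (hy2 : IsIntegral ↥(Algebra.adjoin Q₀ {T}) y) (i : ℕ) :
    ∃ P : Q₀[X], (((minpoly ↥(IntermediateField.adjoin Q₀ {T}) y).coeff i :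
      ↥(IntermediateField.adjoin Q₀ {T})) : M) = aeval T P := by
  haveI : IsIntegrallyClosed ↥(Algebra.adjoin Q₀ {T}) :=
    IsIntegrallyClosed.of_equiv (Polynomial.algEquivOfTranscendental Q₀ T hT).toRingEquiv
  have h := minpoly.isIntegrallyClosed_eq_field_fractions'
    (↥(IntermediateField.adjoin Q₀ {T})) hy2
  rw [h, coeff_map]
  have hm := ((minpoly ↥(Algebra.adjoin Q₀ {T}) y).coeff i).2
  obtain ⟨P, hP⟩ := Algebra.adjoin_mem_exists_aeval _ _ hm
  exact ⟨P, hP.symm⟩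

/-- Coefficients of the minimal polynomial over a field `E` of an element integral over
a valuation subring `O` lie in `O`. -/
theorem D2_aux2 {E M : Type*} [Field E] [Field M] [Algebra E M]
    (O : ValuationSubring E) (y : M)
    (hy1 : ∃ P : E[X], P.Monic ∧ (∀ i, P.coeff i ∈ O) ∧ aeval y P = 0) (i : ℕ) :
    (minpoly E y).coeff i ∈ O := by
  letI : Algebra ↥O M := ((algebraMap E M).comp O.subtype).toAlgebra
  haveI : IsScalarTower ↥O E M := IsScalarTower.of_algebraMap_eq (fun _ => rfl)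
  have hint : IsIntegral ↥O y := by
    obtain ⟨P, hPm, hPc, hP0⟩ := hy1
    have hl : P ∈ lifts (algebraMap ↥O E) := by
      rw [lifts_iff_coeff_lifts]
      intro n
      exact ⟨⟨P.coeff n, hPc n⟩, rfl⟩
    obtain ⟨q, hq, -, hqm⟩ := lifts_and_degree_eq_and_monic hl hPm
    refine ⟨q, hqm, ?_⟩
    rw [← hq, aeval_map_algebraMap] at hP0
    exact hP0
  have h := minpoly.isIntegrallyClosed_eq_field_fractions' E hint
  rw [h, coeff_map]
  exact ((minpoly ↥O y).coeff i).2

theorem D2 {R₀ Q₀ M : Type*} [CommRing R₀] [Field Q₀] [Algebra R₀ Q₀] [Field M] [Algebra Q₀ M]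
    [Algebra R₀ M] [IsScalarTower R₀ Q₀ M] (T : M) (hT : Transcendental Q₀ T)
    (O : ValuationSubring ↥(IntermediateField.adjoin Q₀ {T}))
    (hO : ∀ (P : Q₀[X]) (c : ↥(IntermediateField.adjoin Q₀ {T})), (c : M) = aeval T P → c ∈ O →
      ∀ i, P.coeff i ∈ (algebraMap R₀ Q₀).range)
    (y : M)
    (hy1 : ∃ P : (↥(IntermediateField.adjoin Q₀ {T}))[X], P.Monic ∧ (∀ i, P.coeff i ∈ O) ∧
      aeval y P = 0)
    (hy2 : IsIntegral ↥(Algebra.adjoin Q₀ {T}) y) :
    IsIntegral ↥(Algebra.adjoin R₀ {T}) y := by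
  have hyE : IsIntegral ↥(IntermediateField.adjoin Q₀ {T}) y := by
    obtain ⟨P, hPm, -, hP0⟩ := hy1
    exact ⟨P, hPm, hP0⟩
  set q : M[X] := (minpoly ↥(IntermediateField.adjoin Q₀ {T}) y).map
    (algebraMap ↥(IntermediateField.adjoin Q₀ {T}) M) with hq
  have hqm : q.Monic := (minpoly.monic hyE).map _
  have hl : q ∈ lifts (algebraMap ↥(Algebra.adjoin R₀ {T}) M) := by
    rw [lifts_iff_coeff_lifts]
    intro n
    obtain ⟨P, hP⟩ := D2_aux1 T hT y hy2 n
    have hc := hO P _ hP (D2_aux2 O y hy1 n)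
    have hPl : P ∈ lifts (algebraMap R₀ Q₀) := by
      rw [lifts_iff_coeff_lifts]
      intro k
      exact hc k
    obtain ⟨P', hP'⟩ := hPl
    have hmem : aeval T P' ∈ Algebra.adjoin R₀ {T} := by
      rw [Algebra.adjoin_singleton_eq_range_aeval]
      exact ⟨P', rfl⟩
    refine ⟨⟨aeval T P', hmem⟩, ?_⟩
    rw [hq, coeff_map]
    change aeval T P' = _
    have : (algebraMap ↥(IntermediateField.adjoin Q₀ {T}) M)
        ((minpoly ↥(IntermediateField.adjoin Q₀ {T}) y).coeff n) = aeval T P := hP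
    rw [this, ← hP']
    change _ = aeval T (P'.map (algebraMap R₀ Q₀))
    rw [aeval_map_algebraMap]
  obtain ⟨q', hq', -, hq'm⟩ := lifts_and_degree_eq_and_monic hl hqm
  refine ⟨q', hq'm, ?_⟩
  rw [← eval_map, hq', hq, eval_map, ← aeval_def]
  exact minpoly.aeval _ _

end Fermat.Agent.S28
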