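import Mathlib
import Fermat.Prelude.Def_ModularCurve_LaurentCoeff

set_option autoImplicit false

open TensorProduct ModularCurve

namespace Fermat.Agent.S28

noncomputable section

attribute [local instance 2000] HahnSeries.instAlgebra

section

variable {R A k K : Type*} [CommRing R] [CommRing A] [Algebra R A] [Field k] [Field K]
    [Algebra R K] (res : R →+* k)
    (κ : k →+* K) (hκ : ∀ r, κ (res r) = algebraMap R K r)
    (ρ : A →+* LaurentSeries k)
    (hρR : ∀ r : R, ρ (algebraMap R A r) = HahnSeries.C (res r))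

/-- `a ↦ κ(ρ a)` as an `R`-algebra hom. -/
def D3left : A →ₐ[R] LaurentSeries K :=
  { (coeffMap κ).comp ρ with
    commutes' := fun r => by
      simp only [RingHom.toMonoidHom_eq_coe, OneHom.toFun_eq_coe, MonoidHom.toOneHom_coe,
        MonoidHom.coe_coe, RingHom.coe_comp, Function.comp_apply, hρR]
      rw [HahnSeries.C_apply, coeffMap_single, hκ, HahnSeries.algebraMap_apply, HahnSeries.C_apply] }

theorem D3left_apply (a : A) : D3left res κ hκ ρ hρR a = coeffMap κ (ρ a) := rfl

/-- constants as an `R`-algebra hom. -/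
def D3right : K →ₐ[R] LaurentSeries K :=
  { (HahnSeries.C : K →+* LaurentSeries K) with
    commutes' := fun r => by
      simp [HahnSeries.algebraMap_apply] }

theorem D3right_apply (c : K) : (D3right : K →ₐ[R] LaurentSeries K) c = HahnSeries.C c := rfl

/-- The comparison map `A ⊗[R] K → K((q))`. -/
def D3Psi : A ⊗[R] K →ₐ[R] LaurentSeries K :=
  Algebra.TensorProduct.productMap (D3left res κ hκ ρ hρR) D3right

theorem D3Psi_tmul (a : A) (c : K) :
    D3Psi res κ hκ ρ hρR (a ⊗ₜ[R] c) = coeffMap κ (ρ a) * HahnSeries.C c := by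
  simp [D3Psi, D3left_apply, D3right_apply]

end

theorem D3' {R A k K : Type*} [CommRing R] [CommRing A] [Algebra R A] [Field k] [Field K]
    [Algebra R K] (res : R →+* k)
    (κ : k →+* K) (hκ : ∀ r, κ (res r) = algebraMap R K r)
    (ρ : A →+* LaurentSeries k)
    (hρR : ∀ r : R, ρ (algebraMap R A r) = HahnSeries.C (res r)) :
    Nontrivial (TensorProduct R A K) :=
  (D3Psi res κ hκ ρ hρR).toRingHom.domain_nontrivial

theorem D3 {R A k K : Type*} [CommRing R] [CommRing A] [Algebra R A] [Field k] [Field K]
    [Algebra R K] (ϖ : R) (res : R →+* k) (hres : Function.Surjective res)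
    (κ : k →+* K) (hκ : ∀ r, κ (res r) = algebraMap R K r) (hϖ : res ϖ = 0)
    (ρ : A →+* LaurentSeries k)
    (hρR : ∀ r : R, ρ (algebraMap R A r) = HahnSeries.C (res r))
    (hker : ∀ a : A, ρ a = 0 → ∃ a' : A, a = algebraMap R A ϖ * a') :
    IsDomain (TensorProduct R A K) := by
  classical
  let _ : Algebra k K := κ.toAlgebra
  have hsmul : ∀ (x : k) (c : K), x • c = κ x * c := fun x c => rfl
  let e := Module.Basis.ofVectorSpace k K
  -- every tensor is a finite sum `∑ a_α ⊗ e_α`
  have hrep : ∀ t : A ⊗[R] K, ∃ a : (Module.Basis.ofVectorSpaceIndex k K) →₀ A,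
      t = a.sum fun α x => x ⊗ₜ[R] e α := by
    intro t
    induction t using TensorProduct.induction_on with
    | zero => exact ⟨0, by simp⟩
    | tmul a c =>
      choose r hr using hres
      have hf : ∀ (x : k) (α : Module.Basis.ofVectorSpaceIndex k K),
          (if x = 0 then 0 else r x • a) ⊗ₜ[R] e α = a ⊗ₜ[R] (x • e α) := by
        intro x α
        split_ifs with hx
        · simp [hx]
        · rw [TensorProduct.smul_tmul, Algebra.smul_def, ← hκ, hr, hsmul]
      refine ⟨(e.repr c).mapRange (fun x => if x = 0 then 0 else r x • a) (by simp), ?_⟩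
      rw [Finsupp.sum_mapRange_index (by simp)]
      simp only [hf]
      rw [Finsupp.sum, ← TensorProduct.tmul_sum]
      congr 1
      exact (e.linearCombination_repr c).symm
    | add x y hx hy =>
      obtain ⟨a, rfl⟩ := hx
      obtain ⟨b, rfl⟩ := hy
      refine ⟨a + b, ?_⟩
      rw [Finsupp.sum_add_index'] <;> simp [TensorProduct.add_tmul]
  have hinj : Function.Injective (D3Psi res κ hκ ρ hρR) := by
    rw [injective_iff_map_eq_zero]
    intro t ht
    obtain ⟨a, rfl⟩ := hrep t
    rw [Finsupp.sum, map_sum] at ht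
    simp only [D3Psi_tmul] at ht
    have hzero : ∀ α ∈ a.support, ρ (a α) = 0 := by
      intro α hα
      ext n
      have hn := congrArg (fun x : LaurentSeries K => x.coeff n) ht
      simp only [HahnSeries.coeff_sum, HahnSeries.coeff_zero] at hn
      have hn' : ∑ α ∈ a.support, ((ρ (a α)).coeff n) • e α = 0 := by
        rw [← hn]
        refine Finset.sum_congr rfl fun β _ => ?_
        rw [hsmul, mul_comm (coeffMap κ (ρ (a β))), HahnSeries.C_mul_eq_smul, HahnSeries.coeff_smul,
          coeffMap_coeff, smul_eq_mul, mul_comm]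
      exact (linearIndependent_iff'.mp e.linearIndependent) a.support _ hn' α hα
    rw [Finsupp.sum]
    refine Finset.sum_eq_zero fun α hα => ?_
    obtain ⟨a', ha'⟩ := hker _ (hzero α hα)
    rw [ha', ← Algebra.smul_def, TensorProduct.smul_tmul, Algebra.smul_def, ← hκ, hϖ, map_zero,
      zero_mul, TensorProduct.tmul_zero]
  exact Function.Injective.isDomain (D3Psi res κ hκ ρ hρR).toRingHom hinj

end

end Fermat.Agent.S28
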