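import Fermat.Agent.S28.D0
import Fermat.Agent.S28.D1a
import Fermat.Agent.S28.D2
import Fermat.Agent.S28.D3
import Fermat.Agent.S28.D1bk
import Fermat.Agent.S28.D1bQ
import Fermat.Agent.S28.D1c

set_option autoImplicit false

noncomputable section

namespace Fermat.Agent.S28

open ModularCurve ModularCurve.IgusaScheme Polynomial

variable (ℓ : ℕ) [Fact ℓ.Prime] (N : ℕ) [NeZero N]

/-- the function field as a type. -/
abbrev FFull (N : ℕ) [NeZero N] : Type := ↥(modularFunctionFieldFull N)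

/-- the Gauss valuation ring of `F`. -/
def OF : ValuationSubring (FFull N) :=
  valSub ℓ (modularFunctionFieldFull N) (full_le_gaussField ℓ N)

theorem mem_OF_iff (x : FFull N) : x ∈ OF ℓ N ↔ (x : LaurentSeries ℚ) ∈ gaussRing ℓ := Iff.rfl

/-- inclusion of `OF` in the Gauss ring. -/
def OFtoGauss : ↥(OF ℓ N).toSubring →+* ↥(gaussRing ℓ) :=
  ((algebraMap (FFull N) (LaurentSeries ℚ)).comp (OF ℓ N).toSubring.subtype).codRestrict
    (gaussRing ℓ) (fun x => x.2)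

theorem coe_OFtoGauss (x : ↥(OF ℓ N).toSubring) :
    (OFtoGauss ℓ N x : LaurentSeries ℚ) = ((x : FFull N) : LaurentSeries ℚ) := rfl

/-- residue map on `OF`. -/
def resF : ↥(OF ℓ N).toSubring →+* LaurentSeries (ZMod ℓ) := (gaussRes ℓ).comp (OFtoGauss ℓ N)

theorem coe_aeval_FF (T : FFull N) (r : ℚ[X]) :
    ((aeval T r : FFull N) : LaurentSeries ℚ) = aeval (T : LaurentSeries ℚ) r := by
  rw [aeval_def, aeval_def]
  have h := Polynomial.hom_eval₂ r (algebraMap ℚ (FFull N))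
    (algebraMap (FFull N) (LaurentSeries ℚ)) T
  have h2 : (algebraMap (FFull N) (LaurentSeries ℚ)).comp (algebraMap ℚ (FFull N)) =
      algebraMap ℚ (LaurentSeries ℚ) := Subsingleton.elim _ _
  rw [h2] at h
  exact h

theorem mem_adjoin_FF_iff (T x : FFull N) :
    x ∈ IntermediateField.adjoin ℚ {T} ↔
      (x : LaurentSeries ℚ) ∈ IntermediateField.adjoin ℚ {(T : LaurentSeries ℚ)} := by
  rw [IntermediateField.mem_adjoin_simple_iff, IntermediateField.mem_adjoin_simple_iff]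
  constructor
  · rintro ⟨r, s, rfl⟩
    exact ⟨r, s, by rw [← coe_aeval_FF, ← coe_aeval_FF]; rfl⟩
  · rintro ⟨r, s, h⟩
    refine ⟨r, s, Subtype.ext ?_⟩
    rw [h, ← coe_aeval_FF, ← coe_aeval_FF]; rfl

theorem adjoin_jq_le_full : ∀ x ∈ IntermediateField.adjoin ℚ {jq}, x ∈ modularFunctionFieldFull N :=
  fun _ hx => modularFunctionField_le_full N (adjoin_jq_le N hx)

theorem OF_basis (hC : StatementC) (hℓN : ¬ ℓ ∣ N) :
    ∃ (n : ℕ) (z : Fin n → ↥(OF ℓ N).toSubring), ∀ y : ↥(OF ℓ N).toSubring,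
      ∃ c : Fin n → ↥(OF ℓ N).toSubring,
        (∀ i, (c i : FFull N) ∈ IntermediateField.adjoin ℚ {jFull N}) ∧
        (y : FFull N) = ∑ i, (c i : FFull N) * (z i : FFull N) := by
  obtain ⟨n, hn0, hn⟩ := hC N
  have hQ := hn ℚ (by exact_mod_cast NeZero.ne N)
  have hk := hn (ZMod ℓ) (by rw [Ne, ZMod.natCast_eq_zero_iff]; exact hℓN)
  obtain ⟨z', hz'F, hz'ind⟩ := D1bk ℓ N n hn0 hk
  let z : Fin n → ↥(OF ℓ N).toSubring :=
    fun i => ⟨⟨iotaL ℓ (z' i), hz'F i⟩, iotaL_mem_gaussRing ℓ _⟩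
  have hres : ∀ i, resF ℓ N (z i) = piL ℓ (z' i) := fun i => gaussRes_iotaL ℓ (z' i)
  refine ⟨n, z, fun y => ?_⟩
  refine D1a (OF ℓ N).toSubring (resF ℓ N) ?_ (IntermediateField.adjoin ℚ {jFull N}).toSubfield
    (fun c _ => (OF ℓ N).mem_or_inv_mem c)
    (IntermediateField.adjoin (ZMod ℓ) {jqModC (ZMod ℓ)}).toSubfield ?_ Set.univ n z ?_
    (fun _ => trivial) ?_ y trivial
  · intro x hx
    exact inv_mem_gaussRing_of_gaussRes_ne_zero ℓ (OFtoGauss ℓ N x) hx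
  · intro c hc
    exact D1c ℓ (OFtoGauss ℓ N c) ((mem_adjoin_FF_iff N (jFull N) c).mp hc)
  · intro w _
    obtain ⟨c, hcE, hc0, hrel⟩ := D1bQ N n hn0 hQ (fun i => (w i : LaurentSeries ℚ))
      (fun i => (w i).2)
    refine ⟨fun i => ⟨c i, adjoin_jq_le_full N _ (hcE i)⟩, fun i => ?_, ?_, ?_⟩
    · exact (mem_adjoin_FF_iff N (jFull N) _).mpr (hcE i)
    · intro h
      apply hc0
      funext i
      exact congrArg Subtype.val (congrFun h i)
    · apply Subtype.ext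
      rw [ZeroMemClass.coe_zero, ← hrel, AddSubmonoidClass.coe_finsetSum]
      rfl
  · intro c hc hrel
    apply hz'ind c hc
    rw [← hrel]
    exact Finset.sum_congr rfl fun i _ => by rw [hres]

/-- abstract form: a valuation ring which is a finite module over its trace on a subfield is
integral over it. -/
theorem integral_of_basis {E F : Type*} [Field E] [Field F] [Algebra E F] (O : ValuationSubring F)
    (n : ℕ) (z : Fin n → F) (hzO : ∀ i, z i ∈ O)
    (hz : ∀ y ∈ O, ∃ c : Fin n → E, (∀ i, algebraMap E F (c i) ∈ O) ∧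
      y = ∑ i, algebraMap E F (c i) * z i) (y : F) (hy : y ∈ O) :
    ∃ P : E[X], P.Monic ∧ (∀ i, P.coeff i ∈ O.comap (algebraMap E F)) ∧ aeval y P = 0 := by
  set Ov : ValuationSubring E := O.comap (algebraMap E F) with hOv
  let _ : Algebra ↥Ov F := ((algebraMap E F).comp Ov.subtype).toAlgebra
  have hsmul : ∀ (a : ↥Ov) (x : F), a • x = algebraMap E F (a : E) * x := fun a x => rfl
  let N' : Submodule ↥Ov F := Submodule.span ↥Ov (Set.range z)
  have h1 : ∀ x : F, x ∈ O → x ∈ N' := by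
    intro x hx
    obtain ⟨c, hcE, hxc⟩ := hz x hx
    rw [hxc]
    refine Submodule.sum_mem _ fun i _ => ?_
    have : algebraMap E F (c i) * z i = (⟨c i, hcE i⟩ : ↥Ov) • z i := rfl
    rw [this]
    exact Submodule.smul_mem _ _ (Submodule.subset_span ⟨i, rfl⟩)
  have h2 : ∀ x ∈ N', x ∈ O := by
    intro x hx
    induction hx using Submodule.span_induction with
    | mem x hx => obtain ⟨i, rfl⟩ := hx; exact hzO i
    | zero => exact zero_mem _
    | add x y _ _ hx hy => exact add_mem hx hy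
    | smul a x _ hx => rw [hsmul]; exact mul_mem a.2 hx
  have hint : IsIntegral ↥Ov y := by
    refine isIntegral_of_smul_mem_submodule N' ?_ (Submodule.fg_span (Set.finite_range _)) y ?_
    · intro hbot
      have := h1 1 (one_mem _)
      rw [hbot, Submodule.mem_bot] at this
      exact one_ne_zero this
    · intro x hx
      exact h1 _ (mul_mem hy (h2 x hx))
  obtain ⟨p, hpm, hp0⟩ := hint
  refine ⟨p.map Ov.subtype, hpm.map _, fun i => ?_, ?_⟩
  · rw [coeff_map]; exact (p.coeff i).2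
  · rw [aeval_def, eval₂_map]; exact hp0

/-- every element of `OF` is integral over the valuation ring of `ℚ(j)`. -/
theorem OF_integral (hC : StatementC) (hℓN : ¬ ℓ ∣ N) (E : IntermediateField ℚ (FFull N))
    (hE : E = IntermediateField.adjoin ℚ {jFull N}) (y : FFull N) (hy : y ∈ OF ℓ N) :
    ∃ P : (↥E)[X], P.Monic ∧ (∀ i, P.coeff i ∈ (OF ℓ N).comap (algebraMap ↥E (FFull N))) ∧
      aeval y P = 0 := by
  subst hE
  obtain ⟨n, z, hz⟩ := OF_basis ℓ N hC hℓN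
  refine integral_of_basis (OF ℓ N) n (fun i => (z i : FFull N)) (fun i => (z i).2) ?_ y hy
  intro x hx
  obtain ⟨c, hcE, hxc⟩ := hz ⟨x, hx⟩
  exact ⟨fun i => ⟨(c i : FFull N), hcE i⟩, fun i => (c i).2, hxc⟩

omit [Fact ℓ.Prime] in
theorem coe_algebraMap_Rl (r : Rl ℓ) :
    ((algebraMap (Rl ℓ) (FFull N) r : FFull N) : LaurentSeries ℚ) = iotaL ℓ (HahnSeries.single 0 r) := by
  have h1 : ((algebraMap (Rl ℓ) (FFull N) r : FFull N) : LaurentSeries ℚ) =
      algebraMap (FFull N) (LaurentSeries ℚ) (algebraMap ℚ (FFull N) (r : ℚ)) := rfl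
  have h2 : (algebraMap (FFull N) (LaurentSeries ℚ)).comp (algebraMap ℚ (FFull N)) =
      algebraMap ℚ (LaurentSeries ℚ) := Subsingleton.elim _ _
  rw [h1, ← RingHom.comp_apply, h2, algebraMap_apply_eq_single, iotaL, coeffMap_single]
  rfl

theorem algebraMap_Rl_mem_OF (r : Rl ℓ) : algebraMap (Rl ℓ) (FFull N) r ∈ OF ℓ N := by
  rw [mem_OF_iff, coe_algebraMap_Rl]
  exact iotaL_mem_gaussRing ℓ _

theorem adjoin_le_OF (S : Set (FFull N)) (hS : ∀ s ∈ S, s ∈ OF ℓ N) :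
    ∀ a ∈ Algebra.adjoin (Rl ℓ) S, a ∈ OF ℓ N := by
  intro a ha
  induction ha using Algebra.adjoin_induction with
  | mem x hx => exact hS x hx
  | algebraMap r => exact algebraMap_Rl_mem_OF ℓ N r
  | add x y _ _ hx hy => exact add_mem hx hy
  | mul x y _ _ hx hy => exact mul_mem hx hy

theorem chartAlg_le_OF (S : Set (FFull N)) (hS : ∀ s ∈ S, s ∈ OF ℓ N) (x : FFull N)
    (hx : x ∈ chartAlg N ℓ S) : x ∈ OF ℓ N := by
  rw [mem_chartAlg_iff] at hx
  let φ : ↥(Algebra.adjoin (Rl ℓ) S) →+* ↥(OF ℓ N) :=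
    (Algebra.adjoin (Rl ℓ) S).val.toRingHom.codRestrict (OF ℓ N)
      (fun a => adjoin_le_OF ℓ N S hS a a.2)
  have h : IsIntegral ↥(OF ℓ N) x :=
    hx.map_of_comp_eq φ (RingHom.id (FFull N)) (by ext; rfl)
  obtain ⟨y, hy⟩ := IsIntegrallyClosed.algebraMap_eq_of_integral h
  rw [← hy]
  exact y.2

/-- the residue map on a chart. -/
def chartRes (S : Set (FFull N)) (hS : ∀ s ∈ S, s ∈ OF ℓ N) :
    ↥(chartAlg N ℓ S) →+* LaurentSeries (ZMod ℓ) :=
  (resF ℓ N).comp ((chartAlg N ℓ S).val.toRingHom.codRestrict (OF ℓ N).toSubring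
    (fun a => chartAlg_le_OF ℓ N S hS a a.2))

theorem chartRes_eq (S : Set (FFull N)) (hS : ∀ s ∈ S, s ∈ OF ℓ N) (a : ↥(chartAlg N ℓ S)) :
    chartRes ℓ N S hS a =
      gaussRes ℓ ⟨((a : FFull N) : LaurentSeries ℚ), chartAlg_le_OF ℓ N S hS a a.2⟩ := rfl

theorem chartRes_algebraMap (S : Set (FFull N)) (hS : ∀ s ∈ S, s ∈ OF ℓ N) (r : Rl ℓ) :
    chartRes ℓ N S hS (algebraMap (Rl ℓ) ↥(chartAlg N ℓ S) r) = HahnSeries.C (resR ℓ r) := by
  rw [chartRes_eq, gaussRes_eq ℓ _ (z := HahnSeries.single 0 r) (g := 1) (by simp)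
    (by rw [map_one, one_mul]; exact coe_algebraMap_Rl ℓ N r)]
  rw [map_one, div_one, piL, coeffMap_single]
  rfl

theorem jFull_mem_OF : jFull N ∈ OF ℓ N := by
  rw [mem_OF_iff, coe_jFull, ← iotaL_jqModC ℓ]
  exact iotaL_mem_gaussRing ℓ _

theorem gaussRes_jq (h : jq ∈ gaussRing ℓ) : gaussRes ℓ ⟨jq, h⟩ = jqModC (ZMod ℓ) := by
  rw [gaussRes_eq ℓ _ (z := jqModC (Rl ℓ)) (g := 1) (by simp)
    (by rw [map_one, one_mul, iotaL_jqModC]), map_one, div_one, piL_jqModC]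

theorem jq_inv_mem_gaussRing : jq⁻¹ ∈ gaussRing ℓ := by
  have h : jq ∈ gaussRing ℓ := jFull_mem_OF ℓ 1
  refine inv_mem_gaussRing_of_gaussRes_ne_zero ℓ ⟨jq, h⟩ ?_
  rw [gaussRes_jq]
  exact jqModC_ne_zero_of_nontrivial _

theorem jFull_inv_mem_OF : (jFull N)⁻¹ ∈ OF ℓ N := jq_inv_mem_gaussRing ℓ

theorem gaussRes_jq_inv (h : jq⁻¹ ∈ gaussRing ℓ) :
    gaussRes ℓ ⟨jq⁻¹, h⟩ = (jqModC (ZMod ℓ))⁻¹ := by
  have hj : jq ∈ gaussRing ℓ := jFull_mem_OF ℓ 1
  have h1 : (⟨jq, hj⟩ : ↥(gaussRing ℓ)) * ⟨jq⁻¹, h⟩ = 1 :=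
    Subtype.ext (mul_inv_cancel₀ jq_ne_zero)
  have h2 := congrArg (gaussRes ℓ) h1
  rw [map_mul, map_one, gaussRes_jq] at h2
  exact eq_inv_of_mul_eq_one_right h2

theorem transcendental_FF (T : FFull N) (hT : Transcendental ℚ (T : LaurentSeries ℚ)) :
    Transcendental ℚ T := by
  rw [transcendental_iff] at hT ⊢
  intro P hP
  apply hT P
  rw [← coe_aeval_FF, hP]
  rfl

theorem transcendental_inv' {k M : Type*} [Field k] [Field M] [Algebra k M] {x : M}
    (hx : Transcendental k x) : Transcendental k x⁻¹ :=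
  fun h => hx (IsAlgebraic.inv_iff.mp h)

theorem natCast_FF_ne_zero : (ℓ : FFull N) ≠ 0 := by
  exact_mod_cast (Fact.out : ℓ.Prime).ne_zero

omit [Fact ℓ.Prime] in
theorem adjoin_Rl_le_adjoin_rat (T : FFull N) :
    ∀ a ∈ Algebra.adjoin (Rl ℓ) {T}, a ∈ Algebra.adjoin ℚ {T} := by
  intro a ha
  induction ha using Algebra.adjoin_induction with
  | mem x hx => exact Algebra.subset_adjoin hx
  | algebraMap r => exact Subalgebra.algebraMap_mem _ (r : ℚ)
  | add x y _ _ hx hy => exact add_mem hx hy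
  | mul x y _ _ hx hy => exact mul_mem hx hy

theorem chartRes_ker (hC : StatementC) (hℓN : ¬ ℓ ∣ N) (T : FFull N) (hTO : T ∈ OF ℓ N)
    (hTE : IntermediateField.adjoin ℚ {T} = IntermediateField.adjoin ℚ {jFull N})
    (hTtr : Transcendental ℚ (T : LaurentSeries ℚ))
    (hTres : Transcendental (ZMod ℓ) (gaussRes ℓ ⟨(T : LaurentSeries ℚ), hTO⟩))
    (hS : ∀ s ∈ ({T} : Set (FFull N)), s ∈ OF ℓ N)
    (a : ↥(chartAlg N ℓ {T})) (ha : chartRes ℓ N {T} hS a = 0) :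
    ∃ a' : ↥(chartAlg N ℓ {T}), a = algebraMap (Rl ℓ) ↥(chartAlg N ℓ {T}) (ℓ : Rl ℓ) * a' := by
  have hl := natCast_FF_ne_zero ℓ N
  rw [chartRes_eq] at ha
  obtain ⟨y, hy⟩ := exists_eq_mul_of_gaussRes_eq_zero ℓ _ ha
  have hy' : ((a : FFull N) : LaurentSeries ℚ) = (ℓ : LaurentSeries ℚ) * (y : LaurentSeries ℚ) := by
    have := congrArg Subtype.val hy
    simpa using this
  set y' : FFull N := (a : FFull N) / ℓ with hy'def
  have hay' : (a : FFull N) = (ℓ : FFull N) * y' := by rw [hy'def, mul_div_cancel₀ _ hl]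
  have hyy' : (y' : LaurentSeries ℚ) = (y : LaurentSeries ℚ) := by
    have h1 : ((a : FFull N) : LaurentSeries ℚ) = (ℓ : LaurentSeries ℚ) * (y' : LaurentSeries ℚ) := by
      conv_lhs => rw [hay']
      simp
    exact mul_left_cancel₀ (natCast_laurent_ne_zero ℓ) (h1.symm.trans hy')
  have hy'O : y' ∈ OF ℓ N := by rw [mem_OF_iff, hyy']; exact y.2
  have haint : IsIntegral ↥(Algebra.adjoin (Rl ℓ) {T}) (a : FFull N) := a.2
  have hy2 : IsIntegral ↥(Algebra.adjoin ℚ {T}) y' := by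
    let φ : ↥(Algebra.adjoin (Rl ℓ) {T}) →+* ↥(Algebra.adjoin ℚ {T}) :=
      (Algebra.adjoin (Rl ℓ) {T}).val.toRingHom.codRestrict (Algebra.adjoin ℚ {T})
        (fun x => adjoin_Rl_le_adjoin_rat ℓ N T x x.2)
    have h1 : IsIntegral ↥(Algebra.adjoin ℚ {T}) (a : FFull N) :=
      haint.map_of_comp_eq φ (RingHom.id (FFull N)) (by ext; rfl)
    have h2 : y' = algebraMap ↥(Algebra.adjoin ℚ {T}) (FFull N)
        (algebraMap ℚ ↥(Algebra.adjoin ℚ {T}) (ℓ : ℚ)⁻¹) * (a : FFull N) := by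
      rw [← IsScalarTower.algebraMap_apply, hy'def, map_inv₀, map_natCast, div_eq_inv_mul]
    rw [h2]
    exact isIntegral_algebraMap.mul h1
  have hint : IsIntegral ↥(Algebra.adjoin (Rl ℓ) {T}) y' := by
    refine D2 (R₀ := Rl ℓ) (Q₀ := ℚ) T (transcendental_FF N T hTtr)
      ((OF ℓ N).comap (algebraMap ↥(IntermediateField.adjoin ℚ {T}) (FFull N))) ?_ y'
      (OF_integral ℓ N hC hℓN _ hTE y' hy'O) hy2
    intro P c hcP hcO i
    have h3 : aeval (T : LaurentSeries ℚ) P ∈ gaussRing ℓ := by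
      rw [← coe_aeval_FF, ← hcP]
      exact hcO
    exact ⟨⟨_, D1c' ℓ ⟨(T : LaurentSeries ℚ), hTO⟩ hTres P h3 i⟩, rfl⟩
  refine ⟨⟨y', hint⟩, Subtype.ext ?_⟩
  rw [map_natCast]
  exact hay'

theorem ringHom_Rl_ext {K : Type*} [Field K] [CharP K ℓ] (f g : Rl ℓ →+* K) : f = g := by
  ext r
  have hden : (((r : ℚ).den : ℕ) : K) ≠ 0 := by
    intro h
    rw [CharP.cast_eq_zero_iff K ℓ] at h
    have hc : (r : ℚ).den.Coprime ℓ := r.2
    have h1 : ℓ ∣ Nat.gcd (r : ℚ).den ℓ := Nat.dvd_gcd h dvd_rfl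
    rw [hc] at h1
    exact (Fact.out : ℓ.Prime).one_lt.ne' (Nat.dvd_one.mp h1)
  have hr : (((r : ℚ).den : ℕ) : Rl ℓ) * r = (((r : ℚ).num : ℤ) : Rl ℓ) := by
    apply Subtype.ext
    simp only [Subring.coe_mul, Subring.coe_natCast, Subring.coe_intCast]
    exact Rat.den_mul_eq_num _
  have hf := congrArg f hr
  have hg := congrArg g hr
  rw [map_mul, map_natCast, map_intCast] at hf hg
  exact mul_left_cancel₀ hden (hf.trans hg.symm)

theorem adjoin_inv_eq {k M : Type*} [Field k] [Field M] [Algebra k M] (x : M) :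
    IntermediateField.adjoin k {x⁻¹} = IntermediateField.adjoin k {x} := by
  apply le_antisymm
  · rw [IntermediateField.adjoin_simple_le_iff]
    exact inv_mem (IntermediateField.mem_adjoin_simple_self k x)
  · rw [IntermediateField.adjoin_simple_le_iff]
    have := inv_mem (IntermediateField.mem_adjoin_simple_self k x⁻¹)
    rwa [inv_inv] at this

theorem statementD (hC : StatementC) : StatementD := by
  intro N _ ℓ _ hℓN K _ _ _
  let κ : ZMod ℓ →+* K := ZMod.castHom (dvd_refl ℓ) K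
  have hκ : ∀ r, κ (resR ℓ r) = algebraMap (Rl ℓ) K r := fun r =>
    congrArg (fun f : Rl ℓ →+* K => f r) (ringHom_Rl_ext ℓ (κ.comp (resR ℓ)) (algebraMap (Rl ℓ) K))
  have hj := jFull_mem_OF ℓ N
  have hji := jFull_inv_mem_OF ℓ N
  have htrQ : Transcendental ℚ jq := transcendental_jqModC ℚ
  have htrk : Transcendental (ZMod ℓ) (jqModC (ZMod ℓ)) := transcendental_jqModC (ZMod ℓ)
  refine ⟨?_, ?_, ?_⟩
  · have hS : ∀ s ∈ ({jFull N} : Set (FFull N)), s ∈ OF ℓ N := by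
      intro s hs; rw [Set.mem_singleton_iff.mp hs]; exact hj
    exact D3 (ℓ : Rl ℓ) (resR ℓ) (resR_surjective ℓ) κ hκ (resR_natCast_self ℓ)
      (chartRes ℓ N {jFull N} hS) (chartRes_algebraMap ℓ N _ hS)
      (chartRes_ker ℓ N hC hℓN (jFull N) hj rfl htrQ
        ((gaussRes_jq ℓ hj).symm ▸ htrk) hS)
  · have hS : ∀ s ∈ ({(jFull N)⁻¹} : Set (FFull N)), s ∈ OF ℓ N := by
      intro s hs; rw [Set.mem_singleton_iff.mp hs]; exact hji
    exact D3 (ℓ : Rl ℓ) (resR ℓ) (resR_surjective ℓ) κ hκ (resR_natCast_self ℓ)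
      (chartRes ℓ N {(jFull N)⁻¹} hS) (chartRes_algebraMap ℓ N _ hS)
      (chartRes_ker ℓ N hC hℓN (jFull N)⁻¹ hji (adjoin_inv_eq _) (transcendental_inv' htrQ)
        ((gaussRes_jq_inv ℓ hji).symm ▸ transcendental_inv' htrk) hS)
  · have hS : ∀ s ∈ ({jFull N, (jFull N)⁻¹} : Set (FFull N)), s ∈ OF ℓ N := by
      intro s hs
      rcases hs with rfl | hs
      · exact hj
      · rw [Set.mem_singleton_iff.mp hs]; exact hji
    exact D3' (resR ℓ) κ hκ (chartRes ℓ N _ hS) (chartRes_algebraMap ℓ N _ hS)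

end Fermat.Agent.S28
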