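import Fermat.Statements.S28

set_option autoImplicit false
open AlgebraicGeometry CategoryTheory CategoryTheory.Limits ModularCurve ModularCurve.IgusaScheme

namespace Fermat.Agent.S28

universe u

/-- A space covered by irreducible open pieces all containing a common nonempty open piece is
irreducible. -/
theorem irreducibleSpace_of_cover {P : Type u} [TopologicalSpace P] {ι : Type*}
    (R : ι → Set P) (hcov : ∀ x : P, ∃ j, x ∈ R j) (hirr : ∀ j, IsIrreducible (R j))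
    (j₀ : ι) (hopen : IsOpen (R j₀)) (hsub : ∀ j, R j₀ ⊆ R j) : IrreducibleSpace P := by
  have key : ∀ W : Set P, IsOpen W → W.Nonempty → (R j₀ ∩ W).Nonempty := by
    intro W hW ⟨x, hx⟩
    obtain ⟨j, hj⟩ := hcov x
    obtain ⟨y, hy⟩ := (hirr j₀).1
    obtain ⟨z, hz1, hz2, hz3⟩ := (hirr j).2 W (R j₀) hW hopen ⟨x, hj, hx⟩ ⟨y, hsub j hy, hy⟩
    exact ⟨z, hz3, hz2⟩
  have hne : Nonempty P := ⟨(hirr j₀).1.some⟩
  refine @IrreducibleSpace.mk P _ ⟨?_⟩ hne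
  intro W₁ W₂ h₁ h₂ ⟨x₁, _, hx₁⟩ ⟨x₂, _, hx₂⟩
  obtain ⟨z, _, hz⟩ := (hirr j₀).2 W₁ W₂ h₁ h₂ (key W₁ h₁ ⟨x₁, hx₁⟩) (key W₂ h₂ ⟨x₂, hx₂⟩)
  exact ⟨z, Set.mem_univ _, hz⟩

theorem isIntegral_of_openCover {P : Scheme.{u}} (𝒱 : P.OpenCover)
    [∀ j, AlgebraicGeometry.IsIntegral (𝒱.X j)] (j₀ : 𝒱.I₀)
    (h : ∀ j, ∃ a : 𝒱.X j₀ ⟶ 𝒱.X j, a ≫ 𝒱.f j = 𝒱.f j₀) : AlgebraicGeometry.IsIntegral P := by
  have : AlgebraicGeometry.IsReduced P := IsReduced.of_openCover P 𝒱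
  have : IrreducibleSpace P := by
    refine irreducibleSpace_of_cover (fun j => Set.range (𝒱.f j)) ?_ ?_ j₀ ?_ ?_
    · intro x
      obtain ⟨j, y, hy⟩ := 𝒱.exists_eq x
      exact ⟨j, y, hy⟩
    · intro j
      rw [← Set.image_univ]
      exact (IrreducibleSpace.isIrreducible_univ _).image _ (𝒱.f j).continuous.continuousOn
    · exact (𝒱.f j₀).isOpenEmbedding.isOpen_range
    · intro j
      obtain ⟨a, ha⟩ := h j
      rintro _ ⟨y, rfl⟩
      exact ⟨a y, by rw [← ha]; rfl⟩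
  exact isIntegral_of_irreducibleSpace_of_isReduced P

theorem pullback_map_comp_aux {C : Type*} [Category C] [HasPullbacks C] {X Y Z U V : C}
    (f : X ⟶ Z) (g : Y ⟶ Z) (i : U ⟶ X) (j : V ⟶ X) (a : U ⟶ V) (h : a ≫ j = i)
    (h1 : (i ≫ f) ≫ 𝟙 Z = a ≫ j ≫ f) (h2 : g ≫ 𝟙 Z = 𝟙 Y ≫ g)
    (h3 : (j ≫ f) ≫ 𝟙 Z = j ≫ f) (h4 : (i ≫ f) ≫ 𝟙 Z = i ≫ f) :
    pullback.map (i ≫ f) g (j ≫ f) g a (𝟙 Y) (𝟙 Z) h1 h2 ≫
      pullback.map (j ≫ f) g f g j (𝟙 Y) (𝟙 Z) h3 h2 =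
    pullback.map (i ≫ f) g f g i (𝟙 Y) (𝟙 Z) h4 h2 := by
  rw [pullback.map_comp]
  apply pullback.hom_ext
  · rw [pullback.lift_fst, pullback.lift_fst, h]
  · rw [pullback.lift_snd, pullback.lift_snd, Category.comp_id]

section Igusa

variable (N : ℕ) [NeZero N] (ℓ : ℕ) [Fact ℓ.Prime]
  (K : Type) [Field K] [Algebra ↥(GaloisRep.ratLocalizedAt ℓ) K]

/-- the structure map of `Spec K`. -/
noncomputable abbrev gK : Spec (CommRingCat.of K) ⟶ Spec (CommRingCat.of ↥(GaloisRep.ratLocalizedAt ℓ)) :=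
  Spec.map (CommRingCat.ofHom (algebraMap ↥(GaloisRep.ratLocalizedAt ℓ) K))

noncomputable abbrev cov : (ModularCurve.IgusaScheme N ℓ).OpenCover :=
  Scheme.IsLocallyDirected.openCover (span (fFin N ℓ) (fInf N ℓ))

noncomputable abbrev covP : (pullback (igusaTo N ℓ) (gK ℓ K)).OpenCover :=
  Scheme.Pullback.openCoverOfLeft (cov N ℓ) (igusaTo N ℓ) (gK ℓ K)

theorem cov_f_none : (cov N ℓ).f WalkingSpan.zero = fFin N ℓ ≫ ιFin N ℓ :=
  (colimit.w (span (fFin N ℓ) (fInf N ℓ)) WalkingSpan.Hom.fst).symm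

theorem cov_f_none' : (cov N ℓ).f WalkingSpan.zero = fInf N ℓ ≫ ιInf N ℓ :=
  (colimit.w (span (fFin N ℓ) (fInf N ℓ)) WalkingSpan.Hom.snd).symm

theorem cov_none_igusaTo : (cov N ℓ).f WalkingSpan.zero ≫ igusaTo N ℓ =
    Spec.map (CommRingCat.ofHom (algebraMap ↥(GaloisRep.ratLocalizedAt ℓ) (chartAlgMid N ℓ))) := by
  have h1 : (cov N ℓ).f WalkingSpan.zero ≫ igusaTo N ℓ = fFin N ℓ ≫ ιFin N ℓ ≫ igusaTo N ℓ :=
    (congrArg (· ≫ igusaTo N ℓ) (cov_f_none N ℓ)).trans (Category.assoc _ _ _)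
  refine h1.trans ?_
  rw [ιFin_igusaTo]
  unfold fFin
  rw [← Spec.map_comp, ← CommRingCat.ofHom_comp]
  congr 2

open scoped TensorProduct

noncomputable def isoFin : (covP N ℓ K).X WalkingSpan.left ≅
    Spec (CommRingCat.of ((chartAlgFin N ℓ) ⊗[↥(GaloisRep.ratLocalizedAt ℓ)] K)) :=
  pullback.congrHom (ιFin_igusaTo N ℓ) rfl ≪≫ pullbackSpecIso _ _ _

noncomputable def isoInf : (covP N ℓ K).X WalkingSpan.right ≅
    Spec (CommRingCat.of ((chartAlgInf N ℓ) ⊗[↥(GaloisRep.ratLocalizedAt ℓ)] K)) :=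
  pullback.congrHom (ιInf_igusaTo N ℓ) rfl ≪≫ pullbackSpecIso _ _ _

noncomputable def isoMid : (covP N ℓ K).X WalkingSpan.zero ≅
    Spec (CommRingCat.of ((chartAlgMid N ℓ) ⊗[↥(GaloisRep.ratLocalizedAt ℓ)] K)) :=
  pullback.congrHom (cov_none_igusaTo N ℓ) rfl ≪≫ pullbackSpecIso _ _ _

noncomputable def toFin : (covP N ℓ K).X WalkingSpan.zero ⟶ (covP N ℓ K).X WalkingSpan.left :=
  pullback.map _ _ _ _ (fFin N ℓ) (𝟙 _) (𝟙 _)
    (by
      rw [Category.comp_id]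
      exact (congrArg (· ≫ igusaTo N ℓ) (cov_f_none N ℓ)).trans (Category.assoc _ _ _))
    (by simp)

noncomputable def toInf : (covP N ℓ K).X WalkingSpan.zero ⟶ (covP N ℓ K).X WalkingSpan.right :=
  pullback.map _ _ _ _ (fInf N ℓ) (𝟙 _) (𝟙 _)
    (by
      rw [Category.comp_id]
      exact (congrArg (· ≫ igusaTo N ℓ) (cov_f_none' N ℓ)).trans (Category.assoc _ _ _))
    (by simp)

theorem toFin_comp : toFin N ℓ K ≫ (covP N ℓ K).f WalkingSpan.left =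
    (covP N ℓ K).f WalkingSpan.zero :=
  pullback_map_comp_aux (igusaTo N ℓ) (gK ℓ K) ((cov N ℓ).f WalkingSpan.zero)
    ((cov N ℓ).f WalkingSpan.left) (fFin N ℓ) (cov_f_none N ℓ).symm
    (by
      rw [Category.comp_id]
      exact (congrArg (· ≫ igusaTo N ℓ) (cov_f_none N ℓ)).trans (Category.assoc _ _ _))
    (by simp) (Category.comp_id _) (Category.comp_id _)

theorem toInf_comp : toInf N ℓ K ≫ (covP N ℓ K).f WalkingSpan.right =
    (covP N ℓ K).f WalkingSpan.zero :=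
  pullback_map_comp_aux (igusaTo N ℓ) (gK ℓ K) ((cov N ℓ).f WalkingSpan.zero)
    ((cov N ℓ).f WalkingSpan.right) (fInf N ℓ) (cov_f_none' N ℓ).symm
    (by
      rw [Category.comp_id]
      exact (congrArg (· ≫ igusaTo N ℓ) (cov_f_none' N ℓ)).trans (Category.assoc _ _ _))
    (by simp) (Category.comp_id _) (Category.comp_id _)

instance : IsOpenImmersion (toFin N ℓ K) := by
  have h0 : IsOpenImmersion ((covP N ℓ K).f WalkingSpan.left) :=
    (covP N ℓ K).map_prop WalkingSpan.left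
  have : IsOpenImmersion (toFin N ℓ K ≫ (covP N ℓ K).f WalkingSpan.left) := by
    rw [toFin_comp]; exact (covP N ℓ K).map_prop WalkingSpan.zero
  exact IsOpenImmersion.of_comp (toFin N ℓ K) ((covP N ℓ K).f WalkingSpan.left)

theorem isIntegral_pullback_of_isDomain
    (hFin : IsDomain ((chartAlgFin N ℓ) ⊗[↥(GaloisRep.ratLocalizedAt ℓ)] K))
    (hInf : IsDomain ((chartAlgInf N ℓ) ⊗[↥(GaloisRep.ratLocalizedAt ℓ)] K))
    (hMid : Nontrivial ((chartAlgMid N ℓ) ⊗[↥(GaloisRep.ratLocalizedAt ℓ)] K)) :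
    AlgebraicGeometry.IsIntegral (pullback (igusaTo N ℓ)
      (Spec.map (CommRingCat.ofHom (algebraMap ↥(GaloisRep.ratLocalizedAt ℓ) K)))) := by
  have h1 : AlgebraicGeometry.IsIntegral ((covP N ℓ K).X WalkingSpan.left) :=
    IsIntegral.of_isIso (isoFin N ℓ K).inv
  have h2 : AlgebraicGeometry.IsIntegral ((covP N ℓ K).X WalkingSpan.right) :=
    IsIntegral.of_isIso (isoInf N ℓ K).inv
  have hne : Nonempty ((covP N ℓ K).X WalkingSpan.zero) := by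
    have : Nonempty (Spec (CommRingCat.of
        ((chartAlgMid N ℓ) ⊗[↥(GaloisRep.ratLocalizedAt ℓ)] K))) :=
      inferInstanceAs (Nonempty (PrimeSpectrum _))
    exact this.map (isoMid N ℓ K).inv
  have h0 : AlgebraicGeometry.IsIntegral ((covP N ℓ K).X WalkingSpan.zero) :=
    isIntegral_of_isOpenImmersion (toFin N ℓ K)
  have hall : ∀ j, AlgebraicGeometry.IsIntegral ((covP N ℓ K).X j) := by
    intro j
    rcases j with (_ | _ | _)
    · exact h0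
    · exact h1
    · exact h2
  refine isIntegral_of_openCover (covP N ℓ K) WalkingSpan.zero ?_
  intro j
  rcases j with (_ | _ | _)
  · exact ⟨𝟙 _, Category.id_comp _⟩
  · exact ⟨toFin N ℓ K, toFin_comp N ℓ K⟩
  · exact ⟨toInf N ℓ K, toInf_comp N ℓ K⟩

end Igusa

end Fermat.Agent.S28
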