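import Mathlib

/-! # S28, block B: abstract symmetric function lemmas (Newton identities) -/

set_option autoImplicit false

namespace Fermat.Agent.S28

open Polynomial

section Newton

variable {B : Type*} [CommRing B] [Algebra ℚ B] (A0 : Subalgebra ℚ B)
  {ι : Type*} [Fintype ι] [DecidableEq ι]

theorem bAbs_aeval_esymm_mem (y : ι → B) (h : ∀ k, 0 < k → ∑ s, y s ^ k ∈ A0) (k : ℕ) :
    MvPolynomial.aeval y (MvPolynomial.esymm ι ℚ k) ∈ A0 := by
  induction k using Nat.strong_induction_on with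
  | _ k ih =>
    rcases Nat.eq_zero_or_pos k with rfl | hk
    · simp [MvPolynomial.esymm_zero, A0.one_mem]
    · have key := congrArg (MvPolynomial.aeval y) (MvPolynomial.mul_esymm_eq_sum ι ℚ k)
      simp only [map_mul, map_natCast, map_pow, map_neg, map_one, map_sum] at key
      have hmem : (k : B) * MvPolynomial.aeval y (MvPolynomial.esymm ι ℚ k) ∈ A0 := by
        rw [key]
        refine A0.mul_mem (A0.pow_mem (A0.neg_mem A0.one_mem) _) (A0.sum_mem ?_)
        intro a ha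
        rw [Finset.mem_filter, Finset.HasAntidiagonal.mem_antidiagonal] at ha
        refine A0.mul_mem (A0.mul_mem (A0.pow_mem (A0.neg_mem A0.one_mem) _) (ih _ ha.2)) ?_
        have : MvPolynomial.aeval y (MvPolynomial.psum ι ℚ a.2) = ∑ s, y s ^ a.2 := by
          simp [MvPolynomial.psum]
        rw [this]
        exact h _ (by omega)
      have h2 := A0.smul_mem hmem (1 / (k : ℚ))
      have hk0 : (k : ℚ) ≠ 0 := by exact_mod_cast hk.ne'
      have : (1 / (k : ℚ)) • ((k : B) * MvPolynomial.aeval y (MvPolynomial.esymm ι ℚ k))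
          = MvPolynomial.aeval y (MvPolynomial.esymm ι ℚ k) := by
        rw [← smul_mul_assoc]
        have : (1 / (k : ℚ)) • (k : B) = 1 := by
          rw [Algebra.smul_def, ← map_natCast (algebraMap ℚ B), ← map_mul]
          rw [one_div, inv_mul_cancel₀ hk0, map_one]
        rw [this, one_mul]
      rwa [this] at h2

/-- Newton: if all power sums lie in a `ℚ`-subalgebra, so does the product. -/
theorem prod_mem_of_psum_mem (y : ι → B) (h : ∀ k, 0 < k → ∑ s, y s ^ k ∈ A0) :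
    ∏ s, y s ∈ A0 := by
  have := bAbs_aeval_esymm_mem A0 y h (Fintype.card ι)
  have h2 : MvPolynomial.aeval y (MvPolynomial.esymm ι ℚ (Fintype.card ι)) = ∏ s, y s := by
    rw [MvPolynomial.esymm, ← Finset.card_univ, Finset.powersetCard_self]
    simp
  rwa [h2] at this

/-- polynomials with all coefficients in `A0`. -/
def bAbsCoeffSub : Subalgebra ℚ B[X] where
  carrier := {p | ∀ i, p.coeff i ∈ A0}
  mul_mem' := by
    intro p q hp hq i
    rw [coeff_mul]
    exact A0.sum_mem (fun x _ => A0.mul_mem (hp _) (hq _))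
  add_mem' := by
    intro p q hp hq i
    rw [coeff_add]
    exact A0.add_mem (hp _) (hq _)
  algebraMap_mem' := by
    intro r i
    rw [Polynomial.algebraMap_apply, coeff_C]
    split_ifs
    · exact A0.algebraMap_mem r
    · exact A0.zero_mem

theorem bAbs_mem_coeffSub {p : B[X]} : p ∈ bAbsCoeffSub A0 ↔ ∀ i, p.coeff i ∈ A0 := Iff.rfl

theorem bAbs_C_mem_coeffSub {b : B} (hb : b ∈ A0) : C b ∈ bAbsCoeffSub A0 := by
  intro i
  rw [coeff_C]
  split_ifs
  · exact hb
  · exact A0.zero_mem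

theorem bAbs_X_mem_coeffSub : (X : B[X]) ∈ bAbsCoeffSub A0 := by
  intro i
  rw [coeff_X]
  split_ifs
  · exact A0.one_mem
  · exact A0.zero_mem

/-- polarised version. -/
theorem coeff_prod_linear_mem (α β : ι → B) (h : ∀ n m, ∑ s, β s ^ n * α s ^ m ∈ A0) (i : ℕ) :
    (∏ s, (C (α s) * X - C (β s))).coeff i ∈ A0 := by
  have key := prod_mem_of_psum_mem (bAbsCoeffSub A0) (fun s => C (α s) * X - C (β s)) ?_
  · exact key i
  intro k _
  have h1 : ∀ s, (C (α s) * X - C (β s)) ^ k = ∑ m ∈ Finset.range (k + 1),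
      C (β s ^ (k - m) * α s ^ m) * (X ^ m * C ((-1) ^ (k - m) * (k.choose m : B))) := by
    intro s
    rw [sub_eq_add_neg, add_pow]
    refine Finset.sum_congr rfl fun m _ => ?_
    rw [mul_pow, neg_pow (C (β s))]
    simp only [map_mul, map_pow, map_neg, map_one, map_natCast]
    ring
  simp_rw [h1]
  rw [Finset.sum_comm]
  refine Subalgebra.sum_mem _ fun m _ => ?_
  rw [← Finset.sum_mul, ← map_sum]
  refine Subalgebra.mul_mem _ (bAbs_C_mem_coeffSub A0 (h _ _)) ?_
  refine Subalgebra.mul_mem _ (Subalgebra.pow_mem _ (bAbs_X_mem_coeffSub A0) _) ?_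
  refine bAbs_C_mem_coeffSub A0 ?_
  exact A0.mul_mem (A0.pow_mem (A0.neg_mem A0.one_mem) _) (natCast_mem A0 _)

theorem coeff_prod_X_sub_C_mem (u : ι → B) (h : ∀ m, ∑ s, u s ^ m ∈ A0) (i : ℕ) :
    (∏ s, (X - C (u s))).coeff i ∈ A0 := by
  have := coeff_prod_linear_mem A0 (fun _ => 1) u (by simpa using h) i
  simpa using this

theorem coeff_prod_X_sub_C_quot_mem (a u ρ : ι → B) (hρ : ∀ s, ρ s * u s = a s)
    (hP : ∀ n m, ∑ s, a s ^ n * u s ^ m ∈ A0) (d : B) (hd : d ∈ A0) (hd1 : d * ∏ s, u s = 1)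
    (i : ℕ) : (∏ s, (X - C (ρ s))).coeff i ∈ A0 := by
  have h1 : C (∏ s, u s) * ∏ s, (X - C (ρ s)) = ∏ s, (C (u s) * X - C (a s)) := by
    rw [map_prod, ← Finset.prod_mul_distrib]
    refine Finset.prod_congr rfl fun s _ => ?_
    rw [← hρ s, map_mul]
    ring
  have h2 : ∏ s, (X - C (ρ s)) = C d * ∏ s, (C (u s) * X - C (a s)) := by
    rw [← h1, ← mul_assoc, ← map_mul, hd1, map_one, one_mul]
  rw [h2, coeff_C_mul]
  exact A0.mul_mem hd (coeff_prod_linear_mem A0 u a hP i)

theorem coeff_interp_mem (a u ρ : ι → B) (hρ : ∀ s, ρ s * u s = a s)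
    (hP : ∀ n m, ∑ s, a s ^ n * u s ^ m ∈ A0)
    (hΦ : ∀ i, (∏ s, (X - C (ρ s))).coeff i ∈ A0) (m : ℕ) (hm : Fintype.card ι ≤ m) (i : ℕ) :
    (∑ s, C (u s ^ m) * ∏ s' ∈ Finset.univ.erase s, (X - C (ρ s'))).coeff i ∈ A0 := by
  set Φ : B[X] := ∏ s, (X - C (ρ s)) with hΦdef
  have hdeg : Φ.natDegree ≤ Fintype.card ι := by
    refine (natDegree_prod_le _ _).trans ?_
    refine (Finset.sum_le_card_nsmul _ _ 1 (fun s _ => natDegree_X_sub_C_le _)).trans ?_
    simp
  have h1 : ∀ s, ∏ s' ∈ Finset.univ.erase s, (X - C (ρ s')) = Φ /ₘ (X - C (ρ s)) := by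
    intro s
    rw [hΦdef, ← Finset.mul_prod_erase Finset.univ _ (Finset.mem_univ s),
      mul_divByMonic_cancel_left _ (monic_X_sub_C _)]
  simp_rw [h1]
  rw [finsetSum_coeff]
  simp_rw [coeff_C_mul, coeff_divByMonic_X_sub_C, Finset.mul_sum]
  rw [Finset.sum_comm]
  refine A0.sum_mem fun j hj => ?_
  rw [Finset.mem_Icc] at hj
  have h2 : ∀ s, u s ^ m * (ρ s ^ (j - (i + 1)) * Φ.coeff j) =
      (a s ^ (j - (i + 1)) * u s ^ (m - (j - (i + 1)))) * Φ.coeff j := by
    intro s
    have hle : j - (i + 1) ≤ m := by omega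
    rw [← hρ s, mul_pow]
    conv_lhs => rw [← Nat.sub_add_cancel hle, pow_add]
    ring
  simp_rw [h2]
  rw [← Finset.sum_mul]
  exact A0.mul_mem (hP _ _) (hΦ j)

end Newton

section Eval

variable {B : Type*} [CommRing B] {ι : Type*} [Fintype ι] [DecidableEq ι]

theorem eval_interp (w ρ : ι → B) (s : ι) :
    (∑ s, C (w s) * ∏ s' ∈ Finset.univ.erase s, (X - C (ρ s'))).eval (ρ s) =
      w s * (∏ s, (X - C (ρ s))).derivative.eval (ρ s) := by
  have hz : ∀ t, t ≠ s → (∏ s' ∈ Finset.univ.erase t, (X - C (ρ s'))).eval (ρ s) = 0 := by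
    intro t ht
    rw [eval_prod]
    refine Finset.prod_eq_zero (i := s) (Finset.mem_erase.2 ⟨ht.symm, Finset.mem_univ _⟩) ?_
    simp
  rw [derivative_prod_finset, eval_finsetSum, eval_finsetSum,
    Finset.sum_eq_single s, Finset.sum_eq_single s]
  · simp
  · intro t _ ht
    rw [eval_mul, hz t ht, zero_mul]
  · intro h; exact absurd (Finset.mem_univ _) h
  · intro t _ ht
    rw [eval_mul, hz t ht, mul_zero]
  · intro h; exact absurd (Finset.mem_univ _) h

end Eval

end Fermat.Agent.S28
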