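import Fermat.Agent.S28.Interface

/-! # S28, block B: definitions shared by the `B*` files -/

set_option autoImplicit false

noncomputable section

namespace Fermat.Agent.S28

open ModularCurve Polynomial

section Defs

variable (Λ : Type*) [CommRing Λ]

/-- `ℤ[[q]] → Λ((q))`. -/
def toL : PowerSeries ℤ →+* LaurentSeries Λ :=
  (HahnSeries.ofPowerSeries ℤ Λ).comp (PowerSeries.map (Int.castRingHom Λ))

theorem toL_apply (h : PowerSeries ℤ) :
    toL Λ h = HahnSeries.ofPowerSeries ℤ Λ (h.map (Int.castRingHom Λ)) := rfl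

theorem DlL_eq_toL : DlL Λ = toL Λ Dl := rfl

end Defs

section Families

variable (p : ℕ) [NeZero p] {Λ : Type*} [CommRing Λ] (ζ : Λˣ)

/-- the numerators `a_s`: `p¹² E(y^{p²})/Δ(y^p)` and `E(ζ^b y)/Δ(y^p)` (`E = E₄³`). -/
def numFam : Option (Fin p) → LaurentSeries Λ
  | none => (p : LaurentSeries Λ) ^ 12 * qExpand Λ p (qExpand Λ p (toL Λ E3)) *
      qExpand Λ p (DlLinv Λ)
  | some b => twist (ζ ^ (b : ℕ)) (toL Λ E3) * qExpand Λ p (DlLinv Λ)

/-- the units `u_s`. -/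
def unitFam : Option (Fin p) → LaurentSeries Λ
  | none => unitInf p Λ
  | some b => unitFin p ζ (b : ℕ)

/-- the roots `ρ_s = a_s / u_s`. -/
def rootFam : Option (Fin p) → LaurentSeries Λ
  | none => rootInf p Λ
  | some b => rootFin ζ (b : ℕ)

/-- `∏_s (X - ρ_s)`. -/
def PhiB : (LaurentSeries Λ)[X] := ∏ s, (X - C (rootFam p ζ s))

/-- `∏_s (X - u_s)`. -/
def UB : (LaurentSeries Λ)[X] := ∏ s, (X - C (unitFam p ζ s))

/-- `∑_s u_s^m ∏_{s' ≠ s} (X - ρ_{s'})`. -/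
def GB (m : ℕ) : (LaurentSeries Λ)[X] :=
  ∑ s, C (unitFam p ζ s ^ m) * ∏ s' ∈ Finset.univ.erase s, (X - C (rootFam p ζ s'))

/-- the identities of `StatementB` over a commutative ring `Λ` with a unit `ζ`. -/
def IdentB (Φ G : ℤ[X][X]) (m : ℕ) : Prop :=
  Φ.map (evBase p Λ) =
      (X - C (rootInf p Λ)) * ∏ b ∈ Finset.range p, (X - C (rootFin ζ b)) ∧
    (G.map (evBase p Λ)).eval (rootInf p Λ) =
      unitInf p Λ ^ m * (Φ.map (evBase p Λ)).derivative.eval (rootInf p Λ) ∧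
    ∀ b < p, (G.map (evBase p Λ)).eval (rootFin ζ b) =
      unitFin p ζ b ^ m * (Φ.map (evBase p Λ)).derivative.eval (rootFin ζ b)

end Families

/-- `x = c y^k (1 + O(y))`. -/
def IsMono {Λ : Type*} [CommRing Λ] (x : LaurentSeries Λ) (k : ℤ) (c : Λ) : Prop :=
  ∃ f : PowerSeries Λ, PowerSeries.constantCoeff f = 1 ∧
    x = HahnSeries.single k c * HahnSeries.ofPowerSeries ℤ Λ f

end Fermat.Agent.S28
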