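import Fermat.Agent.S28.CSetup

set_option autoImplicit false

noncomputable section

namespace Fermat.Agent.S28

open ModularCurve Polynomial

section Chain

variable (k : Type) [Field k] (N : ℕ) [NeZero N]

/-- `Φ_p(j(q^{pd}), j(q^d)) = 0` (also in task CInt; will be imported from there at the end). -/
theorem Phi_jd' {p : ℕ} [NeZero p] {Φ U G : ℤ[X][X]} {m : ℕ} {c : ℤ} (hB : BData p Φ U G m c)
    (hpK : (p : AlgebraicClosure k) ≠ 0) (d : ℕ) (hd : d ≠ 0) :
    (Φ.map (evY (jd k d))).eval (jd k (p * d)) = 0 := by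
  apply iota_injective k
  rw [map_eval_evY (iota k), iota_jd k d hd, iota_jd k (p * d) (mul_ne_zero (NeZero.ne p) hd),
    ← Pd_pow k p d hd, step_root_pow hB hpK, map_zero]

/-- the relation `Φ_p(j(q^{pd}), j(q^d)) = 0` inside `F`. -/
theorem Phi_jF {p : ℕ} [NeZero p] {Φ U G : ℤ[X][X]} {m : ℕ} {c : ℤ} (hB : BData p Φ U G m c)
    (hpK : (p : AlgebraicClosure k) ≠ 0) (d : ℕ) (hd : p * d ∣ N) :
    (Φ.map (evY (jF k N d))).eval (jF k N (p * d)) = 0 := by
  have hd' : d ∣ N := (Dvd.intro_left p rfl).trans hd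
  apply (algebraMap (FF k N) (LaurentSeries k)).injective
  rw [map_eval_evY (algebraMap (FF k N) (LaurentSeries k)), map_zero]
  have h1 : algebraMap (FF k N) (LaurentSeries k) (jF k N d) = jd k d := jF_coe k N hd'
  have h2 : algebraMap (FF k N) (LaurentSeries k) (jF k N (p * d)) = jd k (p * d) := jF_coe k N hd
  rw [h1, h2]
  exact Phi_jd' k hB hpK d (ne_zero_of_dvd N hd')

variable {k N}

theorem sigma_jF_one (σ : ↥(FF k N) →ₐ[↥(EE k)] OmBar k) :
    σ (jF k N 1) = toBar k (J (Pd k 1)) := by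
  have h : jF k N 1 = algebraMap (EE k) (FF k N)
      ⟨jqModC k, IntermediateField.mem_adjoin_simple_self k (jqModC k)⟩ := by
    apply Subtype.ext
    rw [jF_coe k N (one_dvd N), jd_one]
    rfl
  rw [h, σ.commutes, algebraMap_EE_bar, Pd_eq]
  exact congrArg (toBar k) (iota_jqModC k)

/-- one step: from a parameter for `d` to a parameter for `p d`. -/
theorem exists_par_step (hB : StatementB) (hN : (N : k) ≠ 0)
    (σ : ↥(FF k N) →ₐ[↥(EE k)] OmBar k) {p d : ℕ} [NeZero p] (hp : p.Prime) (hd : p * d ∣ N)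
    (t : Par (AlgebraicClosure k)) (ht : σ (jF k N d) = toBar k (J t)) :
    ∃ s : Par (AlgebraicClosure k), σ (jF k N (p * d)) = toBar k (J s) ∧
      (s = t.pow p ∨ s.pow p = t) := by
  obtain ⟨Φ, U, G, m, c, hBp⟩ := statementB_iff.mp hB p hp
  have hpK := natCast_ne_zero_of_dvd k N hN ((Dvd.intro d rfl).trans hd)
  have h := congrArg (σ : ↥(FF k N) →+* OmBar k) (Phi_jF k N hBp hpK d hd)
  rw [map_eval_evY (σ : ↥(FF k N) →+* OmBar k), map_zero] at h
  have h1 : (σ : ↥(FF k N) →+* OmBar k) (jF k N d) = toBar k (J t) := ht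
  rw [h1] at h
  exact step_roots hBp hpK t (toBar k) _ h

/-- every embedding sends `j(q^d)` to `j(t)` for some parameter `t`. -/
theorem exists_par (hB : StatementB) (hN : (N : k) ≠ 0) (σ : ↥(FF k N) →ₐ[↥(EE k)] OmBar k)
    {d : ℕ} (hd : d ∣ N) : ∃ t : Par (AlgebraicClosure k), σ (jF k N d) = toBar k (J t) := by
  induction d using induction_on_primes with
  | zero => exact absurd rfl (ne_zero_of_dvd N hd)
  | one => exact ⟨_, sigma_jF_one σ⟩
  | prime_mul p d hp ih =>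
    obtain ⟨t, ht⟩ := ih ((Dvd.intro_left p rfl).trans hd)
    have : NeZero p := ⟨hp.ne_zero⟩
    obtain ⟨s, hs, -⟩ := exists_par_step hB hN σ hp hd t ht
    exact ⟨s, hs⟩

open Classical in
/-- the parameter `t_d(σ)` with `σ (j(q^d)) = j(t_d)`. -/
def T (σ : ↥(FF k N) →ₐ[↥(EE k)] OmBar k) (d : ℕ) : Par (AlgebraicClosure k) :=
  if h : ∃ t : Par (AlgebraicClosure k), σ (jF k N d) = toBar k (J t) then h.choose else Pd k 1

theorem T_spec (hB : StatementB) (hN : (N : k) ≠ 0) (σ : ↥(FF k N) →ₐ[↥(EE k)] OmBar k)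
    {d : ℕ} (hd : d ∣ N) : σ (jF k N d) = toBar k (J (T σ d)) := by
  have h := exists_par hB hN σ hd
  rw [T, dif_pos h]
  exact h.choose_spec

theorem T_unique (hB : StatementB) (hN : (N : k) ≠ 0) (σ : ↥(FF k N) →ₐ[↥(EE k)] OmBar k)
    {d : ℕ} (hd : d ∣ N) (t : Par (AlgebraicClosure k)) (ht : σ (jF k N d) = toBar k (J t)) :
    T σ d = t := by
  have h := T_spec hB hN σ hd
  rw [ht] at h
  exact (J_injective (toBar_injective k h)).symm

theorem T_one (hB : StatementB) (hN : (N : k) ≠ 0) (σ : ↥(FF k N) →ₐ[↥(EE k)] OmBar k) :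
    T σ 1 = Pd k 1 :=
  T_unique hB hN σ (one_dvd N) _ (sigma_jF_one σ)

theorem T_step (hB : StatementB) (hN : (N : k) ≠ 0) (σ : ↥(FF k N) →ₐ[↥(EE k)] OmBar k)
    {p d : ℕ} [NeZero p] (hp : p.Prime) (hd : p * d ∣ N) :
    T σ (p * d) = (T σ d).pow p ∨ (T σ (p * d)).pow p = T σ d := by
  obtain ⟨s, hs, h⟩ := exists_par_step hB hN σ hp hd (T σ d)
    (T_spec hB hN σ ((Dvd.intro_left p rfl).trans hd))
  rw [T_unique hB hN σ hd s hs]
  exact h

theorem T_inj (hB : StatementB) (hN : (N : k) ≠ 0) (σ : ↥(FF k N) →ₐ[↥(EE k)] OmBar k)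
    {d d' : ℕ} (hd : d ∣ N) (hd' : d' ∣ N) (h : T σ d = T σ d') : d = d' := by
  have h1 : σ (jF k N d) = σ (jF k N d') := by
    rw [T_spec hB hN σ hd, T_spec hB hN σ hd', h]
  have h2 := σ.toRingHom.injective h1
  have h3 := congrArg (fun x : FF k N => (x : LaurentSeries k)) h2
  simp only [jF_coe k N hd, jF_coe k N hd'] at h3
  exact jd_injOn k (ne_zero_of_dvd N hd) (ne_zero_of_dvd N hd') h3

/-- the inclusion `F ⊆ k((q)) → OmBar k`. -/
def σ₀ : ↥(FF k N) →ₐ[↥(EE k)] OmBar k := IsScalarTower.toAlgHom ↥(EE k) ↥(FF k N) (OmBar k)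

theorem T_σ₀ (hB : StatementB) (hN : (N : k) ≠ 0) {d : ℕ} (hd : d ∣ N) :
    T (σ₀ : ↥(FF k N) →ₐ[↥(EE k)] OmBar k) d = Pd k d := by
  apply T_unique hB hN _ hd
  have h : (σ₀ : ↥(FF k N) →ₐ[↥(EE k)] OmBar k) (jF k N d)
      = algebraMap (FF k N) (OmBar k) (jF k N d) := rfl
  rw [h, algebraMap_FF_bar, jF_coe k N hd, iota_jd k d (ne_zero_of_dvd N hd)]

theorem eq_σ₀_of_T (hB : StatementB) (hN : (N : k) ≠ 0) (σ : ↥(FF k N) →ₐ[↥(EE k)] OmBar k)
    (h : ∀ d, d ∣ N → T σ d = Pd k d) : σ = σ₀ := by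
  apply IntermediateField.adjoin_algHom_ext
  rintro x ⟨d, hne, hd, rfl⟩
  have hx : ∀ hmem, (⟨qExpand k d (jqModC k), hmem⟩ : FF k N) = jF k N d := by
    intro hmem
    apply Subtype.ext
    rw [jF_coe k N hd, jd_eq]
  rw [hx, T_spec hB hN σ hd, T_spec hB hN σ₀ hd, h d hd, T_σ₀ hB hN hd]

/-! the `r`-level statements, in the form needed by `card_mul_altSum` (CComb.lean) -/

omit [NeZero N] in
theorem mul_mul_ne_self {p d : ℕ} (hp : 2 ≤ p) (hd : 0 < d) : p * (p * d) ≠ d := by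
  intro h
  have h1 : 2 * d ≤ p * d := Nat.mul_le_mul_right d hp
  have h2 : 2 * (p * d) ≤ p * (p * d) := Nat.mul_le_mul_right _ hp
  omega

theorem T_r_one (hB : StatementB) (hN : (N : k) ≠ 0) (σ : ↥(FF k N) →ₐ[↥(EE k)] OmBar k) :
    (T σ 1).r = 1 := by
  rw [T_one hB hN σ, Pd_r k 1 one_ne_zero, Nat.cast_one]

theorem T_r_step (hB : StatementB) (hN : (N : k) ≠ 0) (σ : ↥(FF k N) →ₐ[↥(EE k)] OmBar k)
    (p d : ℕ) (hp : p.Prime) (hd : p * d ∣ N) :
    (T σ (p * d)).r = p * (T σ d).r ∨ p * (T σ (p * d)).r = (T σ d).r := by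
  have : NeZero p := ⟨hp.ne_zero⟩
  rcases T_step hB hN σ hp hd with h | h
  · left
    rw [h, Par.pow_r]
  · right
    rw [← h, Par.pow_r]

theorem T_r_noback (hB : StatementB) (hN : (N : k) ≠ 0) (σ : ↥(FF k N) →ₐ[↥(EE k)] OmBar k)
    (p d : ℕ) (hp : p.Prime) (hd : p * (p * d) ∣ N) (h : p * (T σ (p * d)).r = (T σ d).r) :
    p * (T σ (p * (p * d))).r = (T σ (p * d)).r := by
  have : NeZero p := ⟨hp.ne_zero⟩
  have hd1 : p * d ∣ N := (Dvd.intro_left p rfl).trans hd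
  have hd0 : d ∣ N := (Dvd.intro_left p rfl).trans hd1
  have hp2 : (2 : ℚ) ≤ p := by exact_mod_cast hp.two_le
  rcases T_step hB hN σ hp hd with h1 | h1
  · exfalso
    have h2 : (T σ (p * d)).pow p = T σ d := by
      rcases T_step hB hN σ hp hd1 with h2 | h2
      · exfalso
        rw [h2, Par.pow_r] at h
        have hpos := (T σ d).pos
        have e1 : 2 * (T σ d).r ≤ p * (T σ d).r := mul_le_mul_of_nonneg_right hp2 hpos.le
        have e2 : 2 * (p * (T σ d).r) ≤ p * (p * (T σ d).r) :=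
          mul_le_mul_of_nonneg_right hp2 (by positivity)
        linarith
      · exact h2
    rw [h2] at h1
    have h3 := T_inj hB hN σ hd hd0 h1
    have hd00 : 0 < d := Nat.pos_of_ne_zero (ne_zero_of_dvd N hd0)
    exact mul_mul_ne_self hp.two_le hd00 h3
  · rw [← h1, Par.pow_r]

theorem eq_σ₀_of_T_r (hB : StatementB) (hN : (N : k) ≠ 0) (σ : ↥(FF k N) →ₐ[↥(EE k)] OmBar k)
    (h : ∀ d, d ∣ N → (T σ d).r = d) : σ = σ₀ := by
  apply eq_σ₀_of_T hB hN σ
  intro d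
  induction d using induction_on_primes with
  | zero => exact fun hd => absurd rfl (ne_zero_of_dvd N hd)
  | one => exact fun _ => T_one hB hN σ
  | prime_mul p d hp ih =>
    intro hd
    have : NeZero p := ⟨hp.ne_zero⟩
    have hd0 : d ∣ N := (Dvd.intro_left p rfl).trans hd
    have hd00 : d ≠ 0 := ne_zero_of_dvd N hd0
    rcases T_step hB hN σ hp hd with h1 | h1
    · rw [h1, ih hd0, Pd_pow k p d hd00]
    · exfalso
      have h2 := congrArg Par.r h1
      rw [Par.pow_r, h _ hd, h _ hd0] at h2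
      have h3 : p * (p * d) = d := by exact_mod_cast h2
      exact mul_mul_ne_self hp.two_le (Nat.pos_of_ne_zero hd00) h3

end Chain

end Fermat.Agent.S28
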