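import Fermat.Agent.S28.CStep

/-!
# Block C, part 3: the fields `E = k(j) ⊆ F = E(j(q^d) : d ∣ N) ⊆ k((q))`, the big field
`OmBar k`, an algebraic closure of `k̄((y^ℚ))`, and the basic relations.
-/

set_option autoImplicit false

noncomputable section

namespace Fermat.Agent.S28

open ModularCurve Polynomial

section Setup

variable (k : Type) [Field k]

/-- `k̄((y^ℚ))`. -/
abbrev Om : Type := HahnSeries ℚ (AlgebraicClosure k)

/-- an algebraic closure of `k̄((y^ℚ))`. -/
def OmBar : Type := AlgebraicClosure (HahnSeries ℚ (AlgebraicClosure k))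

instance : Field (OmBar k) := inferInstanceAs (Field (AlgebraicClosure _))
instance : Algebra (Om k) (OmBar k) := inferInstanceAs (Algebra _ (AlgebraicClosure _))
instance : IsAlgClosed (OmBar k) := inferInstanceAs (IsAlgClosed (AlgebraicClosure _))

/-- the inclusion `Om k → OmBar k`. -/
def toBar : Om k →+* OmBar k := algebraMap _ _

theorem toBar_injective : Function.Injective (toBar k) := (toBar k).injective

instance : Algebra (LaurentSeries k) (OmBar k) := ((toBar k).comp (iota k)).toAlgebra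

/-- `E = k(j)`. -/
abbrev EE : IntermediateField k (LaurentSeries k) := IntermediateField.adjoin k {jqModC k}

/-- `F = E(j(q^d) : d ∣ N)`. -/
abbrev FF (N : ℕ) : IntermediateField ↥(EE k) (LaurentSeries k) :=
  IntermediateField.adjoin ↥(EE k) (divisorExpansionsC k N)

/-- `A = k[j]`. -/
abbrev AA : Subalgebra k (LaurentSeries k) := Algebra.adjoin k {jqModC k}

theorem algebraMap_bar (x : LaurentSeries k) :
    algebraMap (LaurentSeries k) (OmBar k) x = toBar k (iota k x) := rfl

theorem algebraMap_FF_bar (N : ℕ) (x : FF k N) :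
    algebraMap (FF k N) (OmBar k) x = toBar k (iota k (x : LaurentSeries k)) := by
  rw [IsScalarTower.algebraMap_apply (FF k N) (LaurentSeries k) (OmBar k), algebraMap_bar]
  rfl

theorem algebraMap_EE_bar (x : EE k) :
    algebraMap (EE k) (OmBar k) x = toBar k (iota k (x : LaurentSeries k)) := by
  rw [IsScalarTower.algebraMap_apply (EE k) (LaurentSeries k) (OmBar k), algebraMap_bar]
  rfl

/-- `j(q^d)` (junk value `0` for `d = 0`). -/
def jd (d : ℕ) : LaurentSeries k := if h : d = 0 then 0 else @qExpand k _ d ⟨h⟩ (jqModC k)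

theorem jd_eq (d : ℕ) [NeZero d] : jd k d = qExpand k d (jqModC k) := dif_neg (NeZero.ne d)

theorem jd_one : jd k 1 = jqModC k := by rw [jd_eq, qExpand_one_apply]

/-- the parameter `y^d` (junk value `y` for `d = 0`). -/
def Pd (d : ℕ) : Par (AlgebraicClosure k) :=
  if h : d = 0 then Par.ofNat _ 1 else @Par.ofNat _ _ d ⟨h⟩

theorem Pd_eq (d : ℕ) [NeZero d] : Pd k d = Par.ofNat _ d := dif_neg (NeZero.ne d)

theorem Pd_r (d : ℕ) (hd : d ≠ 0) : (Pd k d).r = d := by
  have : NeZero d := ⟨hd⟩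
  rw [Pd_eq, Par.ofNat_r]

theorem Pd_pow (p d : ℕ) [NeZero p] (hd : d ≠ 0) : (Pd k d).pow p = Pd k (p * d) := by
  have : NeZero d := ⟨hd⟩
  have : NeZero (p * d) := ⟨mul_ne_zero (NeZero.ne p) hd⟩
  rw [Pd_eq, Pd_eq, Par.ofNat_pow]

theorem iota_jd (d : ℕ) (hd : d ≠ 0) : iota k (jd k d) = J (Pd k d) := by
  have : NeZero d := ⟨hd⟩
  rw [jd_eq, Pd_eq, iota_qExpand_jqModC]

theorem jd_injOn {d d' : ℕ} (hd : d ≠ 0) (hd' : d' ≠ 0) (h : jd k d = jd k d') : d = d' := by
  have h1 := congrArg (iota k) h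
  rw [iota_jd k d hd, iota_jd k d' hd'] at h1
  have h2 := congrArg Par.r (J_injective h1)
  rw [Pd_r k d hd, Pd_r k d' hd'] at h2
  exact_mod_cast h2

variable (N : ℕ) [NeZero N]

theorem ne_zero_of_dvd {d : ℕ} (hd : d ∣ N) : d ≠ 0 := ne_zero_of_dvd_ne_zero (NeZero.ne N) hd

theorem jd_mem {d : ℕ} (hd : d ∣ N) : jd k d ∈ FF k N := by
  have : NeZero d := ⟨ne_zero_of_dvd N hd⟩
  rw [jd_eq]
  exact IntermediateField.subset_adjoin _ _ (mem_divisorExpansionsC k N hd)

/-- `j(q^d)` as an element of `F` (junk value `0` if `d ∤ N`). -/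
def jF (d : ℕ) : FF k N := if hd : d ∣ N then ⟨jd k d, jd_mem k N hd⟩ else 0

theorem jF_coe {d : ℕ} (hd : d ∣ N) : (jF k N d : LaurentSeries k) = jd k d := by
  rw [jF, dif_pos hd]

theorem divisorExpansionsC_eq : divisorExpansionsC k N = (fun d => jd k d) '' (N.divisors : Set ℕ) := by
  ext x
  constructor
  · rintro ⟨d, hne, hd, rfl⟩
    exact ⟨d, by simpa using ⟨hd, NeZero.ne N⟩, jd_eq k d⟩
  · rintro ⟨d, hd, rfl⟩
    have hd' : d ∣ N := (Nat.mem_divisors.mp (by simpa using hd)).1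
    have : NeZero d := ⟨ne_zero_of_dvd N hd'⟩
    exact ⟨d, this, hd', jd_eq k d⟩

omit [NeZero N] in
theorem natCast_ne_zero_of_dvd (hN : (N : k) ≠ 0) {p : ℕ} (hp : p ∣ N) :
    (p : AlgebraicClosure k) ≠ 0 := by
  intro h
  obtain ⟨m, rfl⟩ := hp
  apply hN
  have h1 : (p : k) = 0 := by
    apply (algebraMap k (AlgebraicClosure k)).injective
    rw [map_natCast, h, map_zero]
  rw [Nat.cast_mul, h1, zero_mul]

end Setup

end Fermat.Agent.S28
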