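import Fermat.Agent.S28.CChain
import Fermat.Agent.S28.CInt

/-!
# Block C, part 6: modular units and the orders of their conjugates.
-/

set_option autoImplicit false

noncomputable section

namespace Fermat.Agent.S28

open ModularCurve Polynomial

theorem map_eval_derivative_evY {R R' : Type*} [CommRing R] [CommRing R'] (f : R →+* R') (y x : R)
    (P : ℤ[X][X]) : f ((P.map (evY y)).derivative.eval x) =
      (P.map (evY (f y))).derivative.eval (f x) := by
  rw [← eval_map_apply, ← derivative_map, map_map_evY]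

theorem orderTop_pow_eq {K : Type*} [Field K] (u : HahnSeries ℚ K) (a : ℚ)
    (h : u.orderTop = ((a : ℚ) : WithTop ℚ)) (n : ℕ) :
    (u ^ n).orderTop = (((n : ℚ) * a : ℚ) : WithTop ℚ) := by
  induction n with
  | zero => simp
  | succ n ih =>
    rw [pow_succ, HahnSeries.orderTop_mul, ih, h, ← WithTop.coe_add]
    congr 1
    push_cast
    ring

section UnitSec

variable {k : Type} [Field k] {N : ℕ} [NeZero N]

/-- one prime step: a power of the unit `p¹² Δ(q^{pd})/Δ(q^d)` lies in `F`, and every embedding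
`σ` sends it to an element of `Om k` of order `m (r_{pd}(σ) - r_d(σ))`. -/
theorem exists_step_unit (hB : StatementB) (hN : (N : k) ≠ 0) {p d : ℕ} (hp : p.Prime)
    (hd : p * d ∣ N) :
    ∃ m : ℕ, 0 < m ∧ ∃ g : ↥(FF k N), g ≠ 0 ∧
      IsIntegral ↥(AA k) (g : LaurentSeries k) ∧ IsIntegral ↥(AA k) (g : LaurentSeries k)⁻¹ ∧
      ∀ σ : ↥(FF k N) →ₐ[↥(EE k)] OmBar k, ∃ y : Om k, σ g = toBar k y ∧
        y.orderTop = (((m : ℚ) * ((T σ (p * d)).r - (T σ d).r) : ℚ) : WithTop ℚ) := by
  have : NeZero p := ⟨hp.ne_zero⟩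
  obtain ⟨Φ, U, G, m, c, hBp⟩ := hB p hp
  have hd' : d ∣ N := (Dvd.intro_left p rfl).trans hd
  have hd0 : d ≠ 0 := ne_zero_of_dvd N hd'
  have : NeZero d := ⟨hd0⟩
  have : NeZero (p * d) := ⟨ne_zero_of_dvd N hd⟩
  have hpK := natCast_ne_zero_of_dvd k N hN ((Dvd.intro d rfl).trans hd)
  set a : ↥(FF k N) := (G.map (evY (jF k N d))).eval (jF k N (p * d)) with ha
  set b : ↥(FF k N) := (Φ.map (evY (jF k N d))).derivative.eval (jF k N (p * d)) with hb
  -- the relation in `F`
  have hrel : (Φ.map (evY (jF k N d))).eval (jF k N (p * d)) = 0 := by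
    apply (algebraMap ↥(FF k N) (LaurentSeries k)).injective
    rw [map_eval_evY, map_zero]
    change (Φ.map (evY ((jF k N d : ↥(FF k N)) : LaurentSeries k))).eval
      ((jF k N (p * d) : ↥(FF k N)) : LaurentSeries k) = 0
    rw [jF_coe k N hd', jF_coe k N hd]
    exact Phi_jd k hBp hpK d hd0
  -- general computation
  have key : ∀ (f : ↥(FF k N) →+* OmBar k) (t s : Par (AlgebraicClosure k)),
      f (jF k N d) = toBar k (J t) → f (jF k N (p * d)) = toBar k (J s) →
      ∀ u : Om k, (G.map (evY (J t))).eval (J s) =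
        u ^ m * (Φ.map (evY (J t))).derivative.eval (J s) → f (a / b) = toBar k (u ^ m) := by
    intro f t s ht hs u hu
    have hroot : (Φ.map (evY (J t))).eval (J s) = 0 := by
      apply toBar_injective k
      rw [map_eval_evY, ← ht, ← hs, ← map_eval_evY, hrel, map_zero, map_zero]
    have hne : (Φ.map (evY (J t))).derivative.eval (J s) ≠ 0 := by
      have h1 := (step_sep hBp hp hpK t).eval₂_derivative_ne_zero (RingHom.id _) (x := J s)
        (by rwa [eval₂_id])
      rwa [eval₂_id] at h1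
    rw [map_div₀, ha, hb, map_eval_evY, map_eval_derivative_evY, ht, hs, ← map_eval_evY,
      ← map_eval_derivative_evY, hu, map_mul, mul_div_assoc, div_self, mul_one]
    exact (_root_.map_ne_zero _).mpr hne
  -- the embeddings
  have hσ : ∀ σ : ↥(FF k N) →ₐ[↥(EE k)] OmBar k, ∃ y : Om k, σ (a / b) = toBar k y ∧
        y.orderTop = (((m : ℚ) * ((T σ (p * d)).r - (T σ d).r) : ℚ) : WithTop ℚ) := by
    intro σ
    obtain ⟨u, hu1, hu2⟩ := step_unit hBp hpK (T σ d) (T σ (p * d)) (T_step hB hN σ hp hd)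
    exact ⟨u ^ m, key (σ : ↥(FF k N) →+* OmBar k) _ _ (T_spec hB hN σ hd') (T_spec hB hN σ hd) u hu2,
      orderTop_pow_eq u _ hu1 m⟩
  -- the inclusion
  set u₀ : LaurentSeries k :=
    (p : LaurentSeries k) ^ 12 * qExpand k (p * d) (DlL k) * qExpand k d (DlLinv k) with hu₀
  have hincl : ((a / b : ↥(FF k N)) : LaurentSeries k) = u₀ ^ m := by
    apply iota_injective k
    apply toBar_injective k
    have h1 := key (algebraMap ↥(FF k N) (OmBar k)) (Pd k d) (Pd k (p * d))
      (by rw [algebraMap_FF_bar, jF_coe k N hd', iota_jd k d hd0])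
      (by rw [algebraMap_FF_bar, jF_coe k N hd, iota_jd k (p * d) (ne_zero_of_dvd N hd)])
      ((p : Om k) ^ 12 * D (Pd k (p * d)) * Dinv (Pd k d))
      (by rw [← Pd_pow k p d hd0]; exact step_unit_pow hBp hpK (Pd k d))
    rw [algebraMap_FF_bar] at h1
    rw [h1]
    congr 1
    rw [hu₀, map_pow (iota k), map_mul (iota k), map_mul (iota k), map_pow (iota k),
      map_natCast (iota k), iota_qExpand_DlL, iota_qExpand_DlLinv, Pd_eq, Pd_eq]
  obtain ⟨hint, hint'⟩ := isIntegral_unit k N hB hN hp hd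
  refine ⟨m, hBp.1, a / b, ?_, ?_, ?_, hσ⟩
  · intro h0
    obtain ⟨y, hy1, hy2⟩ := hσ σ₀
    rw [h0, map_zero] at hy1
    have : y = 0 := toBar_injective k (by rw [← hy1, map_zero])
    rw [this, HahnSeries.orderTop_zero] at hy2
    exact WithTop.top_ne_coe hy2
  · rw [hincl]
    exact hint.pow m
  · rw [hincl, ← inv_pow]
    exact hint'.pow m

/-- a power of the unit `Δ(q^d)/Δ(q)` (up to a constant) lies in `F`, and every embedding
`σ` sends it to an element of `Om k` of order `M (r_d(σ) - 1)`. -/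
theorem exists_unit (hB : StatementB) (hN : (N : k) ≠ 0) {d : ℕ} (hd : d ∣ N) :
    ∃ M : ℕ, 0 < M ∧ ∃ x : ↥(FF k N), x ≠ 0 ∧
      IsIntegral ↥(AA k) (x : LaurentSeries k) ∧ IsIntegral ↥(AA k) (x : LaurentSeries k)⁻¹ ∧
      ∀ σ : ↥(FF k N) →ₐ[↥(EE k)] OmBar k, ∃ y : Om k, σ x = toBar k y ∧
        y.orderTop = (((M : ℚ) * ((T σ d).r - 1) : ℚ) : WithTop ℚ) := by
  induction d using induction_on_primes with
  | zero => exact absurd rfl (ne_zero_of_dvd N hd)
  | one =>
    refine ⟨1, one_pos, 1, one_ne_zero, ?_, ?_, fun σ => ⟨1, by simp, ?_⟩⟩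
    · simpa using isIntegral_one
    · simpa using isIntegral_one
    · rw [T_r_one hB hN σ]
      simp
  | prime_mul p d hp ih =>
    have hd' : d ∣ N := (Dvd.intro_left p rfl).trans hd
    obtain ⟨M, hM, x, hx0, hx, hx', hxσ⟩ := ih hd'
    obtain ⟨m, hm, g, hg0, hg, hg', hgσ⟩ := exists_step_unit hB hN hp hd
    refine ⟨M * m, Nat.mul_pos hM hm, x ^ m * g ^ M,
      mul_ne_zero (pow_ne_zero _ hx0) (pow_ne_zero _ hg0), ?_, ?_, fun σ => ?_⟩
    · push_cast
      exact (hx.pow m).mul (hg.pow M)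
    · push_cast
      rw [mul_inv, ← inv_pow, ← inv_pow]
      exact (hx'.pow m).mul (hg'.pow M)
    · obtain ⟨y, hy1, hy2⟩ := hxσ σ
      obtain ⟨z, hz1, hz2⟩ := hgσ σ
      refine ⟨y ^ m * z ^ M, by rw [map_mul, map_pow, map_pow, hy1, hz1, map_mul, map_pow, map_pow],
        ?_⟩
      rw [HahnSeries.orderTop_mul, orderTop_pow_eq y _ hy2, orderTop_pow_eq z _ hz2,
        ← WithTop.coe_add]
      congr 1
      push_cast
      ring

end UnitSec

end Fermat.Agent.S28
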